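import Mathlib
import Fermat.Agent.SS.Val.Gauss2

/-!
# Program Q, assembler support : THE TWO-FACTOR PACKAGE `SsvAmb` HAS A UNIQUE WITNESS

For a fixed subring `R ⊂ F`, uniformiser `ϖ`, generator `y` and factors `F₁, F₂`, the polynomials
`Ξ` (monic generator of the kernel of `R[Y] → F`) and `G` (`Ξ = F₁ F₂ + ϖ G`) of a witness
`h : SsvAmb R ϖ y Ξ F₁ F₂ G` are uniquely determined.  Hence the valuation rings `h.V₁, h.V₂` do
not depend on the witness, and every statement about `h'.V₁, h'.V₂` for SOME witness `h'` (e.g.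
main's `ssgms_two_j : ∃ Ξ G h, SsvTwo … h.V₁ h.V₂`) transfers to ANY witness `h`.

* `sqcau_unique` : `Ξ = Ξ' ∧ G = G'`;
* `sqcau_transfer` : `P h'.V₁ h'.V₂ → P h.V₁ h.V₂` for every predicate `P`;
* `sqcau_of_exists` : from `∃ Ξ' G' h', P h'.V₁ h'.V₂` to `P h.V₁ h.V₂`.
-/

set_option autoImplicit false
set_option linter.unusedSectionVars false
set_option linter.unusedVariables false

noncomputable section

namespace Fermat.Agent.SQ

open Polynomial Fermat.Agent.SS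

variable {F : Type*} [Field F] {R : Subring F} [IsDiscreteValuationRing ↥R]
variable {ϖ : ↥R} {y : F} {Ξ Ξ' F₁ F₂ G G' : (↥R)[X]}

/-- the data `Ξ, G` of a witness of `SsvAmb` are unique -/
theorem sqcau_unique (h : SsvAmb R ϖ y Ξ F₁ F₂ G) (h' : SsvAmb R ϖ y Ξ' F₁ F₂ G') :
    Ξ = Ξ' ∧ G = G' := by
  have h1 : Ξ ∣ Ξ' := h.ker Ξ' h'.root
  have h2 : Ξ' ∣ Ξ := h'.ker Ξ h.root
  have hΞ : Ξ = Ξ' := Polynomial.eq_of_monic_of_associated h.monic h'.monic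
    (associated_of_dvd_dvd h1 h2)
  refine ⟨hΞ, ?_⟩
  have h3 : C ϖ * G = C ϖ * G' := by
    have e1 := h.fac
    have e2 := h'.fac
    rw [hΞ] at e1
    have : F₁ * F₂ + C ϖ * G = F₁ * F₂ + C ϖ * G' := e1.symm.trans e2
    exact add_left_cancel this
  have hϖ0 : (C ϖ : (↥R)[X]) ≠ 0 := by
    rw [Ne, C_eq_zero]
    exact h.irr.ne_zero
  exact mul_left_cancel₀ hϖ0 h3

/-- every property of the pair of valuation rings of SOME witness holds for ANY witness -/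
theorem sqcau_transfer (h : SsvAmb R ϖ y Ξ F₁ F₂ G) (h' : SsvAmb R ϖ y Ξ' F₁ F₂ G')
    (P : ValuationSubring F → ValuationSubring F → Prop) (hP : P h'.V₁ h'.V₂) :
    P h.V₁ h.V₂ := by
  obtain ⟨rfl, rfl⟩ := sqcau_unique h h'
  exact hP

/-- existential form -/
theorem sqcau_of_exists (h : SsvAmb R ϖ y Ξ F₁ F₂ G)
    (P : ValuationSubring F → ValuationSubring F → Prop)
    (hP : ∃ (Ξ' G' : (↥R)[X]) (h' : SsvAmb R ϖ y Ξ' F₁ F₂ G'), P h'.V₁ h'.V₂) :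
    P h.V₁ h.V₂ := by
  obtain ⟨Ξ', G', h', hP'⟩ := hP
  exact sqcau_transfer h h' P hP'

/-- the valuation rings of two witnesses coincide -/
theorem sqcau_V_eq (h : SsvAmb R ϖ y Ξ F₁ F₂ G) (h' : SsvAmb R ϖ y Ξ' F₁ F₂ G') :
    h.V₁ = h'.V₁ ∧ h.V₂ = h'.V₂ :=
  sqcau_transfer h h' (fun V₁ V₂ => V₁ = h'.V₁ ∧ V₂ = h'.V₂) ⟨rfl, rfl⟩

end Fermat.Agent.SQ
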