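import Mathlib
import Fermat.Agent.SQ.Conc.AmbUniq
import Fermat.Agent.SS.Germ.ModSingle

/-!
# Program Q, assembler support : `SsvTwo` FOR AN ARBITRARY WITNESS of the level-`Mq` package

Main's `ssvmm_two_coord`, `ssgms_two_j`, `ssgms_two_h` give the (VAL) package `SsvTwo … h.V₁ h.V₂`
for SOME witness `h : SsvAmb …` of the two-factor package at level `M q`.  By uniqueness of the
witness (`sqcau_unique`) the same holds for EVERY witness — the form in which the assembler's slots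
(`∀ {Ξ G} (h : SqccAmb A E M q Ξ G), …`) quantify.
-/

set_option autoImplicit false
set_option linter.unusedSectionVars false
set_option linter.unusedVariables false
set_option synthInstance.maxHeartbeats 400000

noncomputable section

namespace Fermat.Agent.SQ

open Polynomial ModularCurve AlgebraicCurve IntermediateField IsLocalRing Fermat.Agent.S18
  Fermat.Agent.G Fermat.Agent.SS

local notation "Qb" => AlgebraicClosure ℚ

section Generic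

variable {q : ℕ} [Fact q.Prime] [NeZero q] (𝔸 : ValuationSubring Qb)
  (E : IntermediateField ℚ Qb) [IsDiscreteValuationRing ↥(s18dVal 𝔸 E)]
variable (M : ℕ) [NeZero M]

set_option maxHeartbeats 1000000 in
/-- (VAL) at level `M q` for a generic chart coordinate `t₀` of level `M`, ANY witness `h`. -/
theorem sqcau_two_coord (hA : 𝔸.LiesOverPrime q) (hqM : ¬ q ∣ M) {ϖ : ↥(s18dVal 𝔸 E)}
    (hϖ : Irreducible ϖ) (t₀ : ↥(modularFunctionFieldFullC E M))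
    (τ : LaurentSeries ↥(s18dVal 𝔸 E)) (ht : S18VPole (modularFunctionFieldFullC E M) t₀ τ)
    (hc : S18Coord hϖ (modularFunctionFieldFullC E M) t₀)
    {Ξ G : (↥(ssvmmR 𝔸 E M q))[X]}
    (h : SsvAmb (ssvmmR 𝔸 E M q) (ssvmgRUnif (ssvmm_le E M q) ϖ) (ssvmmY E M q) Ξ
      (X - C (ssvmmJ 𝔸 E M q ^ q)) (X ^ q - C (ssvmmJ 𝔸 E M q)) G) :
    SsvTwo hϖ (IntermediateField.inclusion (ssvmm_le E M q) t₀)
      (ssvmmY E M q - ssvmdJ E (M * q) ^ q) (ssvmmY E M q ^ q - ssvmdJ E (M * q)) h.V₁ h.V₂ :=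
  sqcau_of_exists h
    (fun V₁ V₂ => SsvTwo hϖ (IntermediateField.inclusion (ssvmm_le E M q) t₀)
      (ssvmmY E M q - ssvmdJ E (M * q) ^ q) (ssvmmY E M q ^ q - ssvmdJ E (M * q)) V₁ V₂)
    (ssvmm_two_coord 𝔸 E M hA hqM hϖ t₀ τ ht hc)

end Generic

section H

variable {q : ℕ} [Fact q.Prime] [NeZero q] (𝔸 : ValuationSubring Qb)
  (E : IntermediateField ℚ Qb) [FiniteDimensional ℚ E] [IsDiscreteValuationRing ↥(s18dVal 𝔸 E)]
variable (M : ℕ) [NeZero M]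

set_option maxHeartbeats 1000000 in
/-- (VAL) at level `M q` for the chart `j`, ANY witness `h`. -/
theorem sqcau_two_j (hA : 𝔸.LiesOverPrime q) (hqM : ¬ q ∣ M) {ϖ : ↥(s18dVal 𝔸 E)}
    (hϖ : Irreducible ϖ) {Ξ G : (↥(ssvmmR 𝔸 E M q))[X]}
    (h : SsvAmb (ssvmmR 𝔸 E M q) (ssvmgRUnif (ssvmm_le E M q) ϖ) (ssvmmY E M q) Ξ
      (X - C (ssvmmJ 𝔸 E M q ^ q)) (X ^ q - C (ssvmmJ 𝔸 E M q)) G) :
    SsvTwo hϖ (ssdJ E (M * q)) (ssvmmY E M q - ssvmdJ E (M * q) ^ q)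
      (ssvmmY E M q ^ q - ssvmdJ E (M * q)) h.V₁ h.V₂ :=
  sqcau_of_exists h
    (fun V₁ V₂ => SsvTwo hϖ (ssdJ E (M * q)) (ssvmmY E M q - ssvmdJ E (M * q) ^ q)
      (ssvmmY E M q ^ q - ssvmdJ E (M * q)) V₁ V₂)
    (ssgms_two_j 𝔸 E M hA hqM ϖ hϖ)

variable (a : ℕ) [NeZero a] (ha : a = 2 ∨ a = 3) (haM : a ∣ M)

set_option maxHeartbeats 1000000 in
/-- (VAL) at level `M q` for the chart `h_a`, ANY witness `h`. -/
theorem sqcau_two_h (hA : 𝔸.LiesOverPrime q) (hqM : ¬ q ∣ M) {ϖ : ↥(s18dVal 𝔸 E)}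
    (hϖ : Irreducible ϖ) {Ξ G : (↥(ssvmmR 𝔸 E M q))[X]}
    (h : SsvAmb (ssvmmR 𝔸 E M q) (ssvmgRUnif (ssvmm_le E M q) ϖ) (ssvmmY E M q) Ξ
      (X - C (ssvmmJ 𝔸 E M q ^ q)) (X ^ q - C (ssvmmJ 𝔸 E M q)) G) :
    SsvTwo hϖ (ssgH E (M * q) a ha (Dvd.dvd.mul_right haM q))
      (ssvmmY E M q - ssvmdJ E (M * q) ^ q)
      (ssvmmY E M q ^ q - ssvmdJ E (M * q)) h.V₁ h.V₂ :=
  sqcau_of_exists h
    (fun V₁ V₂ => SsvTwo hϖ (ssgH E (M * q) a ha (Dvd.dvd.mul_right haM q))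
      (ssvmmY E M q - ssvmdJ E (M * q) ^ q) (ssvmmY E M q ^ q - ssvmdJ E (M * q)) V₁ V₂)
    (ssgms_two_h 𝔸 E M a ha haM hA hqM ϖ hϖ)

end H

end Fermat.Agent.SQ
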