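import Mathlib
import Fermat.Agent.SQ.Core.Main
import Fermat.Agent.SQ.Descend.Even
import Fermat.Agent.SS.Germ.FrobLift
import Fermat.Agent.S18.V.Spec

/-!
# Program Q (S36), package CONC : the base ring `A₀ = 𝔸 ∩ E₀` (prefix `sqcf_`)

`E₀ = ssgfE0 𝔸 E` the inertia field of a finite normal `E`, `A₀ = s18dVal 𝔸 E₀`.  Everything a
producer of `SqGeo M' q 𝔸 E₀ t` may assume about `A₀`, as theorems:

* `sqcf_isDVR`, `sqcf_charZero` : the two instances of `SqGeoAt`;
* `sqcf_irreducible` : `q` is a uniformiser (helper12's `sqdi_irreducible`);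
* `sqcf_charP`, `sqcf_frobenius_surjective`, `sqcf_perfectField`, `sqcf_finite` : the residue field is
  finite (hence perfect) of characteristic `q` — the first three for EVERY `E`;
* `sqcf_isUnit_natCast` (`q ∤ n`), `sqcf_exists_primitiveRoot` (`q ∤ m`, `ζ_m ∈ E`).
-/

set_option autoImplicit false
set_option linter.unusedSectionVars false
set_option linter.unusedVariables false
set_option linter.style.haveILetI false

noncomputable section

namespace Fermat.Agent.SQ

open IntermediateField IsLocalRing Fermat.Agent.S18 Fermat.Agent.SS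

local notation "Qb" => AlgebraicClosure ℚ

variable (A : ValuationSubring Qb) (E : IntermediateField ℚ Qb) {q : ℕ}

/-- `𝔸 ∩ E` is a discrete valuation ring (`E` a number field, `𝔸 | q`). -/
theorem sqcf_isDVR (hq : q.Prime) (hA : A.LiesOverPrime q) [FiniteDimensional ℚ E] :
    IsDiscreteValuationRing ↥(s18dVal A E) :=
  haveI : Fact q.Prime := ⟨hq⟩
  s18d_isDVR A E hA

/-- `𝔸 ∩ E` has characteristic `0`. -/
theorem sqcf_charZero : CharZero ↥(s18dVal A E) :=
  ⟨fun a b h => by
    have h1 := congrArg (fun x : ↥(s18dVal A E) => (x : E)) h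
    simpa using h1⟩

/-- `q` is a uniformiser of `𝔸 ∩ E₀`, `E₀` the inertia field. -/
theorem sqcf_irreducible (hq : q.Prime) (hA : A.LiesOverPrime q) [FiniteDimensional ℚ E]
    [Normal ℚ E] : Irreducible ((q : ℕ) : ↥(s18dVal A (ssgfE0 A E))) :=
  sqdi_irreducible A hq hA E

/-- the residue field of `𝔸 ∩ E` has characteristic `q` (`E` ANY subfield of `ℚ̄`). -/
theorem sqcf_charP [IsDiscreteValuationRing ↥(s18dVal A E)] (hq : q.Prime)
    (hA : A.LiesOverPrime q) : CharP (ResidueField ↥(s18dVal A E)) q := by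
  haveI : Fact q.Prime := ⟨hq⟩
  obtain ⟨ϖ, hϖ⟩ := IsDiscreteValuationRing.exists_irreducible ↥(s18dVal A E)
  exact s18v_charP hϖ (s18d_natCast_mem A E hA)

/-- the Frobenius of the residue field of `𝔸 ∩ E` is surjective. -/
theorem sqcf_frobenius_surjective [IsDiscreteValuationRing ↥(s18dVal A E)] (hq : q.Prime)
    (hA : A.LiesOverPrime q) :
    haveI : Fact q.Prime := ⟨hq⟩
    haveI := sqcf_charP A E hq hA
    Function.Surjective (frobenius (ResidueField ↥(s18dVal A E)) q) := by
  haveI : Fact q.Prime := ⟨hq⟩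
  haveI := sqcf_charP A E hq hA
  exact ssgfl_frobenius_surjective_dVal A E q

/-- the residue field of `𝔸 ∩ E` is perfect. -/
theorem sqcf_perfectField [IsDiscreteValuationRing ↥(s18dVal A E)] (hq : q.Prime)
    (hA : A.LiesOverPrime q) : PerfectField (ResidueField ↥(s18dVal A E)) := by
  haveI : Fact q.Prime := ⟨hq⟩
  haveI := sqcf_charP A E hq hA
  haveI : ExpChar (ResidueField ↥(s18dVal A E)) q := ExpChar.prime hq
  haveI : PerfectRing (ResidueField ↥(s18dVal A E)) q :=
    PerfectRing.ofSurjective _ q (ssgfl_frobenius_surjective_dVal A E q)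
  exact PerfectRing.toPerfectField _ q

/-- the residue field of `𝔸 ∩ E` is finite (`E` a number field). -/
theorem sqcf_finite (hq : q.Prime) (hA : A.LiesOverPrime q) [FiniteDimensional ℚ E] :
    Finite (ResidueField ↥(s18dVal A E)) := by
  haveI : NumberField E := { to_charZero := inferInstance, to_finiteDimensional := inferInstance }
  exact sqde_finite_residue (s18dVal A E) hq (sqde_q_mem A hA E)

/-- `n` prime to `q` is a unit of `𝔸 ∩ E`. -/
theorem sqcf_isUnit_natCast {n : ℕ} (hq : q.Prime) (hqn : ¬ q ∣ n) (hA : A.LiesOverPrime q) :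
    IsUnit ((n : ℕ) : ↥(s18dVal A E)) :=
  sqco_isUnit_natCast A E hq hqn hA

/-- a primitive `m`-th root of unity of `E` (`q ∤ m`) lies in `𝔸 ∩ E₀`. -/
theorem sqcf_exists_primitiveRoot (hq : q.Prime) (hA : A.LiesOverPrime q) {m : ℕ} (hm : m ≠ 0)
    (hqm : ¬ q ∣ m) (hζ : ∃ ζ : Qb, ζ ∈ E ∧ IsPrimitiveRoot ζ m) :
    ∃ ζ₀ : ↥(s18dVal A (ssgfE0 A E)), IsPrimitiveRoot ζ₀ m :=
  sqco_exists_primitiveRoot A E hq hA hm hqm hζ

end Fermat.Agent.SQ
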