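import Mathlib
import Fermat.Agent.SQ.Germ.Over

/-!
# Program Q (S36), concrete side : norms of integral elements (prefix `sqcn_`)

`α : F₁ →+* F` a finite field extension compatible with the `A`-algebra structures, `t₁ ∈ F₁`.
* `sqcn_norm_map` : `N_α (α y) = y ^ [F : α F₁]`;
* `sqcn_norm_mem_int` : `N_α` maps `s18tInt A (α t₁)` into `s18tInt A t₁`.
-/

set_option autoImplicit false
set_option linter.unusedSectionVars false
set_option linter.unusedVariables false
set_option linter.style.haveILetI false

noncomputable section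

namespace Fermat.Agent.SQ

open Polynomial Fermat.Agent.S18 Fermat.Agent.SS Fermat.Agent.G

/-- the norm of an element of the base field -/
theorem sqcn_norm_map {F₁ F : Type*} [Field F₁] [Field F] (α : F₁ →+* F) (y : F₁) :
    @Algebra.norm F₁ F _ _ α.toAlgebra (α y) =
      y ^ @Module.finrank F₁ F _ _ α.toAlgebra.toModule := by
  letI := α.toAlgebra
  exact Algebra.norm_algebraMap (R := F₁) (S := F) y

/-- the norm along `α` maps the integral closure of `A[α t₁]` into the integral closure of `A[t₁]` -/
theorem sqcn_norm_mem_int {A : Type*} [CommRing A] [IsDomain A] [IsDiscreteValuationRing A]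
    [CharZero A] {F₁ F : Type*} [Field F₁] [Field F]
    [Algebra A F₁] [Algebra A F] (α : F₁ →+* F)
    (hα : ∀ a : A, α (algebraMap A F₁ a) = algebraMap A F a) (t₁ : F₁) {p : F}
    (hp : p ∈ s18tInt A (α t₁)) :
    @Algebra.norm F₁ F _ _ α.toAlgebra p ∈ s18tInt A t₁ := by
  letI iα : Algebra F₁ F := α.toAlgebra
  let g : ↥(s18tChart A t₁) →+* F := α.comp (algebraMap ↥(s18tChart A t₁) F₁)
  letI ig : Algebra ↥(s18tChart A t₁) F := g.toAlgebra
  haveI ist : @IsScalarTower ↥(s18tChart A t₁) F₁ F _ iα.toSMul ig.toSMul :=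
    @IsScalarTower.of_algebraMap_eq ↥(s18tChart A t₁) F₁ F _ _ _ _ iα ig (fun _ => rfl)
  have h1 : g.IsIntegralElem p := by
    refine sqgo_isIntegralElem (t := α t₁) g (fun a => ?_) ?_ hp
    · have : algebraMap A F a = g (algebraMap A ↥(s18tChart A t₁) a) := by
        show _ = α (algebraMap A F₁ a)
        rw [hα]
      rw [this]
      exact RingHom.isIntegralElem_map _
    · have : α t₁ = g ⟨t₁, Algebra.subset_adjoin (Set.mem_singleton t₁)⟩ := rfl
      rw [this]
      exact RingHom.isIntegralElem_map _
  have h2 : IsIntegral ↥(s18tChart A t₁) p := h1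
  exact @Algebra.isIntegral_norm ↥(s18tChart A t₁) _ F F₁ _ _ iα ig _ ist p h2

end Fermat.Agent.SQ
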