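import Mathlib
import Fermat.Agent.SQ.Core.Top
import Fermat.Agent.SQ.NormInst
import Fermat.Agent.SQ.Germ.Adapt
import Fermat.Agent.SS.Germ.ModSingle
import Fermat.Agent.SQ.Conc.NormInt

/-!
# Program Q (S36), concrete side : THE ASSEMBLY `SqGeoAll` (prefix `sqcc_`, `Sqcc`)

Producer of helper18's `SqGeoAll` (`SQ/Core/Top.lean`), the Q-analogue of `ST/Conc/Geo.lean`.

Levels `M` (`q ∤ M`), `M q`, `M q q`; `F₀ = F_E(M)`, `F₁ = F_E(M q)`, `F = F_E(M q q)`;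
`α₁ = ssvmdIncl E M q`, `φ₁ = ssvmfPhi E M q : F₀ → F₁`, `α = ssvmdIncl E (M q) q`,
`φ = ssvmfPhi E (M q) q : F₁ → F`; `A₀ = 𝔸 ∩ E` a DVR with uniformiser `ϖ = q`; chart coordinates
`t₀ ∈ F₀` (`j` or `h_a`), `t₁ = α₁ t₀`, `t = α t₁`; `W₁ = h.V₁`, `W₂ = h.V₂` for a witness `h` of the
two-factor package `SsvAmb` at level `M q` (as everywhere in Program S / T / VAL²).

THE SLOTS (one literal `Prop` per producer) :
* `SqccVal`   (VAL², helper17 / helper15 / helper8) : `SqvThree` + `SqniVal`;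
* `SqccWire`  (GERM² valuation level, helper7 + helper9) : `SqgwHyp`;
* `SqccT1`    (R1, helper1 et al.) : the nodes of level `M q` have thickness one (`SqgaNode`);
* `SqccT2`    (R1, helper10) : the component `C₂` at its own points;
* `SqccInf`   (cusps, helper5) : `SqSimpleAt` at the points at infinity.
-/

set_option autoImplicit false
set_option linter.unusedSectionVars false
set_option linter.unusedVariables false
set_option linter.style.haveILetI false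
set_option synthInstance.maxHeartbeats 400000

noncomputable section

namespace Fermat.Agent.SQ

open Polynomial ModularCurve AlgebraicCurve IsLocalRing IntermediateField Fermat.Agent.S18
  Fermat.Agent.SS Fermat.Agent.G

local notation "Qb" => AlgebraicClosure ℚ

section Slots

variable (A : ValuationSubring Qb) (E : IntermediateField ℚ Qb)
  [IsDiscreteValuationRing ↥(s18dVal A E)] [CharZero ↥(s18dVal A E)] (M q : ℕ) [NeZero M]
  [Fact q.Prime] [NeZero q]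

/-- the type of the witnesses of the two-factor package at level `M q`, uniformiser `ϖ = q` -/
abbrev SqccAmb (Ξ G : (↥(ssvmmR A E M q))[X]) : Prop :=
  SsvAmb (ssvmmR A E M q) (ssvmgRUnif (ssvmm_le E M q) ((q : ℕ) : ↥(s18dVal A E)))
    (ssvmmY E M q) Ξ (X - C (ssvmmJ A E M q ^ q)) (X ^ q - C (ssvmmJ A E M q)) G

/-- the chart coordinate of level `M q q` -/
abbrev sqccT (t₀ : modularFunctionFieldFullC E M) : modularFunctionFieldFullC E (M * q * q) :=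
  ssvmdIncl E (M * q) q (ssvmdIncl E M q t₀)

/-- **SLOT (VAL²)** for given valuation rings : `SqvThree` and `SqniVal`. -/
structure SqccVal (t₀ : modularFunctionFieldFullC E M)
    (hϖ : Irreducible ((q : ℕ) : ↥(s18dVal A E))) {Ξ G : (↥(ssvmmR A E M q))[X]}
    (h : SqccAmb A E M q Ξ G) (π₂ : modularFunctionFieldFullC E (M * q * q))
    (V₁ V₂ V₃ : ValuationSubring (modularFunctionFieldFullC E (M * q * q))) : Prop where
  three : SqvThree hϖ (sqccT E M q t₀) (q - 1) π₂ V₁ V₂ V₃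
  val : SqniVal (algebraMap E (modularFunctionFieldFullC E (M * q)))
    (ssvmdIncl E (M * q) q).toRingHom (ssvmfPhi E (M * q) q) (s18dVal A E) h.V₁ h.V₂ V₁ V₂ V₃
    (algebraMap ↥(s18dVal A E) E ((q : ℕ) : ↥(s18dVal A E))) π₂ q

/-- **SLOT (GERM², valuation level)** : helper9's `SqgwHyp` for the concrete tower. -/
def SqccWire (t₀ : modularFunctionFieldFullC E M) : Prop :=
  ∀ (hϖ : Irreducible ((q : ℕ) : ↥(s18dVal A E))) {Ξ G : (↥(ssvmmR A E M q))[X]}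
    (h : SqccAmb A E M q Ξ G) (π₂ : modularFunctionFieldFullC E (M * q * q))
    (V₁ V₂ V₃ : ValuationSubring (modularFunctionFieldFullC E (M * q * q))),
    SqccVal A E M q t₀ hϖ h π₂ V₁ V₂ V₃ →
    SqgwHyp hϖ (RingHom.id ↥(s18dVal A E)) (ssvmdIncl E M q).toRingHom (ssvmfPhi E M q)
      (ssvmdIncl E (M * q) q).toRingHom (ssvmfPhi E (M * q) q) ((q : ℕ) : ↥(s18dVal A E))
      t₀ (ssvmdIncl E M q t₀) (sqccT E M q t₀) (q - 1) h.V₁ h.V₂ V₁ V₂ V₃ q

/-- **SLOT (R1-T1)** : the nodes of level `M q` have thickness one. -/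
def SqccT1 (t₀ : modularFunctionFieldFullC E M) : Prop :=
  ∀ (hϖ : Irreducible ((q : ℕ) : ↥(s18dVal A E))) {Ξ G : (↥(ssvmmR A E M q))[X]}
    (h : SqccAmb A E M q Ξ G)
    (𝔫₁ : Ideal ↥(s18tInt ↥(s18dVal A E) (ssvmdIncl E M q t₀))), 𝔫₁.IsPrime →
    SqgaOn (ssvmdIncl E M q t₀) 𝔫₁ h.V₁ → SqgaOn (ssvmdIncl E M q t₀) 𝔫₁ h.V₂ →
    SqgaNode ((q : ℕ) : ↥(s18dVal A E)) (ssvmdIncl E M q t₀) h.V₁ h.V₂ 𝔫₁

/-- **SLOT (R1-T2)** : at a closed point lying on `C₂` only, `ϖ = π ^ (q - 1) · w` locally. -/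
def SqccT2 (t₀ : modularFunctionFieldFullC E M) : Prop :=
  ∀ (hϖ : Irreducible ((q : ℕ) : ↥(s18dVal A E))) {Ξ G : (↥(ssvmmR A E M q))[X]}
    (h : SqccAmb A E M q Ξ G) (π₂ : modularFunctionFieldFullC E (M * q * q))
    (V₁ V₂ V₃ : ValuationSubring (modularFunctionFieldFullC E (M * q * q))),
    SqccVal A E M q t₀ hϖ h π₂ V₁ V₂ V₃ →
    ∀ 𝔫 : Ideal ↥(s18tInt ↥(s18dVal A E) (sqccT E M q t₀)), 𝔫.IsMaximal →
      sskPi ((q : ℕ) : ↥(s18dVal A E)) (sqccT E M q t₀) ∈ 𝔫 →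
      SqgaOn (sqccT E M q t₀) 𝔫 V₂ → ¬ SqgaOn (sqccT E M q t₀) 𝔫 V₁ → ¬ SqgaOn (sqccT E M q t₀) 𝔫 V₃ →
      ∃ π w : modularFunctionFieldFullC E (M * q * q), SsnfInLoc (sqccT E M q t₀) 𝔫 π ∧
        π ∈ V₂.nonunits ∧ SsnfInLoc (sqccT E M q t₀) 𝔫 w ∧
        algebraMap ↥(s18dVal A E) (modularFunctionFieldFullC E (M * q * q))
          ((q : ℕ) : ↥(s18dVal A E)) = π ^ (q - 1) * w

/-- **SLOT (CUSPS)** : the closed points at infinity of the chart `t⁻¹` are simple. -/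
def SqccInf (t₀ : modularFunctionFieldFullC E M) : Prop :=
  ∀ (hϖ : Irreducible ((q : ℕ) : ↥(s18dVal A E))) {Ξ G : (↥(ssvmmR A E M q))[X]}
    (h : SqccAmb A E M q Ξ G) (π₂ : modularFunctionFieldFullC E (M * q * q))
    (V₁ V₂ V₃ : ValuationSubring (modularFunctionFieldFullC E (M * q * q))),
    SqccVal A E M q t₀ hϖ h π₂ V₁ V₂ V₃ →
    ∀ 𝔫 : Ideal ↥(s18tInt ↥(s18dVal A E) (sqccT E M q t₀)⁻¹), 𝔫.IsMaximal →
      sskPi ((q : ℕ) : ↥(s18dVal A E)) (sqccT E M q t₀)⁻¹ ∈ 𝔫 →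
      ssglTinv (A := ↥(s18dVal A E)) (sqccT E M q t₀) ∈ 𝔫 →
      SqSimpleAt (sqccT E M q t₀)⁻¹ V₁ V₂ V₃ 𝔫

/-- **SLOT (VAL², existence)** : the valuation rings exist. -/
def SqccValEx (t₀ : modularFunctionFieldFullC E M) : Prop :=
  ∀ hϖ : Irreducible ((q : ℕ) : ↥(s18dVal A E)),
    ∃ (Ξ G : (↥(ssvmmR A E M q))[X]) (h : SqccAmb A E M q Ξ G)
      (π₂ : modularFunctionFieldFullC E (M * q * q))
      (V₁ V₂ V₃ : ValuationSubring (modularFunctionFieldFullC E (M * q * q))),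
      SqccVal A E M q t₀ hϖ h π₂ V₁ V₂ V₃

end Slots

/-! ### the concrete side from the slots, one field `E` -/

section Core

variable (A : ValuationSubring Qb) (E : IntermediateField ℚ Qb)
  [IsDiscreteValuationRing ↥(s18dVal A E)] [CharZero ↥(s18dVal A E)] (M q : ℕ) [NeZero M]
  [Fact q.Prime] [NeZero q]

set_option maxHeartbeats 1000000 in
/-- **`SqGeo` FROM THE SLOTS.** -/
theorem sqcc_geo (t₀ : modularFunctionFieldFullC E M) (ht₀ : Transcendental E t₀)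
    [FiniteDimensional E⟮t₀⟯ (modularFunctionFieldFullC E M)]
    (ht : Transcendental E (sqccT E M q t₀))
    (hfin : FiniteDimensional E⟮sqccT E M q t₀⟯ (modularFunctionFieldFullC E (M * q * q)))
    (hpole : ((sqccT E M q t₀ : modularFunctionFieldFullC E (M * q * q)) :
      LaurentSeries E).order < 0)
    (hVal : SqccValEx A E M q t₀) (hWire : SqccWire A E M q t₀) (hT1 : SqccT1 A E M q t₀)
    (hT2 : SqccT2 A E M q t₀) (hInf : SqccInf A E M q t₀) :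
    SqGeo (M * q) q A E (sqccT E M q t₀) := by
  refine ⟨ht, hfin, hpole, fun hϖ => ?_⟩
  obtain ⟨Ξ, G, h, π₂, V₁, V₂, V₃, hv⟩ := hVal hϖ
  have hW := hWire hϖ h π₂ V₁ V₂ V₃ hv
  have P := hv.val
  -- `π₂` is a nonzero nonunit of `V₂`
  have hπ₂lt : V₂.valuation π₂ < 1 := P.unifV₂.1
  have hϖE : algebraMap ↥(s18dVal A E) E ((q : ℕ) : ↥(s18dVal A E)) ≠ 0 := by
    intro h0
    have h1 : ((q : ℕ) : ↥(s18dVal A E)) = 0 :=
      (IsFractionRing.injective ↥(s18dVal A E) E) (by rw [h0, map_zero])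
    exact hϖ.ne_zero h1
  have hπ₂0 : π₂ ≠ 0 := by
    intro h0
    have h1 := P.pow₂
    have hq1 : q - 1 ≠ 0 := by
      have := (Fact.out : q.Prime).two_le
      omega
    rw [h0, map_zero, zero_pow hq1] at h1
    have h2 := (Valuation.zero_iff _).mp h1.symm
    exact hϖE ((algebraMap E (modularFunctionFieldFullC E (M * q))).injective
      (((ssvmdIncl E (M * q) q).toRingHom).injective (by rw [h2, map_zero, map_zero])))
  refine ⟨q - 1, π₂, V₁, V₂, V₃, h.V₁, h.V₂, _, _, _, _, _, _,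
    ⟨hv.three, sqniOrd_self hπ₂lt hπ₂0, sqni_normData P, ?_, ?_⟩⟩
  · -- the closed points of the chart `t`
    refine sqgad_h0 (L := E) hW hϖ ht₀ _ _ (fun y => ?_) (fun y => ?_) (fun p hp => ?_)
      (fun p hp => ?_) (hT1 hϖ h) (hT2 hϖ h π₂ V₁ V₂ V₃ hv)
    · have := sqcn_norm_map (ssvmdIncl E (M * q) q).toRingHom y
      rw [show @Module.finrank _ _ _ _ (ssvmdIncl E (M * q) q).toRingHom.toAlgebra.toModule = q
        from P.degα] at this
      exact this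
    · have := sqcn_norm_map (ssvmfPhi E (M * q) q) y
      rw [show @Module.finrank _ _ _ _ (ssvmfPhi E (M * q) q).toAlgebra.toModule = q
        from P.degφ] at this
      exact this
    · exact sqcn_norm_mem_int (ssvmdIncl E (M * q) q).toRingHom hW.posα.compat _ hp
    · rw [← hW.chart₂] at hp
      have h1 := sqcn_norm_mem_int (ssvmfPhi E (M * q) q) hW.posφ.compat
        (ssvmfPhi E M q t₀) hp
      rw [hW.chartW] at h1
      exact h1
  · exact hInf hϖ h π₂ V₁ V₂ V₃ hv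

end Core

/-! ### all big enough number fields -/

section Big

/-- a property of the inertia fields `E₀ = ssgfE0 A E` of all big enough finite normal number
fields `E` -/
def SqccBig (A : ValuationSubring Qb)
    (P : ∀ (E₀ : IntermediateField ℚ Qb) [IsDiscreteValuationRing ↥(s18dVal A E₀)]
      [CharZero ↥(s18dVal A E₀)], Prop) : Prop :=
  ∃ (E₁ : IntermediateField ℚ Qb) (_ : FiniteDimensional ℚ E₁),
    ∀ (E : IntermediateField ℚ Qb) [FiniteDimensional ℚ E] [Normal ℚ E]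
      [IsDiscreteValuationRing ↥(s18dVal A (ssgfE0 A E))] [CharZero ↥(s18dVal A (ssgfE0 A E))],
      E₁ ≤ E → P (ssgfE0 A E)

theorem SqccBig.and {A : ValuationSubring Qb}
    {P Q : ∀ (E₀ : IntermediateField ℚ Qb) [IsDiscreteValuationRing ↥(s18dVal A E₀)]
      [CharZero ↥(s18dVal A E₀)], Prop} (hP : SqccBig A P) (hQ : SqccBig A Q) :
    SqccBig A (fun E₀ => P E₀ ∧ Q E₀) := by
  obtain ⟨E₁, hE₁, h₁⟩ := hP
  obtain ⟨E₂, hE₂, h₂⟩ := hQ
  haveI := hE₁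
  haveI := hE₂
  refine ⟨E₁ ⊔ E₂, IntermediateField.finiteDimensional_sup _ _, ?_⟩
  intro E _ _ _ _ hle
  exact ⟨h₁ E (le_sup_left.trans hle), h₂ E (le_sup_right.trans hle)⟩

end Big

/-! ### the two charts -/

section Charts

variable (A : ValuationSubring Qb) (M q : ℕ) [NeZero M] [Fact q.Prime] [NeZero q]

theorem sqcc_chart_j (E : IntermediateField ℚ Qb) :
    sqccT E M q (ssdJ E M) = ssdJ E (M * q * q) := by
  show ssvmdIncl E (M * q) q (ssvmdIncl E M q (ssdJ E M)) = _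
  have e₁ : ssvmdIncl E M q (ssdJ E M) = ssdJ E (M * q) :=
    Subtype.ext (ssvmdIncl_coe E M q (ssdJ E M))
  rw [e₁]
  exact Subtype.ext (ssvmdIncl_coe E (M * q) q (ssdJ E (M * q)))

theorem sqcc_chart_h (E : IntermediateField ℚ Qb) (a : ℕ) [NeZero a] (ha : a = 2 ∨ a = 3)
    (haM : a ∣ M) :
    sqccT E M q (ssgH E M a ha haM) =
      ssgH E (M * q * q) a ha (Dvd.dvd.mul_right (Dvd.dvd.mul_right haM q) q) := by
  show ssvmdIncl E (M * q) q (ssvmdIncl E M q (ssgH E M a ha haM)) = _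
  have e₁ : ssvmdIncl E M q (ssgH E M a ha haM) =
      ssgH E (M * q) a ha (Dvd.dvd.mul_right haM q) :=
    Subtype.ext (ssvmdIncl_coe E M q (ssgH E M a ha haM))
  rw [e₁]
  exact Subtype.ext (ssvmdIncl_coe E (M * q) q (ssgH E (M * q) a ha (Dvd.dvd.mul_right haM q)))

set_option maxHeartbeats 1000000 in
/-- **`SqGeoAt (M q) q A` for the chart `t = j`**, from the slots. -/
theorem sqcc_geoAt_j
    (hVal : SqccBig A (fun E₀ => SqccValEx A E₀ M q (ssdJ E₀ M)))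
    (hWire : SqccBig A (fun E₀ => SqccWire A E₀ M q (ssdJ E₀ M)))
    (hT1 : SqccBig A (fun E₀ => SqccT1 A E₀ M q (ssdJ E₀ M)))
    (hT2 : SqccBig A (fun E₀ => SqccT2 A E₀ M q (ssdJ E₀ M)))
    (hInf : SqccBig A (fun E₀ => SqccInf A E₀ M q (ssdJ E₀ M))) :
    SqGeoAt (M * q) q A := by
  obtain ⟨E₁, hE₁, hall⟩ := ((((hVal.and hWire).and hT1).and hT2).and hInf)
  refine ⟨E₁, hE₁, ?_⟩
  intro E _ _ _ _ hle
  obtain ⟨⟨⟨⟨h1, h2⟩, h3⟩, h4⟩, h5⟩ := hall E hle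
  refine ⟨sqccT (ssgfE0 A E) M q (ssdJ (ssgfE0 A E) M), ?_⟩
  haveI := ssd_finiteDimensional_j (ssgfE0 A E) M
  refine sqcc_geo A (ssgfE0 A E) M q (ssdJ (ssgfE0 A E) M) (ssd_transcendental_j _ M) ?_ ?_ ?_
    h1 h2 h3 h4 h5
  · rw [sqcc_chart_j]
    exact ssd_transcendental_j _ _
  · rw [sqcc_chart_j]
    exact ssd_finiteDimensional_j _ _
  · rw [sqcc_chart_j]
    show (jqModC ↥(ssgfE0 A E)).order < 0
    rw [s18db_order_jqModC]
    norm_num

set_option maxHeartbeats 1000000 in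
/-- **`SqGeoAt (M q) q A` for the chart `t = h_a`**, from the slots. -/
theorem sqcc_geoAt_h (a : ℕ) [NeZero a] (ha : a = 2 ∨ a = 3) (haM : a ∣ M)
    (hVal : SqccBig A (fun E₀ => SqccValEx A E₀ M q (ssgH E₀ M a ha haM)))
    (hWire : SqccBig A (fun E₀ => SqccWire A E₀ M q (ssgH E₀ M a ha haM)))
    (hT1 : SqccBig A (fun E₀ => SqccT1 A E₀ M q (ssgH E₀ M a ha haM)))
    (hT2 : SqccBig A (fun E₀ => SqccT2 A E₀ M q (ssgH E₀ M a ha haM)))
    (hInf : SqccBig A (fun E₀ => SqccInf A E₀ M q (ssgH E₀ M a ha haM))) :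
    SqGeoAt (M * q) q A := by
  obtain ⟨E₁, hE₁, hall⟩ := ((((hVal.and hWire).and hT1).and hT2).and hInf)
  refine ⟨E₁, hE₁, ?_⟩
  intro E _ _ _ _ hle
  obtain ⟨⟨⟨⟨h1, h2⟩, h3⟩, h4⟩, h5⟩ := hall E hle
  refine ⟨sqccT (ssgfE0 A E) M q (ssgH (ssgfE0 A E) M a ha haM), ?_⟩
  haveI := ssg_finiteDimensional_h (ssgfE0 A E) M a ha haM
  refine sqcc_geo A (ssgfE0 A E) M q (ssgH (ssgfE0 A E) M a ha haM)
    (ssg_transcendental_h _ M a ha haM) ?_ ?_ ?_ h1 h2 h3 h4 h5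
  · rw [sqcc_chart_h]
    exact ssg_transcendental_h _ _ a ha _
  · rw [sqcc_chart_h]
    exact ssg_finiteDimensional_h _ _ a ha _
  · rw [sqcc_chart_h]
    show (s18hq a (s18hExp a) ↥(ssgfE0 A E)).order < 0
    exact s18hk_order_hq_neg a (s18hExp a)

end Charts

/-! ### `SqGeoAll` from the slots -/

section All

/-- the shape of a slot : a property of a chart coordinate `t₀ ∈ F_{E₀}(M)` -/
abbrev SqccSlot : Type :=
  ∀ (A : ValuationSubring Qb) (E₀ : IntermediateField ℚ Qb)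
    [IsDiscreteValuationRing ↥(s18dVal A E₀)] [CharZero ↥(s18dVal A E₀)] (M q : ℕ) [NeZero M]
    [NeZero q], modularFunctionFieldFullC E₀ M → Prop

/-- a slot at the chart `j` (`q ≥ 5`), at every level `M` carrying an auxiliary prime
`r ≡ 11 (mod 12)`, over the inertia fields of all big enough number fields -/
def SqccAllJ (Slot : SqccSlot) : Prop :=
  ∀ (M q : ℕ) [NeZero M] [Fact q.Prime] [NeZero q], ¬ q ∣ M → 5 ≤ q →
    (∃ r : ℕ, r.Prime ∧ r ∣ M ∧ r ≠ q ∧ r % 12 = 11) →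
    ∀ A : ValuationSubring Qb, A.LiesOverPrime q →
      SqccBig A (fun E₀ => Slot A E₀ M q (ssdJ E₀ M))

/-- a slot at the chart `h_a` (`q ∈ {2, 3}`, `a = 5 - q`, `a ∣ M`) -/
def SqccAllH (Slot : SqccSlot) : Prop :=
  ∀ (M q : ℕ) [NeZero M] [Fact q.Prime] [NeZero q] (a : ℕ) [NeZero a] (ha : a = 2 ∨ a = 3)
    (haM : a ∣ M), ((q = 2 ∧ a = 3) ∨ (q = 3 ∧ a = 2)) → ¬ q ∣ M →
    (∃ r : ℕ, r.Prime ∧ r ∣ M ∧ r ≠ q ∧ r % 12 = 11) →
    ∀ A : ValuationSubring Qb, A.LiesOverPrime q →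
      SqccBig A (fun E₀ => Slot A E₀ M q (ssgH E₀ M a ha haM))

set_option maxHeartbeats 1000000 in
/-- **THE GEOMETRIC INPUT OF PROGRAM Q, FROM THE SLOTS.** -/
theorem sqcc_geoAll
    (hValJ : SqccAllJ @SqccValEx) (hWireJ : SqccAllJ @SqccWire) (hT1J : SqccAllJ @SqccT1)
    (hT2J : SqccAllJ @SqccT2) (hInfJ : SqccAllJ @SqccInf)
    (hValH : SqccAllH @SqccValEx) (hWireH : SqccAllH @SqccWire) (hT1H : SqccAllH @SqccT1)
    (hT2H : SqccAllH @SqccT2) (hInfH : SqccAllH @SqccInf) : SqGeoAll := by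
  intro N q _ _ hq hqN hq2 h2 h3 haux A hA
  obtain ⟨M, hM⟩ := hqN
  rw [mul_comm] at hM
  subst hM
  haveI : Fact q.Prime := ⟨hq⟩
  haveI : NeZero M := ⟨fun h0 => by
    have := NeZero.ne (M * q)
    rw [h0, zero_mul] at this
    exact this rfl⟩
  have hqM : ¬ q ∣ M := by
    rintro ⟨c, rfl⟩
    exact hq2 ⟨c, by ring⟩
  have haux' : ∃ r : ℕ, r.Prime ∧ r ∣ M ∧ r ≠ q ∧ r % 12 = 11 := by
    obtain ⟨r, hr, hrN, hrq, hr12⟩ := haux
    refine ⟨r, hr, ?_, hrq, hr12⟩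
    rcases (Nat.Prime.dvd_mul hr).mp hrN with h | h
    · exact h
    · exact absurd ((Nat.prime_dvd_prime_iff_eq hr hq).mp h) hrq
  by_cases h5 : 5 ≤ q
  · exact sqcc_geoAt_j A M q (hValJ M q hqM h5 haux' A hA) (hWireJ M q hqM h5 haux' A hA)
      (hT1J M q hqM h5 haux' A hA) (hT2J M q hqM h5 haux' A hA) (hInfJ M q hqM h5 haux' A hA)
  · have hq23 : q = 2 ∨ q = 3 := by
      have h1 := hq.two_le
      have h4 : q ≠ 4 := by
        rintro rfl
        exact absurd hq (by norm_num)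
      omega
    rcases hq23 with rfl | rfl
    · have h3M : 3 ∣ M := by
        have := h2 rfl
        exact (Nat.Coprime.dvd_of_dvd_mul_right (by norm_num) this)
      exact sqcc_geoAt_h A M 2 3 (Or.inr rfl) h3M
        (hValH M 2 3 (Or.inr rfl) h3M (Or.inl ⟨rfl, rfl⟩) hqM haux' A hA)
        (hWireH M 2 3 (Or.inr rfl) h3M (Or.inl ⟨rfl, rfl⟩) hqM haux' A hA)
        (hT1H M 2 3 (Or.inr rfl) h3M (Or.inl ⟨rfl, rfl⟩) hqM haux' A hA)
        (hT2H M 2 3 (Or.inr rfl) h3M (Or.inl ⟨rfl, rfl⟩) hqM haux' A hA)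
        (hInfH M 2 3 (Or.inr rfl) h3M (Or.inl ⟨rfl, rfl⟩) hqM haux' A hA)
    · have h2M : 2 ∣ M := by
        have := h3 rfl
        exact (Nat.Coprime.dvd_of_dvd_mul_right (by norm_num) this)
      exact sqcc_geoAt_h A M 3 2 (Or.inl rfl) h2M
        (hValH M 3 2 (Or.inl rfl) h2M (Or.inr ⟨rfl, rfl⟩) hqM haux' A hA)
        (hWireH M 3 2 (Or.inl rfl) h2M (Or.inr ⟨rfl, rfl⟩) hqM haux' A hA)
        (hT1H M 3 2 (Or.inl rfl) h2M (Or.inr ⟨rfl, rfl⟩) hqM haux' A hA)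
        (hT2H M 3 2 (Or.inl rfl) h2M (Or.inr ⟨rfl, rfl⟩) hqM haux' A hA)
        (hInfH M 3 2 (Or.inl rfl) h2M (Or.inr ⟨rfl, rfl⟩) hqM haux' A hA)

/-- **THE FIXED-KILL BOX OF S36 FROM THE SLOTS.** -/
theorem sqcc_killBox (lam : ℕ) (hlam : lam.Prime)
    (hValJ : SqccAllJ @SqccValEx) (hWireJ : SqccAllJ @SqccWire) (hT1J : SqccAllJ @SqccT1)
    (hT2J : SqccAllJ @SqccT2) (hInfJ : SqccAllJ @SqccInf)
    (hValH : SqccAllH @SqccValEx) (hWireH : SqccAllH @SqccWire) (hT1H : SqccAllH @SqccT1)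
    (hT2H : SqccAllH @SqccT2) (hInfH : SqccAllH @SqccInf) : S36asmKillBox lam :=
  sq_killBox_of_geo lam hlam
    (sqcc_geoAll hValJ hWireJ hT1J hT2J hInfJ hValH hWireH hT1H hT2H hInfH)

end All

end Fermat.Agent.SQ
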