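import Mathlib
import Fermat.Agent.SQ.Conc.Geo
import Fermat.Agent.SQ.Conc.AmbTwo
import Fermat.Agent.SQ.Germ.Inst
import Fermat.Agent.SS.Geo.NewtonPhi
import Fermat.Agent.SS.Germ.Close
import Fermat.Agent.SS.Germ.Base

/-!
# Program Q, assembler : THE SLOT (WIRE) IS A THEOREM (both charts)

`SqccWire A E M q t₀` (helper14's `SQ/Conc/Geo.lean`) asks for helper9's valuation-level package
`SqgwHyp` at the levels `M`, `M q`, `M q q`, for ANY witness `h` of the level-`M q` two-factor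
package and any valuation rings `V₁ V₂ V₃` with (VAL²) = `SqccVal`.  It is helper9's `sqgin_hyp`
fed with
* `hc`    : `S18Coord` for `j` / `h_a` (`s18v_coord_j'`, `ssgms_coord_h`);
* `hgood` : `GrdfbHyp` for `j` / `h_a` (`ssgb_hyp_j` with `ζ_{6M} ∈ E`, `ssgb_hyp_h'` with `ζ_M ∈ E`);
* `hTwo`  : the level-`M q` (VAL) package for the GIVEN witness `h` (`sqcau_two_j`, `sqcau_two_h`);
* `hInt`  : `φ₁ t₀` integral over `A[α₁ t₀]` (`ssgnp_phi_int_j/_h`, modular equation);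
* `val`, `three` : the given `SqccVal`.

* `sqccw_wire_j`, `sqccw_wire_h` : one field `E` containing the root of unity;
* `sqcc_wire_j : SqccAllJ @SqccWire`, `sqcc_wire_h : SqccAllH @SqccWire` : the slots.
-/

set_option autoImplicit false
set_option linter.unusedSectionVars false
set_option linter.unusedVariables false
set_option linter.style.haveILetI false
set_option synthInstance.maxHeartbeats 400000

noncomputable section

namespace Fermat.Agent.SQ

open Polynomial ModularCurve AlgebraicCurve IntermediateField IsLocalRing Fermat.Agent.S18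
  Fermat.Agent.SS Fermat.Agent.G

local notation "Qb" => AlgebraicClosure ℚ

section OneField

variable (A : ValuationSubring Qb) (E : IntermediateField ℚ Qb) [FiniteDimensional ℚ E]
  [IsDiscreteValuationRing ↥(s18dVal A E)] [CharZero ↥(s18dVal A E)] (M q : ℕ) [NeZero M]
  [Fact q.Prime] [NeZero q]

set_option maxHeartbeats 2000000 in
/-- the slot (WIRE) for the chart `j`, over a field containing `ζ_{6M}` -/
theorem sqccw_wire_j (hA : A.LiesOverPrime q) (hqM : ¬ q ∣ M) (h5 : 5 ≤ q)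
    (ζ : E) (hζ : IsPrimitiveRoot ζ (6 * M)) : SqccWire A E M q (ssdJ E M) := by
  intro hϖ Ξ G h π₂ V₁ V₂ V₃ hval
  have hc : S18Coord hϖ (modularFunctionFieldFullC E M) (ssdJ E M) :=
    s18v_coord_j' hϖ (s18d_natCast_mem A E hA) M hqM
  have hgood : GrdfbHyp hϖ (ssdJ E M) := (ssgb_hyp_j M A E hqM hA h5 _ hϖ ζ hζ).1
  have e₁ : ssvmdIncl E M q (ssdJ E M) = ssdJ E (M * q) := ssgms_incl_j E M
  have hTwo := sqcau_two_j A E M hA hqM hϖ h
  rw [← e₁] at hTwo
  obtain ⟨Φ, MP⟩ := ssgcl_modPoly_over q A hA E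
  have hInt : ssvmfPhi E M q (ssdJ E M) ∈
      s18tInt ↥(s18dVal A E) (ssvmdIncl E M q (ssdJ E M)) := by
    rw [e₁]
    exact ssgnp_phi_int_j A E M q MP _ (s18tc_self_mem_int _)
  have ht : Transcendental E (ssvmdIncl E (M * q) q (ssvmdIncl E M q (ssdJ E M))) := by
    have := sqcc_chart_j M q E
    rw [show ssvmdIncl E (M * q) q (ssvmdIncl E M q (ssdJ E M)) = ssdJ E (M * q * q) from this]
    exact ssd_transcendental_j _ _
  haveI : FiniteDimensional E⟮ssvmdIncl E (M * q) q (ssvmdIncl E M q (ssdJ E M))⟯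
      (modularFunctionFieldFullC E (M * q * q)) := by
    have := sqcc_chart_j M q E
    rw [show ssvmdIncl E (M * q) q (ssvmdIncl E M q (ssdJ E M)) = ssdJ E (M * q * q) from this]
    exact ssd_finiteDimensional_j _ _
  exact sqgin_hyp A E M h hA hqM hϖ (ssdJ E M) hc hgood hTwo hInt hval.val ht hval.three

set_option maxHeartbeats 2000000 in
/-- the slot (WIRE) for the chart `h_a` (`q ∈ {2,3}`, `a = 5 - q ∣ M`), over a field containing
`ζ_M` -/
theorem sqccw_wire_h (a : ℕ) [NeZero a] (ha : a = 2 ∨ a = 3) (haM : a ∣ M)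
    (hqa : (q = 2 ∧ a = 3) ∨ (q = 3 ∧ a = 2)) (hA : A.LiesOverPrime q) (hqM : ¬ q ∣ M)
    (ζ : E) (hζ : IsPrimitiveRoot ζ M) : SqccWire A E M q (ssgH E M a ha haM) := by
  intro hϖ Ξ G h π₂ V₁ V₂ V₃ hval
  have hc : S18Coord hϖ (modularFunctionFieldFullC E M) (ssgH E M a ha haM) :=
    ssgms_coord_h A E M a ha haM hA hqM _ hϖ
  have hgood : GrdfbHyp hϖ (ssgH E M a ha haM) :=
    (ssgb_hyp_h' M A E a hqM hA hqa haM _ hϖ ζ hζ (ssgH E M a ha haM).2).1
  have e₁ : ssvmdIncl E M q (ssgH E M a ha haM) =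
      ssgH E (M * q) a ha (Dvd.dvd.mul_right haM q) := ssgms_incl_h E M a ha haM
  have hTwo := sqcau_two_h A E M a ha haM hA hqM hϖ h
  rw [← e₁] at hTwo
  have hInt : ssvmfPhi E M q (ssgH E M a ha haM) ∈
      s18tInt ↥(s18dVal A E) (ssvmdIncl E M q (ssgH E M a ha haM)) := by
    rw [e₁]
    exact (ssgnp_hInt A hA E M a ha haM hqa (ssgcl_modPoly_over q A hA E)).1 _
      (s18tc_self_mem_int _)
  have ht : Transcendental E (ssvmdIncl E (M * q) q (ssvmdIncl E M q (ssgH E M a ha haM))) := by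
    have := sqcc_chart_h M q E a ha haM
    rw [show ssvmdIncl E (M * q) q (ssvmdIncl E M q (ssgH E M a ha haM)) = _ from this]
    exact ssg_transcendental_h _ _ a ha _
  haveI : FiniteDimensional E⟮ssvmdIncl E (M * q) q (ssvmdIncl E M q (ssgH E M a ha haM))⟯
      (modularFunctionFieldFullC E (M * q * q)) := by
    have := sqcc_chart_h M q E a ha haM
    rw [show ssvmdIncl E (M * q) q (ssvmdIncl E M q (ssgH E M a ha haM)) = _ from this]
    exact ssg_finiteDimensional_h _ _ a ha _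
  exact sqgin_hyp A E M h hA hqM hϖ (ssgH E M a ha haM) hc hgood hTwo hInt hval.val ht hval.three

end OneField

/-! ### the slots -/

section Slots

/-- a primitive `n`-th root of unity of `ℚ̄` and the (finite) cyclotomic field it generates -/
theorem sqccw_exists_cyclo (n : ℕ) [NeZero n] :
    ∃ (ζ : Qb) (E₁ : IntermediateField ℚ Qb) (_ : FiniteDimensional ℚ E₁),
      IsPrimitiveRoot ζ n ∧ ζ ∈ E₁ := by
  obtain ⟨ζ, hζ⟩ := HasEnoughRootsOfUnity.exists_primitiveRoot Qb n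
  have hint : IsIntegral ℚ ζ := (hζ.isIntegral (NeZero.pos n)).tower_top
  exact ⟨ζ, ℚ⟮ζ⟯, IntermediateField.adjoin.finiteDimensional hint, hζ,
    IntermediateField.mem_adjoin_simple_self ℚ ζ⟩

/-- a primitive `n`-th root of unity (`q ∤ n`) of the inertia field `E₀` of every `E ∋ ζ_n` -/
theorem sqccw_root_E0 (A : ValuationSubring Qb) {q : ℕ} (hq : q.Prime) (hA : A.LiesOverPrime q)
    {n : ℕ} (hqn : ¬ q ∣ n) (E : IntermediateField ℚ Qb) {ζ : Qb} (hζ : IsPrimitiveRoot ζ n)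
    (hζE : ζ ∈ E) : ∃ ζ₀ : ssgfE0 A E, IsPrimitiveRoot ζ₀ n := by
  have hζE' : IsPrimitiveRoot (⟨ζ, hζE⟩ : E) n :=
    IsPrimitiveRoot.of_map_of_injective (f := algebraMap E Qb) hζ (algebraMap E Qb).injective
  obtain ⟨ζ₀, hζ₀, -⟩ := ssgf_primitiveRoot A E hq hA hqn ⟨ζ, hζE⟩ hζE'
  exact ⟨ζ₀, hζ₀⟩

set_option maxHeartbeats 1000000 in
/-- **THE SLOT (WIRE), chart `j`.** -/
theorem sqcc_wire_j : SqccAllJ @SqccWire := by
  intro M q _ _ _ hqM h5 _ A hA
  have hq : q.Prime := Fact.out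
  obtain ⟨ζ, E₁, hE₁, hζ, hζE₁⟩ := sqccw_exists_cyclo (6 * M)
  refine ⟨E₁, hE₁, ?_⟩
  intro E _ _ _ _ hle
  have hq6 : ¬ q ∣ 6 * M := by
    intro hdvd
    rcases (Nat.Prime.dvd_mul hq).mp hdvd with h6 | hM
    · have h6' : q ≤ 6 := Nat.le_of_dvd (by norm_num) h6
      have h23 : q ∣ 2 * 3 := h6
      rcases (Nat.Prime.dvd_mul hq).mp h23 with h2 | h3
      · have := Nat.le_of_dvd (by norm_num) h2
        omega
      · have := Nat.le_of_dvd (by norm_num) h3
        omega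
    · exact hqM hM
  obtain ⟨ζ₀, hζ₀⟩ := sqccw_root_E0 A hq hA hq6 E hζ (hle hζE₁)
  exact sqccw_wire_j A (ssgfE0 A E) M q hA hqM h5 ζ₀ hζ₀

set_option maxHeartbeats 1000000 in
/-- **THE SLOT (WIRE), chart `h_a`.** -/
theorem sqcc_wire_h : SqccAllH @SqccWire := by
  intro M q _ _ _ a _ ha haM hqa hqM _ A hA
  have hq : q.Prime := Fact.out
  obtain ⟨ζ, E₁, hE₁, hζ, hζE₁⟩ := sqccw_exists_cyclo M
  refine ⟨E₁, hE₁, ?_⟩
  intro E _ _ _ _ hle
  obtain ⟨ζ₀, hζ₀⟩ := sqccw_root_E0 A hq hA hqM E hζ (hle hζE₁)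
  exact sqccw_wire_h A (ssgfE0 A E) M q a ha haM hqa hA hqM ζ₀ hζ₀

end Slots

end Fermat.Agent.SQ
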