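import Mathlib
import Fermat.Agent.SQ.Conc.Geo
import Fermat.Agent.SQ.Conc.AmbTwo
import Fermat.Agent.SQ.Conc.Field
import Fermat.Agent.SQ.Conc.WireSlot
import Fermat.Agent.SQ.Germ.CrossConc
import Fermat.Agent.SQ.Germ.Inst
import Fermat.Agent.SQ.Germ.DerivUnitXOrd
import Fermat.Agent.SS.Geo.NewtonPhi
import Fermat.Agent.SS.Germ.Close
import Fermat.Agent.SS.Germ.Base

/-!
# Program Q, assembler : THE SLOT (R1-T1) (prefix `sqct1`)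

`SqccT1 A E M q t₀` (helper14's `SQ/Conc/Geo.lean`) : every prime of the chart `α₁ t₀` of level `M q`
lying on both components `h.V₁`, `h.V₂` is a node of thickness one.  It is helper29's `sqgtc_hT1`
(`SQ/Germ/CrossConc.lean`) whose only named hypothesis `hhor` (the horizontal part of (K)) is
helper15's `sqgkx_sqgkHor_of_mem` (`SQ/Germ/DerivUnitXOrd.lean`).

* `sqct1_hhor` : `hhor` of `sqgtc_hT1` from `sqgkx_sqgkHor_of_mem`, chart-generic, with the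
  non-cuspidality `hnc` as a pointwise hypothesis;
* `sqct1_hT1` : the conclusion of `sqgtc_hT1` with `hhor`, `H`, `hαP`, `hφP` discharged;
* `sqct1_j` : the slot for the chart `j` over one field;
* `sqcc_t1_j : SqccAllJ @SqccT1`.
-/

set_option autoImplicit false
set_option linter.unusedSectionVars false
set_option linter.unusedVariables false
set_option linter.style.haveILetI false
set_option synthInstance.maxHeartbeats 400000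

noncomputable section

namespace Fermat.Agent.SQ

open Polynomial ModularCurve AlgebraicCurve IntermediateField IsLocalRing Fermat.Agent.S18
  Fermat.Agent.SS Fermat.Agent.G

local notation "Qb" => AlgebraicClosure ℚ

section OneField

variable {q : ℕ} [Fact q.Prime] [NeZero q] (𝔸 : ValuationSubring Qb) (E : IntermediateField ℚ Qb)
  [FiniteDimensional ℚ E]
  [IsDiscreteValuationRing ↥(s18dVal 𝔸 E)] [CharZero ↥(s18dVal 𝔸 E)] (M : ℕ) [NeZero M]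
variable {ϖ : ↥(s18dVal 𝔸 E)} {Ξ G : (↥(ssvmmR 𝔸 E M q))[X]}
  (h : SsvAmb (ssvmmR 𝔸 E M q) (ssvmgRUnif (ssvmm_le E M q) ϖ) (ssvmmY E M q) Ξ
    (X - C (ssvmmJ 𝔸 E M q ^ q)) (X ^ q - C (ssvmmJ 𝔸 E M q)) G)

set_option quotPrecheck false in
local notation "R₀" => ↥(s18dVal 𝔸 E)
set_option quotPrecheck false in
local notation "F₀" => ↥(modularFunctionFieldFullC E M)
set_option quotPrecheck false in
local notation "F₁" => ↥(modularFunctionFieldFullC E (M * q))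
set_option quotPrecheck false in
local notation "α₁" => ((ssvmdIncl E M q : modularFunctionFieldFullC E M →ₐ[E]
  modularFunctionFieldFullC E (M * q)) : modularFunctionFieldFullC E M →+*
  modularFunctionFieldFullC E (M * q))
set_option quotPrecheck false in
local notation "φ₁" => ssvmfPhi E M q

/-- `α₁` maps the chart ring of `s` into the chart ring of `α₁ s` -/
theorem sqct1_alphaP (s : F₀) :
    ∀ b ∈ s18tInt R₀ s, α₁ b ∈ s18tInt R₀ (ssvmdIncl E M q s) := fun b hb =>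
  ssgq_map_mem_int α₁ (fun a => sqgin_incl_algebraMap 𝔸 E M a) s (ssvmdIncl E M q s)
    (s18tc_self_mem_int _) hb

/-- `φ₁` maps the chart ring of `s` into the chart ring of `α₁ s` when `φ₁ s` is integral -/
theorem sqct1_phiP (s : F₀) (hInt : φ₁ s ∈ s18tInt R₀ (ssvmdIncl E M q s)) :
    ∀ b ∈ s18tInt R₀ s, φ₁ b ∈ s18tInt R₀ (ssvmdIncl E M q s) := fun b hb =>
  ssgq_map_mem_int φ₁ (fun a => sqgin_phi_algebraMap 𝔸 E M a) s (ssvmdIncl E M q s) hInt hb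

set_option maxHeartbeats 2000000 in
/-- **`hhor` OF `sqgtc_hT1`** from helper15's (K-x), chart-generic, at one closed point `𝔫₁` on both
components; `hj𝔫`, `hy𝔫` = non-cuspidality of `𝔫₁`. -/
theorem sqct1_hhor (hqM : ¬ q ∣ M) (hϖ : Irreducible ϖ)
    [PerfectField (ResidueField R₀)]
    (r : ℕ) (hr : r.Prime) (hrM : r ∣ M) (hr3 : r % 3 = 2)
    (r' : ℕ) (hr' : r'.Prime) (hr'M : r' ∣ M) (hr4 : r' % 4 = 3)
    (s : F₀) (ht₀ : Transcendental E s) [FiniteDimensional E⟮s⟯ (modularFunctionFieldFullC E M)]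
    (H : SsgiHyp hϖ (RingHom.id R₀) α₁ φ₁ ϖ s (ssvmdIncl E M q s) h.V₁ h.V₂ q)
    (hαP : ∀ b ∈ s18tInt R₀ s, α₁ b ∈ s18tInt R₀ (ssvmdIncl E M q s))
    (hφP : ∀ b ∈ s18tInt R₀ s, φ₁ b ∈ s18tInt R₀ (ssvmdIncl E M q s))
    (𝔫₁ : Ideal ↥(s18tInt R₀ (ssvmdIncl E M q s))) (hmax : 𝔫₁.IsMaximal)
    (hon₁ : SqgaOn (ssvmdIncl E M q s) 𝔫₁ h.V₁) (hon₂ : SqgaOn (ssvmdIncl E M q s) 𝔫₁ h.V₂)
    (hj𝔫 : SsnfInLoc (ssvmdIncl E M q s) 𝔫₁ (ssdJ E (M * q)))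
    (hy𝔫 : SsnfInLoc (ssvmdIncl E M q s) 𝔫₁ (ssvmfPhi E M q (ssdJ E M)))
    (p π' a : ↥(s18tInt R₀ s))
    (P : SqgtpParams ϖ s (ssvmdIncl E M q s) α₁ φ₁ h.V₁ q 𝔫₁ hαP hφP p π' a) :
    SqgciHor E (ssvmdIncl E M q s) 𝔫₁ (sqgvGxy E M q (p : F₀) (π' : F₀)) ∧
      SqgciHor E (ssvmdIncl E M q s) 𝔫₁ (sqgvGxy E M q (p : F₀) (π' : F₀))⁻¹ := by
  have hpts := sqgtc_points H hαP hφP hmax hon₁ hon₂
  have hϖ𝔫 : sskPi ϖ (ssvmdIncl E M q s) ∈ 𝔫₁ := hon₁ _ H.two.unif₁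
  have h1 : (1 : ↥(s18tInt R₀ s)) ∉ 𝔫₁.comap (sqgtpMap α₁ hαP) := fun h1 =>
    hpts.1.ne_top ((Ideal.eq_top_iff_one _).mpr h1)
  have h1' : (1 : ↥(s18tInt R₀ s)) ∉ 𝔫₁.comap (sqgtpMap φ₁ hφP) := fun h1 =>
    hpts.2.1.ne_top ((Ideal.eq_top_iff_one _).mpr h1)
  have hK : SqgkHor ↥E (ssvmdIncl E M q s) 𝔫₁ (sqgvGxy E M q (p : F₀) (π' : F₀)) :=
    sqgkx_sqgkHor_of_mem 𝔸 E M hϖ hqM r hr hrM hr3 r' hr' hr'M hr4 ht₀ hαP hφP 𝔫₁ hj𝔫 hy𝔫 hϖ𝔫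
      (𝔫₁.comap (sqgtpMap α₁ hαP)) (𝔫₁.comap (sqgtpMap φ₁ hφP))
      (fun x => Iff.rfl) (fun x => Iff.rfl) hpts.1 hpts.2.1 (p : F₀) (π' : F₀) p.2 π'.2
      (fun y hy => by
        obtain ⟨s', hs', a', b', hab⟩ := P.p_gen y hy
        exact ⟨s', hs', a', b', congrArg Subtype.val hab⟩)
      ⟨1, h1, p, P.p_mem, by rw [OneMemClass.coe_one, one_mul]⟩
      (fun y hy => by
        obtain ⟨s', hs', a', b', hab⟩ := P.π_gen y hy
        exact ⟨s', hs', a', b', congrArg Subtype.val hab⟩)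
      ⟨1, h1', π', P.π_mem, by rw [OneMemClass.coe_one, one_mul]⟩
  exact ⟨fun V hV hPV hc => (hK V hV hPV hc).1, fun V hV hPV hc => (hK V hV hPV hc).2⟩

set_option maxHeartbeats 2000000 in
/-- **(T1), chart-generic** : helper29's `sqgtc_hT1` with `H`, `hαP`, `hφP`, `hhor` discharged; the
non-cuspidality of the crossing points is the pointwise hypothesis `hnc`. -/
theorem sqct1_hT1 (hA : 𝔸.LiesOverPrime q) (hqM : ¬ q ∣ M) (hϖ : Irreducible ϖ)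
    (c₀ : R₀) (hc₀ : ((q : ℕ) : R₀) * c₀ = ϖ)
    (r : ℕ) (hr : r.Prime) (hrM : r ∣ M) (hr3 : r % 3 = 2)
    (r' : ℕ) (hr' : r'.Prime) (hr'M : r' ∣ M) (hr4 : r' % 4 = 3)
    (s : F₀) (hc : S18Coord hϖ (modularFunctionFieldFullC E M) s) (hgood : GrdfbHyp hϖ s)
    (hsO : s ∈ s18vO R₀ (modularFunctionFieldFullC E M))
    (hθs : sqvtTheta (ResidueField R₀)
      (s18vcRed (modularFunctionFieldFullC E M) ⟨s, hsO⟩) ≠ 0)
    (ht₁ : Transcendental E (ssvmdIncl E M q s))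
    [FiniteDimensional E⟮ssvmdIncl E M q s⟯ (modularFunctionFieldFullC E (M * q))]
    (υ : LaurentSeries ℤ) (hυ : ((s : modularFunctionFieldFullC E M) : LaurentSeries E) = grdSer υ E)
    {u₁ u₂ : F₁} (hTwo : SsvTwo hϖ (ssvmdIncl E M q s) u₁ u₂ h.V₁ h.V₂)
    (hInt : φ₁ s ∈ s18tInt R₀ (ssvmdIncl E M q s))
    (hnc : ∀ 𝔫₁ : Ideal ↥(s18tInt R₀ (ssvmdIncl E M q s)), 𝔫₁.IsMaximal →
      SqgaOn (ssvmdIncl E M q s) 𝔫₁ h.V₁ → SqgaOn (ssvmdIncl E M q s) 𝔫₁ h.V₂ →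
      SsnfInLoc (ssvmdIncl E M q s) 𝔫₁ (ssdJ E (M * q)) ∧
        SsnfInLoc (ssvmdIncl E M q s) 𝔫₁ (ssvmfPhi E M q (ssdJ E M))) :
    ∀ 𝔫₁ : Ideal ↥(s18tInt R₀ (ssvmdIncl E M q s)), 𝔫₁.IsPrime →
      SqgaOn (ssvmdIncl E M q s) 𝔫₁ h.V₁ → SqgaOn (ssvmdIncl E M q s) 𝔫₁ h.V₂ →
      SqgaNode ϖ (ssvmdIncl E M q s) h.V₁ h.V₂ 𝔫₁ := by
  have hq : q.Prime := Fact.out
  haveI : PerfectField (ResidueField R₀) := sqcf_perfectField 𝔸 E hq hA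
  haveI := hc.fin
  have H := sqgtc_hyp 𝔸 E M h hA hqM hϖ s ht₁ υ hυ hc hgood hTwo
  have hαP := sqct1_alphaP (q := q) 𝔸 E M s
  have hφP := sqct1_phiP (q := q) 𝔸 E M s hInt
  exact sqgtc_hT1 𝔸 E M h hA hqM hϖ c₀ hc₀ s hc hgood hsO hθs ht₁ H hTwo hαP hφP
    (fun 𝔫₁ hmax hon₁ hon₂ p π' a P =>
      sqct1_hhor 𝔸 E M h hqM hϖ r hr hrM hr3 r' hr' hr'M hr4 s hc.transc H hαP hφP 𝔫₁ hmax hon₁ hon₂
        (hnc 𝔫₁ hmax hon₁ hon₂).1 (hnc 𝔫₁ hmax hon₁ hon₂).2 p π' a P)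

end OneField

/-! ### the chart `j` -/

section ChartJ

variable (A : ValuationSubring Qb) (E : IntermediateField ℚ Qb) [FiniteDimensional ℚ E]
  [IsDiscreteValuationRing ↥(s18dVal A E)] [CharZero ↥(s18dVal A E)] (M q : ℕ) [NeZero M]
  [Fact q.Prime] [NeZero q]

/-- an element of the chart ring lies in every localisation -/
theorem sqct1_inLoc_of_mem {F : Type*} [Field F] {R : Type*} [CommRing R] [Algebra R F] {t : F}
    (𝔫 : Ideal ↥(s18tInt R t)) (h𝔫 : 𝔫 ≠ ⊤) {x : F} (hx : x ∈ s18tInt R t) : SsnfInLoc t 𝔫 x :=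
  ⟨1, fun h1 => h𝔫 ((Ideal.eq_top_iff_one _).mpr h1), by rw [OneMemClass.coe_one, one_mul]; exact hx⟩

/-- `θ (red j) ≠ 0` -/
theorem sqct1_theta_j {ϖ : ↥(s18dVal A E)} (hϖ : Irreducible ϖ)
    (hsO : ssdJ E M ∈ s18vO ↥(s18dVal A E) (modularFunctionFieldFullC E M)) :
    sqvtTheta (ResidueField ↥(s18dVal A E))
      (s18vcRed (modularFunctionFieldFullC E M) ⟨ssdJ E M, hsO⟩) ≠ 0 := by
  obtain ⟨hD, hred⟩ := sqgvDer_gauss M hϖ (ssdJ E M) hsO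
  rw [← hred]
  have e1 : sqgvDer (↥E) M (ssdJ E M) = 1 := sqgvDer_j (↥E) M
  have e2 : (⟨sqgvDer (↥E) M (ssdJ E M), hD⟩ :
      ↥(s18vO ↥(s18dVal A E) (modularFunctionFieldFullC E M))) = 1 := Subtype.ext e1
  rw [e2, map_one, one_mul]
  exact sqgvThJ_ne_zero _

set_option maxHeartbeats 2000000 in
/-- **the slot (R1-T1) for the chart `j`**, over a field containing `ζ_{6M}`; aux primes `r ≡ 2 (3)`,
`r' ≡ 3 (4)` dividing `M`. -/
theorem sqct1_j (hA : A.LiesOverPrime q) (hqM : ¬ q ∣ M) (h5 : 5 ≤ q)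
    (ζ : E) (hζ : IsPrimitiveRoot ζ (6 * M))
    (r : ℕ) (hr : r.Prime) (hrM : r ∣ M) (hr3 : r % 3 = 2)
    (r' : ℕ) (hr' : r'.Prime) (hr'M : r' ∣ M) (hr4 : r' % 4 = 3) :
    SqccT1 A E M q (ssdJ E M) := by
  intro hϖ Ξ G h 𝔫₁ h𝔫₁ hon₁ hon₂
  have hc : S18Coord hϖ (modularFunctionFieldFullC E M) (ssdJ E M) :=
    s18v_coord_j' hϖ (s18d_natCast_mem A E hA) M hqM
  have hgood : GrdfbHyp hϖ (ssdJ E M) := (ssgb_hyp_j M A E hqM hA h5 _ hϖ ζ hζ).1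
  have e₁ : ssvmdIncl E M q (ssdJ E M) = ssdJ E (M * q) := ssgms_incl_j E M
  have hTwo := sqcau_two_j A E M hA hqM hϖ h
  rw [← e₁] at hTwo
  obtain ⟨Φ, MP⟩ := ssgcl_modPoly_over q A hA E
  have hInt : ssvmfPhi E M q (ssdJ E M) ∈
      s18tInt ↥(s18dVal A E) (ssvmdIncl E M q (ssdJ E M)) := by
    rw [e₁]
    exact ssgnp_phi_int_j A E M q MP _ (s18tc_self_mem_int _)
  have hsO : ssdJ E M ∈ s18vO ↥(s18dVal A E) (modularFunctionFieldFullC E M) :=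
    ssgfl_int_le_vO _ hϖ (ssdJ E M) hc (s18tc_self_mem_int _)
  have ht₁ : Transcendental E (ssvmdIncl E M q (ssdJ E M)) := by
    rw [e₁]
    exact ssd_transcendental_j _ _
  haveI : FiniteDimensional E⟮ssvmdIncl E M q (ssdJ E M)⟯
      (modularFunctionFieldFullC E (M * q)) := by
    rw [e₁]
    exact ssd_finiteDimensional_j _ _
  refine sqct1_hT1 A E M h hA hqM hϖ 1 (mul_one _) r hr hrM hr3 r' hr' hr'M hr4 (ssdJ E M) hc hgood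
    hsO (sqct1_theta_j A E M hϖ hsO) ht₁ (jqModC ℤ) (grdi_grdSer_j E).symm hTwo hInt ?_ 𝔫₁ h𝔫₁
    hon₁ hon₂
  intro 𝔫 hmax _ _
  refine ⟨sqct1_inLoc_of_mem 𝔫 hmax.ne_top ?_, sqct1_inLoc_of_mem 𝔫 hmax.ne_top hInt⟩
  rw [← e₁]
  exact s18tc_self_mem_int _

end ChartJ

/-! ### the slot -/

section Slots

/-- `q ≥ 5` prime, `q ∤ M` ⟹ `q ∤ 6 M` -/
theorem sqct1_not_dvd_six {M q : ℕ} (hq : q.Prime) (h5 : 5 ≤ q) (hqM : ¬ q ∣ M) : ¬ q ∣ 6 * M := by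
  intro hdvd
  rcases (Nat.Prime.dvd_mul hq).mp hdvd with h6 | hM
  · have h23 : q ∣ 2 * 3 := h6
    rcases (Nat.Prime.dvd_mul hq).mp h23 with h2 | h3
    · have := Nat.le_of_dvd (by norm_num) h2
      omega
    · have := Nat.le_of_dvd (by norm_num) h3
      omega
  · exact hqM hM

set_option maxHeartbeats 1000000 in
/-- **THE SLOT (R1-T1), chart `j`.** -/
theorem sqcc_t1_j : SqccAllJ @SqccT1 := by
  intro M q _ _ _ hqM h5 haux A hA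
  have hq : q.Prime := Fact.out
  obtain ⟨r, hr, hrM, -, hr12⟩ := haux
  obtain ⟨ζ, E₁, hE₁, hζ, hζE₁⟩ := sqccw_exists_cyclo (6 * M)
  refine ⟨E₁, hE₁, ?_⟩
  intro E _ _ _ _ hle
  obtain ⟨ζ₀, hζ₀⟩ := sqccw_root_E0 A hq hA (sqct1_not_dvd_six hq h5 hqM) E hζ (hle hζE₁)
  exact sqct1_j A (ssgfE0 A E) M q hA hqM h5 ζ₀ hζ₀ r hr hrM (by omega) r hr hrM (by omega)

end Slots

end Fermat.Agent.SQ
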