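import Mathlib
import Fermat.Agent.SQ.Conc.Geo

/-!
# Program Q (S36), concrete side : `SqGeoAll` FROM ITS TWO BRANCHES (prefix `sqcc_`, `Sqcc`)

`SqGeoAll` (helper18, `SQ/Core/Top.lean`) splits into

* `SqccGeoJ` : the branch `q ≥ 5`, chart `t = j`   (file `SQ/Conc/Geo.lean`, slots `SqccAllJ @…`);
* `SqccGeoH` : the branch `q ∈ {2, 3}`, chart `t = h_a`, `a = 5 - q ∣ M` (file `SQ/Conc/GeoH.lean`).

Each branch is ONE `Prop` whose conclusion is `SqGeoAt (M q) q A`, so that the owner of a branch is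
free to organise its proof (other slot shapes, another chart, a change of chart, …) :
`sqcc_geoAll_of_branches : SqccGeoJ → SqccGeoH → SqGeoAll`.
-/

set_option autoImplicit false
set_option linter.unusedSectionVars false
set_option linter.unusedVariables false
set_option linter.style.haveILetI false
set_option synthInstance.maxHeartbeats 400000

noncomputable section

namespace Fermat.Agent.SQ

open Polynomial ModularCurve AlgebraicCurve IsLocalRing IntermediateField Fermat.Agent.S18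
  Fermat.Agent.SS Fermat.Agent.G

local notation "Qb" => AlgebraicClosure ℚ

/-- **THE BRANCH `q ≥ 5`** of `SqGeoAll` : level `M q`, `q ∤ M`, an auxiliary prime
`r ≡ 11 (mod 12)` dividing `M`. -/
def SqccGeoJ : Prop :=
  ∀ (M q : ℕ) [NeZero M] [Fact q.Prime] [NeZero q], ¬ q ∣ M → 5 ≤ q →
    (∃ r : ℕ, r.Prime ∧ r ∣ M ∧ r ≠ q ∧ r % 12 = 11) →
    ∀ A : ValuationSubring Qb, A.LiesOverPrime q → SqGeoAt (M * q) q A

/-- **THE BRANCH `q ∈ {2, 3}`** of `SqGeoAll` : level `M q`, `q ∤ M`, `a = 5 - q ∣ M`, an auxiliary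
prime `r ≡ 11 (mod 12)` dividing `M`. -/
def SqccGeoH : Prop :=
  ∀ (M q : ℕ) [NeZero M] [Fact q.Prime] [NeZero q] (a : ℕ) [NeZero a] (ha : a = 2 ∨ a = 3)
    (haM : a ∣ M), ((q = 2 ∧ a = 3) ∨ (q = 3 ∧ a = 2)) → ¬ q ∣ M →
    (∃ r : ℕ, r.Prime ∧ r ∣ M ∧ r ≠ q ∧ r % 12 = 11) →
    ∀ A : ValuationSubring Qb, A.LiesOverPrime q → SqGeoAt (M * q) q A

/-- the branch `q ≥ 5` from the five slots at the chart `j` -/
theorem sqcc_geoJ_of_slots
    (hValJ : SqccAllJ @SqccValEx) (hWireJ : SqccAllJ @SqccWire) (hT1J : SqccAllJ @SqccT1)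
    (hT2J : SqccAllJ @SqccT2) (hInfJ : SqccAllJ @SqccInf) : SqccGeoJ :=
  fun M q _ _ _ hqM h5 haux A hA =>
    sqcc_geoAt_j A M q (hValJ M q hqM h5 haux A hA) (hWireJ M q hqM h5 haux A hA)
      (hT1J M q hqM h5 haux A hA) (hT2J M q hqM h5 haux A hA) (hInfJ M q hqM h5 haux A hA)

/-- the branch `q ∈ {2, 3}` from the five slots at the chart `h_a` -/
theorem sqcc_geoH_of_slots
    (hValH : SqccAllH @SqccValEx) (hWireH : SqccAllH @SqccWire) (hT1H : SqccAllH @SqccT1)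
    (hT2H : SqccAllH @SqccT2) (hInfH : SqccAllH @SqccInf) : SqccGeoH :=
  fun M q _ _ _ a _ ha haM hqa hqM haux A hA =>
    sqcc_geoAt_h A M q a ha haM (hValH M q a ha haM hqa hqM haux A hA)
      (hWireH M q a ha haM hqa hqM haux A hA) (hT1H M q a ha haM hqa hqM haux A hA)
      (hT2H M q a ha haM hqa hqM haux A hA) (hInfH M q a ha haM hqa hqM haux A hA)

set_option maxHeartbeats 1000000 in
/-- **`SqGeoAll` FROM ITS TWO BRANCHES.** -/
theorem sqcc_geoAll_of_branches (hJ : SqccGeoJ) (hH : SqccGeoH) : SqGeoAll := by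
  intro N q _ _ hq hqN hq2 h2 h3 haux A hA
  obtain ⟨M, hM⟩ := hqN
  rw [mul_comm] at hM
  subst hM
  haveI : Fact q.Prime := ⟨hq⟩
  haveI : NeZero M := ⟨fun h0 => by
    have := NeZero.ne (M * q)
    rw [h0, zero_mul] at this
    exact this rfl⟩
  have hqM : ¬ q ∣ M := by
    rintro ⟨c, rfl⟩
    exact hq2 ⟨c, by ring⟩
  have haux' : ∃ r : ℕ, r.Prime ∧ r ∣ M ∧ r ≠ q ∧ r % 12 = 11 := by
    obtain ⟨r, hr, hrN, hrq, hr12⟩ := haux
    refine ⟨r, hr, ?_, hrq, hr12⟩
    rcases (Nat.Prime.dvd_mul hr).mp hrN with h | h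
    · exact h
    · exact absurd ((Nat.prime_dvd_prime_iff_eq hr hq).mp h) hrq
  by_cases h5 : 5 ≤ q
  · exact hJ M q hqM h5 haux' A hA
  · have hq23 : q = 2 ∨ q = 3 := by
      have h1 := hq.two_le
      have h4 : q ≠ 4 := by
        rintro rfl
        exact absurd hq (by norm_num)
      omega
    rcases hq23 with rfl | rfl
    · have h3M : 3 ∣ M := by
        have := h2 rfl
        exact (Nat.Coprime.dvd_of_dvd_mul_right (by norm_num) this)
      exact hH M 2 3 (Or.inr rfl) h3M (Or.inl ⟨rfl, rfl⟩) hqM haux' A hA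
    · have h2M : 2 ∣ M := by
        have := h3 rfl
        exact (Nat.Coprime.dvd_of_dvd_mul_right (by norm_num) this)
      exact hH M 3 2 (Or.inl rfl) h2M (Or.inr ⟨rfl, rfl⟩) hqM haux' A hA

/-- **THE FIXED-KILL BOX OF S36 FROM THE TWO BRANCHES.** -/
theorem sqcc_killBox_of_branches (lam : ℕ) (hlam : lam.Prime) (hJ : SqccGeoJ) (hH : SqccGeoH) :
    S36asmKillBox lam :=
  sq_killBox_of_geo lam hlam (sqcc_geoAll_of_branches hJ hH)

end Fermat.Agent.SQ
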