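import Mathlib
import Fermat.Agent.SQ.Germ.Wire
import Fermat.Agent.SQ.Germ.ModHyp

/-!
# Program Q (S36), assembler slice (A-chart) : THE CHARTS `j`, `h_a` ON THE TOWER
`F_E(M) ⊂ F_E(M q) ⊂ F_E(M q q)` (prefix `sqcch`)

Over an ARBITRARY subfield `E ⊆ ℚ̄` with `A = 𝔸 ∩ E` a discrete valuation ring, `𝔸` over the prime `q`.

ABSTRACT (setting of `SS/Geo/NewtonAbs.lean`, a modular polynomial `SsgnModPoly A F j j_q q Φ` and
Hauptmodul relations `SsgnHaupt`) :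
* `sqcch_j_mem_int` : `j ∈ s18tInt A j_q` (the converse of `ssgn_jq_mem_int` : Newton polygon);
* `sqcch_h_mem_int`, `sqcch_hinv_mem_int` : `h ∈ s18tInt A h_q`, `h⁻¹ ∈ s18tInt A h_q⁻¹` (the converses of
  `ssgn_hq_mem_int`, `ssgn_hq_inv_mem_int` : the contrapositives of `ssgn_cusp_infty`, `ssgn_cusp_zero`).

MODULAR, LEVEL-GENERIC (`N` any level, `φ_N = ssvmfPhi E N q`, `α_N = ssvmdIncl E N q`) :
* `sqcch_chart_j N : s18tInt A (φ_N j_N) = s18tInt A j_{Nq}`, `sqcch_chart_h`, `sqcch_chart_hinv`;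
* `sqcch_transc_*`, `sqcch_fin_*`, `sqcch_pole_*` : the fields `transc`, `fin`, `pole` of helper18's `SqGeo`.

THE TOWER (`M`, `M q`, `M q q`) : the chart fields of helper9's `SqgwHyp` (`SQ/Germ/Wire.lean`) :
* `sqcch_comm` (`α ∘ φ₁ = φ ∘ α₁`), `sqcch_chart₁_*`, `sqcch_chart₂_*`, coordinates `sqcch_coord*`;
* `sqcch_wire` : **`SqgwHyp` for a generic chart** from its chart fields, the (VAL) package `SsvTwo` at
  level `M q`, the five positions as lying-over statements `V.comap f = W`, and the residue statements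
  (named hypotheses in the literal shapes of `SqgwHyp`); `sqcch_wire_j`, `sqcch_wire_h` : the charts `j`
  (any `q`), `h_a` (`a ∈ {2,3}`, `a ∣ M`, `a ≠ q`).
-/

set_option autoImplicit false
set_option linter.unusedSectionVars false
set_option linter.unusedVariables false
set_option linter.style.haveILetI false
set_option synthInstance.maxHeartbeats 400000

noncomputable section

namespace Fermat.Agent.SQ

open Polynomial ModularCurve AlgebraicCurve IntermediateField IsLocalRing Fermat.Agent.S18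
  Fermat.Agent.G Fermat.Agent.SS

local notation "Qb" => AlgebraicClosure ℚ

/-! ### abstract : the converse integrality statements -/

section Abs

variable {A F : Type*} [CommRing A] [Field F] [Algebra A F]
variable {a q : ℕ} {R₁ R₂ : A[X]} {j ja h jq jaq hq : F} {Φ : A[X][X]}

/-- `j ∈ s18tInt A j_q` : if `v j > 1` then `v j_q > 1` (Newton polygon). -/
theorem sqcch_j_mem_int (MP : SsgnModPoly A F j jq q Φ) (hq2 : 2 ≤ q) : j ∈ s18tInt A jq := by
  refine ssgn_mem_int_of_forall jq j fun V hA hjq => ?_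
  rw [← V.valuation_le_one_iff] at hjq ⊢
  by_contra hj
  rw [not_le] at hj
  have hA' := ssgn_valuation_le_one V hA
  rcases ssgn_newton V.valuation hA' MP hq2 hj with e | e
  · rw [e] at hjq
    exact absurd (one_lt_pow₀ hj (by omega)) (not_lt.mpr hjq)
  · have : V.valuation jq ^ q ≤ 1 := pow_le_one₀ zero_le hjq
    rw [e] at this
    exact absurd hj (not_lt.mpr this)

/-- `h ∈ s18tInt A h_q`. -/
theorem sqcch_h_mem_int (H : SsgnHaupt A F a R₁ R₂ j ja h) (Hq : SsgnHaupt A F a R₁ R₂ jq jaq hq)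
    (ha : 2 ≤ a) (hq2 : 2 ≤ q) (haq : a ≠ q)
    (MP1 : SsgnModPoly A F j jq q Φ) (MP2 : SsgnModPoly A F ja jaq q Φ) :
    h ∈ s18tInt A hq := by
  refine ssgn_mem_int_of_forall hq h fun V hA hhq => ?_
  rw [← V.valuation_le_one_iff] at hhq ⊢
  have hA' := ssgn_valuation_le_one V hA
  by_contra hh
  rw [not_le] at hh
  exact absurd (ssgn_cusp_infty V.valuation H Hq hA' ha hq2 haq
    (fun hj => ssgn_newton V.valuation hA' MP1 hq2 hj)
    (fun hj => ssgn_newton V.valuation hA' MP2 hq2 hj) hh) (not_lt.mpr hhq)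

/-- `h⁻¹ ∈ s18tInt A h_q⁻¹`. -/
theorem sqcch_hinv_mem_int (H : SsgnHaupt A F a R₁ R₂ j ja h)
    (Hq : SsgnHaupt A F a R₁ R₂ jq jaq hq)
    (ha : 2 ≤ a) (hq2 : 2 ≤ q) (haq : a ≠ q)
    (MP1 : SsgnModPoly A F j jq q Φ) (MP2 : SsgnModPoly A F ja jaq q Φ) :
    h⁻¹ ∈ s18tInt A hq⁻¹ := by
  refine ssgn_mem_int_of_forall hq⁻¹ h⁻¹ fun V hA hhq => ?_
  rw [← V.valuation_le_one_iff] at hhq ⊢
  have hA' := ssgn_valuation_le_one V hA
  have hne : h ≠ 0 := H.ne_zero V.valuation hA'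
  have hqne : hq ≠ 0 := Hq.ne_zero V.valuation hA'
  have hvh : V.valuation h ≠ 0 := (Valuation.ne_zero_iff _).mpr hne
  have hvhq : V.valuation hq ≠ 0 := (Valuation.ne_zero_iff _).mpr hqne
  rw [map_inv₀, inv_le_one₀ (zero_lt_iff.mpr hvhq)] at hhq
  rw [map_inv₀, inv_le_one₀ (zero_lt_iff.mpr hvh)]
  by_contra hh
  rw [not_le] at hh
  exact absurd (ssgn_cusp_zero V.valuation H Hq hA' ha hq2 haq
    (fun hj => ssgn_newton V.valuation hA' MP1 hq2 hj)
    (fun hj => ssgn_newton V.valuation hA' MP2 hq2 hj) hh) (not_lt.mpr hhq)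

/-- two charts integral over each other define the same ring (`ssgn_int_mono` twice) -/
theorem sqcch_chart_eq {t t' : F} (h : t ∈ s18tInt A t') (h' : t' ∈ s18tInt A t) :
    s18tInt A t' = s18tInt A t :=
  le_antisymm (ssgn_int_mono h') (ssgn_int_mono h)

end Abs

/-! ### modular, level-generic : the charts `j`, `h_a`, `h_a⁻¹` of `F_E(N q)` and their `φ`-images -/

section Mod

variable (A : ValuationSubring Qb) (E : IntermediateField ℚ Qb) (N q : ℕ) [NeZero N] [NeZero q]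
variable {Φ : (↥(s18dVal A E))[X][X]}

/-- `j ∈ s18tInt A j(𝐪^q)` in `F_E(N q)`. -/
theorem sqcch_j_mem
    (MP : SsgnModPoly ↥(s18dVal A E) (LaurentSeries E) (jqModC E) (qExpand E q (jqModC E)) q Φ)
    (hq2 : 2 ≤ q) :
    ssdJ E (N * q) ∈ s18tInt ↥(s18dVal A E) (ssvmfPhi E N q (ssdJ E N)) := by
  rw [ssgnp_phi_eq]
  exact sqcch_j_mem_int (ssgn_modPoly_F A E N q MP) hq2

/-- **the chart equality for `j`** : `s18tInt A (φ j) = s18tInt A j` in `F_E(N q)`. -/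
theorem sqcch_chart_j
    (MP : SsgnModPoly ↥(s18dVal A E) (LaurentSeries E) (jqModC E) (qExpand E q (jqModC E)) q Φ)
    (hq2 : 2 ≤ q) :
    s18tInt ↥(s18dVal A E) (ssvmfPhi E N q (ssdJ E N)) = s18tInt ↥(s18dVal A E) (ssdJ E (N * q)) :=
  sqcch_chart_eq (sqcch_j_mem A E N q MP hq2)
    (by rw [ssgnp_phi_eq]; exact ssgn_phi_j_mem A E N q MP)

/-- the Hauptmodul relations and the two modular equations inside `F_E(N q)` (the data of the proof of
`ssgn_phi_h_mem_aux`). -/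
theorem sqcch_haupt_data (a : ℕ) [NeZero a] (ha : a = 2 ∨ a = 3) (haN : a ∣ N)
    {R₁ R₂ : (↥(s18dVal A E))[X]}
    (H : SsgnHaupt ↥(s18dVal A E) (LaurentSeries E) a R₁ R₂ (jqModC E) (jqNModC E a)
      (s18hq a (s18hExp a) E))
    (MP : SsgnModPoly ↥(s18dVal A E) (LaurentSeries E) (jqModC E) (qExpand E q (jqModC E)) q Φ) :
    SsgnHaupt ↥(s18dVal A E) (modularFunctionFieldFullC E (N * q)) a R₁ R₂
      (ssdJ E (N * q)) (ssgnJa E (N * q) a (haN.mul_right q))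
      (ssgH E (N * q) a ha (haN.mul_right q)) ∧
    SsgnHaupt ↥(s18dVal A E) (modularFunctionFieldFullC E (N * q)) a R₁ R₂
      (ssgnPhi E N q (ssdJ E N)) (ssgnPhi E N q (ssgnJa E N a haN))
      (ssgnPhi E N q (ssgH E N a ha haN)) ∧
    SsgnModPoly ↥(s18dVal A E) (modularFunctionFieldFullC E (N * q)) (ssdJ E (N * q))
      (ssgnPhi E N q (ssdJ E N)) q Φ ∧
    SsgnModPoly ↥(s18dVal A E) (modularFunctionFieldFullC E (N * q))
      (ssgnJa E (N * q) a (haN.mul_right q)) (ssgnPhi E N q (ssgnJa E N a haN)) q Φ :=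
  ⟨SsgnHaupt.of_map (ssgnVal A E (N * q)) (ssgnVal_injective A E (N * q)) H,
    SsgnHaupt.of_map (ssgnVal A E (N * q)) (ssgnVal_injective A E (N * q))
      (H.map (ssgnExp A E q)),
    ssgn_modPoly_F A E N q MP,
    SsgnModPoly.of_map (ssgnVal A E (N * q)) (ssgnVal_injective A E (N * q))
      (ssgn_modPoly_a A E q a MP)⟩

/-- `h_a ∈ s18tInt A h_a(𝐪^q)` and `h_a⁻¹ ∈ s18tInt A h_a(𝐪^q)⁻¹` in `F_E(N q)`. -/
theorem sqcch_h_mem (a : ℕ) [NeZero a] (ha : a = 2 ∨ a = 3) (haN : a ∣ N)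
    (hq2 : 2 ≤ q) (haq : a ≠ q) (hu : IsUnit ((a : ℕ) : ↥(s18dVal A E)))
    (MP : SsgnModPoly ↥(s18dVal A E) (LaurentSeries E) (jqModC E) (qExpand E q (jqModC E)) q Φ) :
    ssgH E (N * q) a ha (haN.mul_right q) ∈
        s18tInt ↥(s18dVal A E) (ssvmfPhi E N q (ssgH E N a ha haN)) ∧
      (ssgH E (N * q) a ha (haN.mul_right q))⁻¹ ∈
        s18tInt ↥(s18dVal A E) (ssvmfPhi E N q (ssgH E N a ha haN))⁻¹ := by
  have ha2 : 2 ≤ a := by rcases ha with rfl | rfl <;> norm_num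
  rw [ssgnp_phi_eq]
  rcases ha with rfl | rfl
  · obtain ⟨HF, HqF, MP1, MP2⟩ := sqcch_haupt_data A E N q 2 (Or.inl rfl) haN
      (ssgn_haupt_two A E hu) MP
    exact ⟨sqcch_h_mem_int HF HqF ha2 hq2 haq MP1 MP2,
      sqcch_hinv_mem_int HF HqF ha2 hq2 haq MP1 MP2⟩
  · obtain ⟨HF, HqF, MP1, MP2⟩ := sqcch_haupt_data A E N q 3 (Or.inr rfl) haN
      (ssgn_haupt_three A E hu) MP
    exact ⟨sqcch_h_mem_int HF HqF ha2 hq2 haq MP1 MP2,
      sqcch_hinv_mem_int HF HqF ha2 hq2 haq MP1 MP2⟩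

/-- **the chart equality for `h_a`** : `s18tInt A (φ h_a) = s18tInt A h_a` in `F_E(N q)`. -/
theorem sqcch_chart_h (a : ℕ) [NeZero a] (ha : a = 2 ∨ a = 3) (haN : a ∣ N)
    (hq2 : 2 ≤ q) (haq : a ≠ q) (hu : IsUnit ((a : ℕ) : ↥(s18dVal A E)))
    (MP : SsgnModPoly ↥(s18dVal A E) (LaurentSeries E) (jqModC E) (qExpand E q (jqModC E)) q Φ) :
    s18tInt ↥(s18dVal A E) (ssvmfPhi E N q (ssgH E N a ha haN)) =
      s18tInt ↥(s18dVal A E) (ssgH E (N * q) a ha (haN.mul_right q)) :=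
  sqcch_chart_eq (sqcch_h_mem A E N q a ha haN hq2 haq hu MP).1
    (by rw [ssgnp_phi_eq]; exact (ssgn_phi_h_mem A E N q a ha haN hq2 haq hu MP).1)

/-- **the chart equality for `h_a⁻¹`** : `s18tInt A (φ h_a)⁻¹ = s18tInt A h_a⁻¹` in `F_E(N q)`. -/
theorem sqcch_chart_hinv (a : ℕ) [NeZero a] (ha : a = 2 ∨ a = 3) (haN : a ∣ N)
    (hq2 : 2 ≤ q) (haq : a ≠ q) (hu : IsUnit ((a : ℕ) : ↥(s18dVal A E)))
    (MP : SsgnModPoly ↥(s18dVal A E) (LaurentSeries E) (jqModC E) (qExpand E q (jqModC E)) q Φ) :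
    s18tInt ↥(s18dVal A E) (ssvmfPhi E N q (ssgH E N a ha haN))⁻¹ =
      s18tInt ↥(s18dVal A E) (ssgH E (N * q) a ha (haN.mul_right q))⁻¹ :=
  sqcch_chart_eq (sqcch_h_mem A E N q a ha haN hq2 haq hu MP).2
    (by rw [ssgnp_phi_eq]; exact (ssgn_phi_h_mem A E N q a ha haN hq2 haq hu MP).2)

end Mod

/-! ### `transc`, `fin`, `pole` of `SqGeo` -/

section Pole

variable (E : IntermediateField ℚ Qb) (N : ℕ) [NeZero N]

theorem sqcch_transc_j : Transcendental E (ssdJ E N) := ssd_transcendental_j E N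

theorem sqcch_fin_j : FiniteDimensional E⟮ssdJ E N⟯ (modularFunctionFieldFullC E N) :=
  ssd_finiteDimensional_j E N

theorem sqcch_pole_j :
    ((ssdJ E N : modularFunctionFieldFullC E N) : LaurentSeries E).order < 0 := by
  show (jqModC E).order < 0
  rw [s18db_order_jqModC]
  norm_num

variable (a : ℕ) [NeZero a] (ha : a = 2 ∨ a = 3) (haN : a ∣ N)

theorem sqcch_transc_h : Transcendental E (ssgH E N a ha haN) := ssg_transcendental_h E N a ha haN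

theorem sqcch_fin_h :
    FiniteDimensional E⟮ssgH E N a ha haN⟯ (modularFunctionFieldFullC E N) :=
  ssg_finiteDimensional_h E N a ha haN

theorem sqcch_pole_h :
    ((ssgH E N a ha haN : modularFunctionFieldFullC E N) : LaurentSeries E).order < 0 := by
  show (s18hq a (s18hExp a) E).order < 0
  exact s18hk_order_hq_neg a (s18hExp a)

end Pole

/-! ### the tower `F_K(M) ⊂ F_K(M q) ⊂ F_K(M q q)` -/

section Tower

variable (K : Type*) [Field K] (M q : ℕ) [NeZero M] [NeZero q]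

/-- **`α ∘ φ₁ = φ ∘ α₁`** -/
theorem sqcch_comm (x : modularFunctionFieldFullC K M) :
    ssvmdIncl K (M * q) q (ssvmfPhi K M q x) = ssvmfPhi K (M * q) q (ssvmdIncl K M q x) := by
  apply Subtype.ext
  rw [ssvmdIncl_coe, ssvmfPhi_coe, ssvmfPhi_coe, ssvmdIncl_coe]

end Tower

section TowerChart

variable (A : ValuationSubring Qb) (E : IntermediateField ℚ Qb)
  [IsDiscreteValuationRing ↥(s18dVal A E)] (q : ℕ) [NeZero q]

/-- the chart equality pushed along the inclusion `α`, generic : if `s18tInt A t' = s18tInt A t₁` in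
`F_E(N)` then `s18tInt A (α t') = s18tInt A (α t₁)` in `F_E(N q)`. -/
theorem sqcch_chart_incl (N : ℕ) [NeZero N] {t' t₁ : modularFunctionFieldFullC E N}
    (h : s18tInt ↥(s18dVal A E) t' = s18tInt ↥(s18dVal A E) t₁) :
    s18tInt ↥(s18dVal A E) (ssvmdIncl E N q t') =
      s18tInt ↥(s18dVal A E) (ssvmdIncl E N q t₁) := by
  have h1 : t' ∈ s18tInt ↥(s18dVal A E) t₁ := by rw [← h]; exact ssgn_self_mem_int _
  have h2 : t₁ ∈ s18tInt ↥(s18dVal A E) t' := by rw [h]; exact ssgn_self_mem_int _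
  have k2 := ssgq_map_mem_int ((ssvmdIncl E N q : modularFunctionFieldFullC E N →ₐ[E]
    modularFunctionFieldFullC E (N * q)) : modularFunctionFieldFullC E N →+*
      modularFunctionFieldFullC E (N * q)) (sqgmh_incl_algebraMap A E N q) t'
    (ssvmdIncl E N q t') (s18tc_self_mem_int _) h2
  have k1 := ssgq_map_mem_int ((ssvmdIncl E N q : modularFunctionFieldFullC E N →ₐ[E]
    modularFunctionFieldFullC E (N * q)) : modularFunctionFieldFullC E N →+*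
      modularFunctionFieldFullC E (N * q)) (sqgmh_incl_algebraMap A E N q) t₁
    (ssvmdIncl E N q t₁) (s18tc_self_mem_int _) h1
  exact sqcch_chart_eq k2 k1

/-- the chart equality pushed along `φ`, generic. -/
theorem sqcch_chart_phi (N : ℕ) [NeZero N] {t' t₁ : modularFunctionFieldFullC E N}
    (h : s18tInt ↥(s18dVal A E) t' = s18tInt ↥(s18dVal A E) t₁) :
    s18tInt ↥(s18dVal A E) (ssvmfPhi E N q t') =
      s18tInt ↥(s18dVal A E) (ssvmfPhi E N q t₁) := by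
  have h1 : t' ∈ s18tInt ↥(s18dVal A E) t₁ := by rw [← h]; exact ssgn_self_mem_int _
  have h2 : t₁ ∈ s18tInt ↥(s18dVal A E) t' := by rw [h]; exact ssgn_self_mem_int _
  exact sqcch_chart_eq
    (ssgq_map_mem_int (ssvmfPhi E N q) (sqgmh_phi_algebraMap A E N q) t'
      (ssvmfPhi E N q t') (s18tc_self_mem_int _) h2)
    (ssgq_map_mem_int (ssvmfPhi E N q) (sqgmh_phi_algebraMap A E N q) t₁
      (ssvmfPhi E N q t₁) (s18tc_self_mem_int _) h1)

end TowerChart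

/-! ### `SqgwHyp` for the modular tower -/

section Wire

variable {q : ℕ} [NeZero q] (A : ValuationSubring Qb) (E : IntermediateField ℚ Qb)
  [IsDiscreteValuationRing ↥(s18dVal A E)] (M : ℕ) [NeZero M]

set_option maxHeartbeats 1000000 in
/-- **`SqgwHyp` FOR A GENERIC CHART** `t₀` of `F_E(M)`, `t₁ = α₁ t₀`, `t = α t₁` : the chart fields from
the two chart equalities `chartW` (level `M q`) and `chartφ` (level `M q q`), `le₁, le₂, unifW₂` and the
uniformisers from the (VAL) package `SsvTwo` at level `M q`, `posα, posφ, memα₃, memφ₁` from the positions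
`V.comap f = W`; the residue statements are passed through. -/
theorem sqcch_wire (hq : 0 < q) (t₀ : modularFunctionFieldFullC E M)
    (t₁ : modularFunctionFieldFullC E (M * q)) (t : modularFunctionFieldFullC E (M * q * q))
    (h₁ : ssvmdIncl E M q t₀ = t₁) (h₂ : ssvmdIncl E (M * q) q t₁ = t)
    (chartW : s18tInt ↥(s18dVal A E) (ssvmfPhi E M q t₀) = s18tInt ↥(s18dVal A E) t₁)
    (chartφ : s18tInt ↥(s18dVal A E) (ssvmfPhi E (M * q) q t₁) = s18tInt ↥(s18dVal A E) t)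
    (ϖ₀ : ↥(s18dVal A E)) (hϖ₀ : Irreducible ϖ₀) (good : GrdfbHyp hϖ₀ t₀)
    {u₁ u₂ : modularFunctionFieldFullC E (M * q)}
    {W₁ W₂ : ValuationSubring (modularFunctionFieldFullC E (M * q))}
    (two : SsvTwo hϖ₀ t₁ u₁ u₂ W₁ W₂) {e₂ : ℕ}
    {V₁ V₂ V₃ : ValuationSubring (modularFunctionFieldFullC E (M * q * q))}
    (three : SqgaThree ϖ₀ t e₂ V₁ V₂ V₃)
    (posα₁ : V₁.comap ((ssvmdIncl E (M * q) q : modularFunctionFieldFullC E (M * q) →ₐ[E]
      modularFunctionFieldFullC E (M * q * q)) : modularFunctionFieldFullC E (M * q) →+*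
        modularFunctionFieldFullC E (M * q * q)) = W₁)
    (posα₂ : V₂.comap ((ssvmdIncl E (M * q) q : modularFunctionFieldFullC E (M * q) →ₐ[E]
      modularFunctionFieldFullC E (M * q * q)) : modularFunctionFieldFullC E (M * q) →+*
        modularFunctionFieldFullC E (M * q * q)) = W₁)
    (posα₃ : V₃.comap ((ssvmdIncl E (M * q) q : modularFunctionFieldFullC E (M * q) →ₐ[E]
      modularFunctionFieldFullC E (M * q * q)) : modularFunctionFieldFullC E (M * q) →+*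
        modularFunctionFieldFullC E (M * q * q)) = W₂)
    (posφ₃ : V₃.comap (ssvmfPhi E (M * q) q) = W₂) (posφ₂ : V₂.comap (ssvmfPhi E (M * q) q) = W₂)
    (posφ₁ : V₁.comap (ssvmfPhi E (M * q) q) = W₁)
    (gaussα₁ : ∀ x ∈ s18tIntLoc ↥(s18dVal A E) t₀ (C ϖ₀) (s18t_prime_C hϖ₀),
      ssvmdIncl E M q x ∈ W₁)
    (gaussα₂ : ∀ x ∈ s18tIntLoc ↥(s18dVal A E) t₀ (C ϖ₀) (s18t_prime_C hϖ₀),
      ssvmdIncl E M q x ∈ W₂)
    (gaussφ₁ : ∀ x ∈ s18tIntLoc ↥(s18dVal A E) t₀ (C ϖ₀) (s18t_prime_C hϖ₀),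
      ssvmfPhi E M q x ∈ W₁)
    (gaussφ₂ : ∀ x ∈ s18tIntLoc ↥(s18dVal A E) t₀ (C ϖ₀) (s18t_prime_C hϖ₀),
      ssvmfPhi E M q x ∈ W₂)
    (res₁ : ∀ y ∈ W₁, ∃ r ∈ s18tIntLoc ↥(s18dVal A E) t₀ (C ϖ₀) (s18t_prime_C hϖ₀),
      y - ssvmdIncl E M q r ∈ W₁.nonunits)
    (res₂ : ∀ y ∈ W₂, ∃ r ∈ s18tIntLoc ↥(s18dVal A E) t₀ (C ϖ₀) (s18t_prime_C hϖ₀),
      y - ssvmfPhi E M q r ∈ W₂.nonunits)
    (ins₁ : ∀ y ∈ W₁, ∃ r ∈ s18tIntLoc ↥(s18dVal A E) t₀ (C ϖ₀) (s18t_prime_C hϖ₀),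
      y ^ q - ssvmfPhi E M q r ∈ W₁.nonunits)
    (ins₂ : ∀ y ∈ W₂, ∃ r ∈ s18tIntLoc ↥(s18dVal A E) t₀ (C ϖ₀) (s18t_prime_C hϖ₀),
      y ^ q - ssvmdIncl E M q r ∈ W₂.nonunits)
    (res₁α : ∀ x ∈ V₁, ∃ y ∈ W₁, x - ssvmdIncl E (M * q) q y ∈ V₁.nonunits)
    (res₂α : ∀ x ∈ V₂, ∃ y ∈ W₁, x - ssvmdIncl E (M * q) q y ∈ V₂.nonunits)
    (res₂φ : ∀ x ∈ V₂, ∃ y ∈ W₂, x - ssvmfPhi E (M * q) q y ∈ V₂.nonunits)
    (res₃φ : ∀ x ∈ V₃, ∃ y ∈ W₂, x - ssvmfPhi E (M * q) q y ∈ V₃.nonunits) :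
    SqgwHyp hϖ₀ (RingHom.id ↥(s18dVal A E))
      ((ssvmdIncl E M q : modularFunctionFieldFullC E M →ₐ[E] modularFunctionFieldFullC E (M * q)) :
        modularFunctionFieldFullC E M →+* modularFunctionFieldFullC E (M * q))
      (ssvmfPhi E M q)
      ((ssvmdIncl E (M * q) q : modularFunctionFieldFullC E (M * q) →ₐ[E]
        modularFunctionFieldFullC E (M * q * q)) : modularFunctionFieldFullC E (M * q) →+*
          modularFunctionFieldFullC E (M * q * q))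
      (ssvmfPhi E (M * q) q) ϖ₀ t₀ t₁ t e₂ W₁ W₂ V₁ V₂ V₃ q := by
  subst h₁
  subst h₂
  have hφt : ssvmfPhi E (M * q) q (ssvmdIncl E M q t₀) ∈
      s18tInt ↥(s18dVal A E) (ssvmdIncl E (M * q) q (ssvmdIncl E M q t₀)) := by
    rw [← chartφ]
    exact ssgn_self_mem_int _
  exact
    { hq := hq
      jsurj := Function.surjective_id
      unif := ⟨1, by rw [RingHom.id_apply, mul_one]⟩
      comm := fun x => sqcch_comm E M q x
      compatα₁ := fun a => by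
        rw [RingHom.id_apply]
        exact sqgmh_incl_algebraMap A E M q a
      compatφ₁ := fun a => by
        rw [RingHom.id_apply]
        exact sqgmh_phi_algebraMap A E M q a
      coord₁ := rfl
      coord := rfl
      posα := sqgmh_posα A E M (ssvmdIncl E M q t₀) ϖ₀ two.unif₁ posα₁ posα₂ posα₃
      posφ := sqgmh_posφ A E M (ssvmdIncl E M q t₀) _ hφt ϖ₀ two.unif₂ posφ₃ posφ₂ posφ₁
      three := three
      good := good
      le₁ := fun x hx => ((two.mem_iff x).mp (s18tInt_le_intLoc hϖ₀ _ hx)).1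
      le₂ := fun x hx => ((two.mem_iff x).mp (s18tInt_le_intLoc hϖ₀ _ hx)).2
      unifW₂ := (W₂.mem_nonunits_iff).mpr two.unif₂.1
      chartW := chartW
      chart₁ := sqcch_chart_incl A E q (M * q) chartW
      chart₂ := (sqcch_chart_phi A E q (M * q) chartW).trans chartφ
      gaussα₁ := gaussα₁
      gaussα₂ := gaussα₂
      gaussφ₁ := gaussφ₁
      gaussφ₂ := gaussφ₂
      memα₃ := fun x hx => by
        rw [← posα₃, ValuationSubring.mem_comap] at hx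
        exact hx
      memφ₁ := fun x hx => by
        rw [← posφ₁, ValuationSubring.mem_comap] at hx
        exact hx
      res₁ := res₁
      res₂ := res₂
      ins₁ := ins₁
      ins₂ := ins₂
      res₁α := res₁α
      res₂α := res₂α
      res₂φ := res₂φ
      res₃φ := res₃φ }

/-- `α j = j` -/
theorem sqcch_incl_j (K : IntermediateField ℚ Qb) (N ℓ : ℕ) [NeZero N] [NeZero ℓ] :
    ssvmdIncl K N ℓ (ssdJ K N) = ssdJ K (N * ℓ) :=
  Subtype.ext (ssvmdIncl_coe K N ℓ (ssdJ K N))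

/-- `α h_a = h_a` -/
theorem sqcch_incl_h (K : IntermediateField ℚ Qb) (N ℓ : ℕ) [NeZero N] [NeZero ℓ] (a : ℕ)
    [NeZero a] (ha : a = 2 ∨ a = 3) (haN : a ∣ N) :
    ssvmdIncl K N ℓ (ssgH K N a ha haN) = ssgH K (N * ℓ) a ha (haN.mul_right ℓ) :=
  Subtype.ext (ssvmdIncl_coe K N ℓ (ssgH K N a ha haN))

/-- **the chart fields for `t = j`** : `chartW` and `chartφ` of `sqcch_wire` at the levels `M q`,
`M q q`, for `𝔸` over the prime `q`. -/
theorem sqcch_charts_j [Fact q.Prime] (hA : A.LiesOverPrime q) :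
    s18tInt ↥(s18dVal A E) (ssvmfPhi E M q (ssdJ E M)) =
        s18tInt ↥(s18dVal A E) (ssdJ E (M * q)) ∧
      s18tInt ↥(s18dVal A E) (ssvmfPhi E (M * q) q (ssdJ E (M * q))) =
        s18tInt ↥(s18dVal A E) (ssdJ E (M * q * q)) := by
  obtain ⟨Φ, MP⟩ := ssgcl_modPoly_over q A hA E
  have hq2 : 2 ≤ q := (Fact.out : q.Prime).two_le
  exact ⟨sqcch_chart_j A E M q MP hq2, sqcch_chart_j A E (M * q) q MP hq2⟩

/-- **the chart fields for `t = h_a`** (`a ∈ {2,3}`, `a ∣ M`, `a ≠ q`). -/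
theorem sqcch_charts_h [Fact q.Prime] (hA : A.LiesOverPrime q) (a : ℕ) [NeZero a]
    (ha : a = 2 ∨ a = 3) (haM : a ∣ M) (haq : a ≠ q) :
    s18tInt ↥(s18dVal A E) (ssvmfPhi E M q (ssgH E M a ha haM)) =
        s18tInt ↥(s18dVal A E) (ssgH E (M * q) a ha (haM.mul_right q)) ∧
      s18tInt ↥(s18dVal A E) (ssvmfPhi E (M * q) q (ssgH E (M * q) a ha (haM.mul_right q))) =
        s18tInt ↥(s18dVal A E) (ssgH E (M * q * q) a ha ((haM.mul_right q).mul_right q)) := by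
  obtain ⟨Φ, MP⟩ := ssgcl_modPoly_over q A hA E
  have hqp : q.Prime := Fact.out
  have hq2 : 2 ≤ q := hqp.two_le
  have hndvd : ¬ q ∣ a := by
    intro hdvd
    have hap : a.Prime := by rcases ha with rfl | rfl <;> norm_num
    exact haq ((Nat.prime_dvd_prime_iff_eq hqp hap).mp hdvd).symm
  have hu : IsUnit ((a : ℕ) : ↥(s18dVal A E)) := s18r_isUnit_natCast A E hA a hndvd
  exact ⟨sqcch_chart_h A E M q a ha haM hq2 haq hu MP,
    sqcch_chart_h A E (M * q) q a ha (haM.mul_right q) hq2 haq hu MP⟩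

/-- the same for `h_a⁻¹` -/
theorem sqcch_charts_hinv [Fact q.Prime] (hA : A.LiesOverPrime q) (a : ℕ) [NeZero a]
    (ha : a = 2 ∨ a = 3) (haM : a ∣ M) (haq : a ≠ q) :
    s18tInt ↥(s18dVal A E) (ssvmfPhi E M q (ssgH E M a ha haM))⁻¹ =
        s18tInt ↥(s18dVal A E) (ssgH E (M * q) a ha (haM.mul_right q))⁻¹ ∧
      s18tInt ↥(s18dVal A E) (ssvmfPhi E (M * q) q (ssgH E (M * q) a ha (haM.mul_right q)))⁻¹ =
        s18tInt ↥(s18dVal A E) (ssgH E (M * q * q) a ha ((haM.mul_right q).mul_right q))⁻¹ := by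
  obtain ⟨Φ, MP⟩ := ssgcl_modPoly_over q A hA E
  have hqp : q.Prime := Fact.out
  have hq2 : 2 ≤ q := hqp.two_le
  have hndvd : ¬ q ∣ a := by
    intro hdvd
    have hap : a.Prime := by rcases ha with rfl | rfl <;> norm_num
    exact haq ((Nat.prime_dvd_prime_iff_eq hqp hap).mp hdvd).symm
  have hu : IsUnit ((a : ℕ) : ↥(s18dVal A E)) := s18r_isUnit_natCast A E hA a hndvd
  exact ⟨sqcch_chart_hinv A E M q a ha haM hq2 haq hu MP,
    sqcch_chart_hinv A E (M * q) q a ha (haM.mul_right q) hq2 haq hu MP⟩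

set_option maxHeartbeats 1000000 in
/-- **`SqgwHyp` FOR THE CHART `j`** (any prime `q`, `𝔸` over `q`). -/
theorem sqcch_wire_j [Fact q.Prime] (hA : A.LiesOverPrime q)
    (ϖ₀ : ↥(s18dVal A E)) (hϖ₀ : Irreducible ϖ₀) (good : GrdfbHyp hϖ₀ (ssdJ E M))
    {u₁ u₂ : modularFunctionFieldFullC E (M * q)}
    {W₁ W₂ : ValuationSubring (modularFunctionFieldFullC E (M * q))}
    (two : SsvTwo hϖ₀ (ssdJ E (M * q)) u₁ u₂ W₁ W₂) {e₂ : ℕ}
    {V₁ V₂ V₃ : ValuationSubring (modularFunctionFieldFullC E (M * q * q))}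
    (three : SqgaThree ϖ₀ (ssdJ E (M * q * q)) e₂ V₁ V₂ V₃)
    (posα₁ : V₁.comap ((ssvmdIncl E (M * q) q : modularFunctionFieldFullC E (M * q) →ₐ[E]
      modularFunctionFieldFullC E (M * q * q)) : modularFunctionFieldFullC E (M * q) →+*
        modularFunctionFieldFullC E (M * q * q)) = W₁)
    (posα₂ : V₂.comap ((ssvmdIncl E (M * q) q : modularFunctionFieldFullC E (M * q) →ₐ[E]
      modularFunctionFieldFullC E (M * q * q)) : modularFunctionFieldFullC E (M * q) →+*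
        modularFunctionFieldFullC E (M * q * q)) = W₁)
    (posα₃ : V₃.comap ((ssvmdIncl E (M * q) q : modularFunctionFieldFullC E (M * q) →ₐ[E]
      modularFunctionFieldFullC E (M * q * q)) : modularFunctionFieldFullC E (M * q) →+*
        modularFunctionFieldFullC E (M * q * q)) = W₂)
    (posφ₃ : V₃.comap (ssvmfPhi E (M * q) q) = W₂) (posφ₂ : V₂.comap (ssvmfPhi E (M * q) q) = W₂)
    (posφ₁ : V₁.comap (ssvmfPhi E (M * q) q) = W₁)
    (gaussα₁ : ∀ x ∈ s18tIntLoc ↥(s18dVal A E) (ssdJ E M) (C ϖ₀) (s18t_prime_C hϖ₀),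
      ssvmdIncl E M q x ∈ W₁)
    (gaussα₂ : ∀ x ∈ s18tIntLoc ↥(s18dVal A E) (ssdJ E M) (C ϖ₀) (s18t_prime_C hϖ₀),
      ssvmdIncl E M q x ∈ W₂)
    (gaussφ₁ : ∀ x ∈ s18tIntLoc ↥(s18dVal A E) (ssdJ E M) (C ϖ₀) (s18t_prime_C hϖ₀),
      ssvmfPhi E M q x ∈ W₁)
    (gaussφ₂ : ∀ x ∈ s18tIntLoc ↥(s18dVal A E) (ssdJ E M) (C ϖ₀) (s18t_prime_C hϖ₀),
      ssvmfPhi E M q x ∈ W₂)
    (res₁ : ∀ y ∈ W₁, ∃ r ∈ s18tIntLoc ↥(s18dVal A E) (ssdJ E M) (C ϖ₀) (s18t_prime_C hϖ₀),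
      y - ssvmdIncl E M q r ∈ W₁.nonunits)
    (res₂ : ∀ y ∈ W₂, ∃ r ∈ s18tIntLoc ↥(s18dVal A E) (ssdJ E M) (C ϖ₀) (s18t_prime_C hϖ₀),
      y - ssvmfPhi E M q r ∈ W₂.nonunits)
    (ins₁ : ∀ y ∈ W₁, ∃ r ∈ s18tIntLoc ↥(s18dVal A E) (ssdJ E M) (C ϖ₀) (s18t_prime_C hϖ₀),
      y ^ q - ssvmfPhi E M q r ∈ W₁.nonunits)
    (ins₂ : ∀ y ∈ W₂, ∃ r ∈ s18tIntLoc ↥(s18dVal A E) (ssdJ E M) (C ϖ₀) (s18t_prime_C hϖ₀),
      y ^ q - ssvmdIncl E M q r ∈ W₂.nonunits)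
    (res₁α : ∀ x ∈ V₁, ∃ y ∈ W₁, x - ssvmdIncl E (M * q) q y ∈ V₁.nonunits)
    (res₂α : ∀ x ∈ V₂, ∃ y ∈ W₁, x - ssvmdIncl E (M * q) q y ∈ V₂.nonunits)
    (res₂φ : ∀ x ∈ V₂, ∃ y ∈ W₂, x - ssvmfPhi E (M * q) q y ∈ V₂.nonunits)
    (res₃φ : ∀ x ∈ V₃, ∃ y ∈ W₂, x - ssvmfPhi E (M * q) q y ∈ V₃.nonunits) :
    SqgwHyp hϖ₀ (RingHom.id ↥(s18dVal A E))
      ((ssvmdIncl E M q : modularFunctionFieldFullC E M →ₐ[E] modularFunctionFieldFullC E (M * q)) :
        modularFunctionFieldFullC E M →+* modularFunctionFieldFullC E (M * q))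
      (ssvmfPhi E M q)
      ((ssvmdIncl E (M * q) q : modularFunctionFieldFullC E (M * q) →ₐ[E]
        modularFunctionFieldFullC E (M * q * q)) : modularFunctionFieldFullC E (M * q) →+*
          modularFunctionFieldFullC E (M * q * q))
      (ssvmfPhi E (M * q) q) ϖ₀ (ssdJ E M) (ssdJ E (M * q)) (ssdJ E (M * q * q)) e₂ W₁ W₂
      V₁ V₂ V₃ q :=
  sqcch_wire A E M (Fact.out : q.Prime).pos (ssdJ E M) (ssdJ E (M * q)) (ssdJ E (M * q * q))
    (sqcch_incl_j E M q) (sqcch_incl_j E (M * q) q) (sqcch_charts_j A E M hA).1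
    (sqcch_charts_j A E M hA).2 ϖ₀ hϖ₀ good two three posα₁ posα₂ posα₃ posφ₃ posφ₂ posφ₁
    gaussα₁ gaussα₂ gaussφ₁ gaussφ₂ res₁ res₂ ins₁ ins₂ res₁α res₂α res₂φ res₃φ

end Wire

end Fermat.Agent.SQ
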