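import Mathlib
import Fermat.Agent.SQ.Germ.CuspH
import Fermat.Agent.SQ.Conc.AmbTwo

/-!
# Program Q (S36), concrete side, `q ∈ {2, 3}` : THE CUSP `h_a = 0` IN THE FINITE CHART `h_a`
(prefix `sqcch2_`)

Mirror of helper7's `SQ/Germ/CuspH.lean` (the cusp `h_a = ∞` in the chart `u = h_a⁻¹`).

ABSTRACT (`SsgnHaupt` ×2, `SsgnModPoly` ×2) :
* `sqcch2_val_ge` : `v h ≤ 1 ⟹ (v h)^q ≤ v h_q` (Newton polygon);
* `sqcch2_sep_mem` : THE SEPARATING FUNCTION `h^q h_q⁻¹` LIES IN `P = s18tInt A h`;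
* `sqcch2_cusp_mem` : `h ∈ 𝔫 ⟹ h_q ∈ 𝔫`;
* `sqcch2_not_cross` : `h_q ≡ h^q mod 𝔪_{W₁}`, `h_q^q ≡ h mod 𝔪_{W₂}`, `h ∈ 𝔫` ⟹
  `¬ (SqtOn W₁ h 𝔫 ∧ SqtOn W₂ h 𝔫)`;
* `sqcch2_inLoc_of_not_mem` : `h ∉ 𝔫 ⟹ j ∈ P_𝔫` (a point of the chart `h` which is not over `h = 0`
  is not a cusp).

MODULAR : level `N q` for every `N`; `W_i = h.V_i` (a witness of the ambient (VAL) package of level
`M q`) : `sqcch2_hnc_amb` (NO NODE OVER THE CUSP `h_a = 0`), `sqcch2_nc_node` (at a point of both `W₁`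
and `W₂`, `j` and `φ₁ j` lie in the local ring).
-/

set_option autoImplicit false
set_option linter.unusedSectionVars false
set_option linter.unusedVariables false
set_option linter.style.haveILetI false
set_option synthInstance.maxHeartbeats 400000

noncomputable section

namespace Fermat.Agent.SQ

open Polynomial ModularCurve AlgebraicCurve IntermediateField IsLocalRing Fermat.Agent.S18
  Fermat.Agent.G Fermat.Agent.SS

local notation "Qb" => AlgebraicClosure ℚ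

/-! ### abstract : the separating function at the cusp `h = 0` -/

section Abs

variable {A F : Type*} [CommRing A] [Field F] [Algebra A F]
variable {a q : ℕ} {R₁ R₂ : A[X]} {j ja h jq jaq hq : F} {Φ : A[X][X]}

/-- `v h ≤ 1 ⟹ (v h)^q ≤ v h_q`. -/
theorem sqcch2_val_ge {Γ₀ : Type*} [LinearOrderedCommGroupWithZero Γ₀] (v : Valuation F Γ₀)
    (hA : ∀ a : A, v (algebraMap A F a) ≤ 1)
    (H : SsgnHaupt A F a R₁ R₂ j ja h) (Hq : SsgnHaupt A F a R₁ R₂ jq jaq hq)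
    (ha : 2 ≤ a) (hq2 : 2 ≤ q) (haq : a ≠ q)
    (MP1 : SsgnModPoly A F j jq q Φ) (MP2 : SsgnModPoly A F ja jaq q Φ)
    (hh : v h ≤ 1) : v h ^ q ≤ v hq := by
  have NP1 : 1 < v j → v jq = v j ^ q ∨ v jq ^ q = v j := fun hj => ssgn_newton v hA MP1 hq2 hj
  have NP2 : 1 < v ja → v jaq = v ja ^ q ∨ v jaq ^ q = v ja :=
    fun hj => ssgn_newton v hA MP2 hq2 hj
  have INT : v j ≤ 1 → v jq ≤ 1 := fun hj => ssgn_int_of_le v hA MP1 hj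
  have hne : h ≠ 0 := H.ne_zero v hA
  have hqne : hq ≠ 0 := Hq.ne_zero v hA
  have hvh : v h ≠ 0 := (Valuation.ne_zero_iff v).mpr hne
  have hvhq : v hq ≠ 0 := (Valuation.ne_zero_iff v).mpr hqne
  rcases hh.lt_or_eq with hlt | heq
  · -- `v h < 1`
    have hsmall : v hq < 1 := ssgn_cusp_zero v H Hq hA ha hq2 haq NP1 NP2 hlt
    obtain ⟨-, s2⟩ := H.small v hA hlt
    obtain ⟨-, t2⟩ := Hq.small v hA hsmall
    -- `v ja = (v h)⁻¹`, `v jaq = (v hq)⁻¹`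
    have e1 : v ja = (v h)⁻¹ := eq_inv_of_mul_eq_one_left s2
    have e2 : v jaq = (v hq)⁻¹ := eq_inv_of_mul_eq_one_left t2
    have hja1 : 1 < v ja := by
      rw [e1]
      exact (one_lt_inv₀ (zero_lt_iff.mpr hvh)).mpr hlt
    rcases NP2 hja1 with e | e
    · rw [e1, e2, inv_pow] at e
      have : v hq = v h ^ q := inv_injective e
      exact this.ge
    · rw [e1, e2, inv_pow] at e
      have e' : v hq ^ q = v h := inv_injective e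
      calc v h ^ q ≤ v h ^ 1 := pow_le_pow_of_le_one zero_le hlt.le (by omega)
        _ = v h := pow_one _
        _ = v hq ^ q := e'.symm
        _ ≤ v hq ^ 1 := pow_le_pow_of_le_one zero_le hsmall.le (by omega)
        _ = v hq := pow_one _
  · -- `v h = 1`
    rw [heq, one_pow]
    have h1 : v h⁻¹ ≤ 1 := by rw [map_inv₀, heq, inv_one]
    have h2 := ssgn_inv_le_one v H Hq hA ha hq2 haq NP1 NP2 INT h1
    rw [map_inv₀, inv_le_one₀ (zero_lt_iff.mpr hvhq)] at h2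
    exact h2

/-- **THE SEPARATING FUNCTION** `h^q h_q⁻¹ ∈ s18tInt A h`. -/
theorem sqcch2_sep_mem (H : SsgnHaupt A F a R₁ R₂ j ja h) (Hq : SsgnHaupt A F a R₁ R₂ jq jaq hq)
    (ha : 2 ≤ a) (hq2 : 2 ≤ q) (haq : a ≠ q)
    (MP1 : SsgnModPoly A F j jq q Φ) (MP2 : SsgnModPoly A F ja jaq q Φ) :
    h ^ q * hq⁻¹ ∈ s18tInt A h := by
  refine ssgn_mem_int_of_forall h (h ^ q * hq⁻¹) fun V hA hu => ?_
  rw [← V.valuation_le_one_iff] at hu ⊢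
  have hA' := ssgn_valuation_le_one V hA
  have hqne : hq ≠ 0 := Hq.ne_zero V.valuation hA'
  have hvhq : V.valuation hq ≠ 0 := (Valuation.ne_zero_iff _).mpr hqne
  have hle := sqcch2_val_ge V.valuation hA' H Hq ha hq2 haq MP1 MP2 hu
  rw [map_mul, map_pow, map_inv₀]
  rw [mul_inv_le_iff₀ (zero_lt_iff.mpr hvhq), one_mul]
  exact hle

/-- **EVERY CUSP POINT OF THE CHART `h` IS A ZERO OF `h_q`** : `h ∈ 𝔫 ⟹ h_q ∈ 𝔫`. -/
theorem sqcch2_cusp_mem (H : SsgnHaupt A F a R₁ R₂ j ja h) (Hq : SsgnHaupt A F a R₁ R₂ jq jaq hq)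
    (ha : 2 ≤ a) (hq2 : 2 ≤ q) (haq : a ≠ q)
    (MP1 : SsgnModPoly A F j jq q Φ) (MP2 : SsgnModPoly A F ja jaq q Φ)
    (𝔫 : Ideal ↥(s18tInt A h)) [h𝔫 : 𝔫.IsPrime]
    (hcusp : (⟨h, ssgn_self_mem_int h⟩ : ↥(s18tInt A h)) ∈ 𝔫)
    (hmem : hq ∈ s18tInt A h) :
    (⟨hq, hmem⟩ : ↥(s18tInt A h)) ∈ 𝔫 := by
  obtain ⟨V, hle, hV⟩ := sskr_exists_valuationSubring (s18tInt A h) 𝔫
  have hA : ∀ a : A, algebraMap A F a ∈ V := fun a => hle (ssgn_algebraMap_mem_int h a)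
  have hA' := ssgn_valuation_le_one V hA
  have h1 : V.valuation h < 1 := (V.mem_nonunits_iff).mp ((hV _).mpr hcusp)
  have h2 : V.valuation hq < 1 := ssgn_cusp_zero V.valuation H Hq hA' ha hq2 haq
    (fun hj => ssgn_newton V.valuation hA' MP1 hq2 hj)
    (fun hj => ssgn_newton V.valuation hA' MP2 hq2 hj) h1
  exact (hV ⟨hq, _⟩).mp ((V.mem_nonunits_iff).mpr h2)

/-- **A POINT OF THE CHART `h` NOT OVER `h = 0` IS NOT A CUSP** : `h ∉ 𝔫 ⟹ j ∈ P_𝔫`. -/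
theorem sqcch2_inLoc_of_not_mem (H : SsgnHaupt A F a R₁ R₂ j ja h)
    (𝔫 : Ideal ↥(s18tInt A h))
    (hnc : (⟨h, ssgn_self_mem_int h⟩ : ↥(s18tInt A h)) ∉ 𝔫) [h𝔫 : 𝔫.IsPrime] :
    ∃ s : ↥(s18tInt A h), s ∉ 𝔫 ∧ (s : F) * j ∈ s18tInt A h := by
  refine ⟨(⟨h, ssgn_self_mem_int h⟩ : ↥(s18tInt A h)) ^ a, fun hmem => hnc (h𝔫.mem_of_pow_mem a hmem),
    ?_⟩
  have e : (((⟨h, ssgn_self_mem_int h⟩ : ↥(s18tInt A h)) ^ a : ↥(s18tInt A h)) : F) * j =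
      aeval h R₁ := by
    push_cast
    rw [mul_comm]
    exact H.id₁
  rw [e, aeval_eq_sum_range]
  refine Subring.sum_mem _ fun i _ => ?_
  rw [Algebra.smul_def]
  exact Subring.mul_mem _ (ssgn_algebraMap_mem_int h _) (Subring.pow_mem _ (ssgn_self_mem_int h) i)

/-- `h_q ∈ 𝔫 ⟹ h ∈ 𝔫` (the converse of `sqcch2_cusp_mem`). -/
theorem sqcch2_cusp_mem_conv (H : SsgnHaupt A F a R₁ R₂ j ja h)
    (Hq : SsgnHaupt A F a R₁ R₂ jq jaq hq)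
    (ha : 2 ≤ a) (hq2 : 2 ≤ q) (haq : a ≠ q)
    (MP1 : SsgnModPoly A F j jq q Φ) (MP2 : SsgnModPoly A F ja jaq q Φ)
    (𝔫 : Ideal ↥(s18tInt A h)) [h𝔫 : 𝔫.IsPrime]
    (hmem : hq ∈ s18tInt A h) (hcusp : (⟨hq, hmem⟩ : ↥(s18tInt A h)) ∈ 𝔫) :
    (⟨h, ssgn_self_mem_int h⟩ : ↥(s18tInt A h)) ∈ 𝔫 := by
  obtain ⟨V, hle, hV⟩ := sskr_exists_valuationSubring (s18tInt A h) 𝔫
  have hA : ∀ a : A, algebraMap A F a ∈ V := fun a => hle (ssgn_algebraMap_mem_int h a)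
  have hA' := ssgn_valuation_le_one V hA
  have h1 : V.valuation hq < 1 := (V.mem_nonunits_iff).mp ((hV _).mpr hcusp)
  have h0 : V.valuation h ≤ 1 := (V.valuation_le_one_iff _).mpr (hle (ssgn_self_mem_int h))
  have h2 := sqcch2_val_ge V.valuation hA' H Hq ha hq2 haq MP1 MP2 h0
  refine (hV ⟨h, _⟩).mp ((V.mem_nonunits_iff).mpr ?_)
  by_contra hcon
  have h3 : V.valuation h = 1 := le_antisymm h0 (not_lt.mp hcon)
  rw [h3, one_pow] at h2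
  exact absurd h1 (not_lt.mpr h2)

end Abs

/-! ### abstract : no point over `h = 0` lies on `W₁` and on `W₂` -/

section NoCross

variable {A : Type*} [CommRing A] [IsDomain A] [IsDiscreteValuationRing A] [CharZero A]
variable {F : Type*} [Field F] [Algebra A F]

/-- `x ≡ y mod 𝔪_V`, `y` a unit of `V` ⟹ `x⁻¹ ≡ y⁻¹ mod 𝔪_V`. -/
theorem sqcch2_inv_sub_mem (V : ValuationSubring F) {x y : F} (hy : V.valuation y = 1)
    (h : x - y ∈ V.nonunits) : x⁻¹ - y⁻¹ ∈ V.nonunits := by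
  rw [V.mem_nonunits_iff] at h ⊢
  have hx : V.valuation x = 1 := by
    have e : x = (x - y) + y := by ring
    rw [e, Valuation.map_add_eq_of_lt_right _ (by rw [hy]; exact h), hy]
  have hx0 : x ≠ 0 := fun h0 => by rw [h0, map_zero] at hx; exact zero_ne_one hx
  have hy0 : y ≠ 0 := fun h0 => by rw [h0, map_zero] at hy; exact zero_ne_one hy
  have e : x⁻¹ - y⁻¹ = -((x - y) * (x⁻¹ * y⁻¹)) := by
    field_simp
    ring
  rw [e, Valuation.map_neg, map_mul, map_mul, map_inv₀, map_inv₀, hx, hy, inv_one, mul_one,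
    mul_one]
  exact h

/-- **NO POINT OVER `h = 0` LIES ON `V₁` AND ON `V₂`** : `y ≡ h^q mod 𝔪_{V₁}`, `y^q ≡ h mod 𝔪_{V₂}`,
`h` a unit of `V₁` and of `V₂`, and the separating function `h^q y⁻¹ ∈ P`. -/
theorem sqcch2_not_cross (h y : F) (q : ℕ) (hq : 2 ≤ q) (h0 : h ≠ 0) (V₁ V₂ : ValuationSubring F)
    (hQ₁ : ∀ x ∈ s18tInt A h, x ∈ V₁) (hQ₂ : ∀ x ∈ s18tInt A h, x ∈ V₂)
    (hi₁ : h⁻¹ ∈ V₁) (hi₂ : h⁻¹ ∈ V₂)
    (hf : h ^ q * y⁻¹ ∈ s18tInt A h)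
    (h₁ : y - h ^ q ∈ V₁.nonunits) (h₂ : y ^ q - h ∈ V₂.nonunits)
    (𝔫 : Ideal ↥(s18tInt A h)) [h𝔫 : 𝔫.IsPrime]
    (hh : (⟨h, ssgn_self_mem_int h⟩ : ↥(s18tInt A h)) ∈ 𝔫) :
    ¬ (SqtOn V₁ h 𝔫 ∧ SqtOn V₂ h 𝔫) := by
  have unit : ∀ V : ValuationSubring F, (∀ x ∈ s18tInt A h, x ∈ V) → h⁻¹ ∈ V →
      V.valuation h = 1 := by
    intro V hQ hi
    have a1 : V.valuation h ≤ 1 := (V.valuation_le_one_iff _).mpr (hQ h (ssgn_self_mem_int h))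
    have a2 : V.valuation h⁻¹ ≤ 1 := (V.valuation_le_one_iff _).mpr hi
    have a0 : V.valuation h ≠ 0 := (Valuation.ne_zero_iff _).mpr h0
    rw [map_inv₀, inv_le_one₀ (zero_lt_iff.mpr a0)] at a2
    exact le_antisymm a1 a2
  have u₁ := unit V₁ hQ₁ hi₁
  have u₂ := unit V₂ hQ₂ hi₂
  refine sqgch_no_cross_gen h h y⁻¹ q hq h0 V₁ V₂ hQ₁ hQ₂ (ssgn_self_mem_int h) hf ?_ ?_ 𝔫 hh
  · rw [inv_pow]
    exact sqcch2_inv_sub_mem V₁ (by rw [map_pow, u₁, one_pow]) h₁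
  · rw [inv_pow]
    exact sqcch2_inv_sub_mem V₂ u₂ h₂

end NoCross

/-! ### modular, level-generic -/

section Mod

variable (A : ValuationSubring Qb) (E : IntermediateField ℚ Qb) (N q : ℕ) [NeZero N] [NeZero q]
variable {Φ : (↥(s18dVal A E))[X][X]}

/-- `h_a^q · h_a(𝐪^q)⁻¹ ∈ s18tInt A h_a` in `F_E(N q)`. -/
theorem sqcch2_sep_mem_mod (a : ℕ) [NeZero a] (ha : a = 2 ∨ a = 3) (haN : a ∣ N)
    (hq2 : 2 ≤ q) (haq : a ≠ q) (hu : IsUnit ((a : ℕ) : ↥(s18dVal A E)))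
    (MP : SsgnModPoly ↥(s18dVal A E) (LaurentSeries E) (jqModC E) (qExpand E q (jqModC E)) q Φ) :
    (ssgH E (N * q) a ha (haN.mul_right q)) ^ q * (ssvmfPhi E N q (ssgH E N a ha haN))⁻¹ ∈
      s18tInt ↥(s18dVal A E) (ssgH E (N * q) a ha (haN.mul_right q)) := by
  have ha2 : 2 ≤ a := by rcases ha with rfl | rfl <;> norm_num
  rw [ssgnp_phi_eq]
  rcases ha with rfl | rfl
  · obtain ⟨HF, HqF, MP1, MP2⟩ := sqcch_haupt_data A E N q 2 (Or.inl rfl) haN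
      (ssgn_haupt_two A E hu) MP
    exact sqcch2_sep_mem HF HqF ha2 hq2 haq MP1 MP2
  · obtain ⟨HF, HqF, MP1, MP2⟩ := sqcch_haupt_data A E N q 3 (Or.inr rfl) haN
      (ssgn_haupt_three A E hu) MP
    exact sqcch2_sep_mem HF HqF ha2 hq2 haq MP1 MP2

/-- a point of the chart `h_a` of `F_E(N q)` not over `h_a = 0` : `j` and `φ j` lie in the local
ring. -/
theorem sqcch2_inLoc_mod (a : ℕ) [NeZero a] (ha : a = 2 ∨ a = 3) (haN : a ∣ N)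
    (hq2 : 2 ≤ q) (haq : a ≠ q) (hu : IsUnit ((a : ℕ) : ↥(s18dVal A E)))
    (MP : SsgnModPoly ↥(s18dVal A E) (LaurentSeries E) (jqModC E) (qExpand E q (jqModC E)) q Φ)
    (𝔫 : Ideal ↥(s18tInt ↥(s18dVal A E) (ssgH E (N * q) a ha (haN.mul_right q))))
    [h𝔫 : 𝔫.IsPrime]
    (hnc : (⟨ssgH E (N * q) a ha (haN.mul_right q), ssgn_self_mem_int _⟩ :
      ↥(s18tInt ↥(s18dVal A E) (ssgH E (N * q) a ha (haN.mul_right q)))) ∉ 𝔫) :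
    SsnfInLoc (ssgH E (N * q) a ha (haN.mul_right q)) 𝔫 (ssdJ E (N * q)) ∧
      SsnfInLoc (ssgH E (N * q) a ha (haN.mul_right q)) 𝔫 (ssvmfPhi E N q (ssdJ E N)) := by
  have ha2 : 2 ≤ a := by rcases ha with rfl | rfl <;> norm_num
  have key : ∀ {R₁ R₂ : (↥(s18dVal A E))[X]}
      (H : SsgnHaupt ↥(s18dVal A E) (LaurentSeries E) a R₁ R₂ (jqModC E) (jqNModC E a)
        (s18hq a (s18hExp a) E)),
      SsnfInLoc (ssgH E (N * q) a ha (haN.mul_right q)) 𝔫 (ssdJ E (N * q)) ∧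
        SsnfInLoc (ssgH E (N * q) a ha (haN.mul_right q)) 𝔫 (ssgnPhi E N q (ssdJ E N)) := by
    intro R₁ R₂ H
    obtain ⟨HF, HqF, MP1, MP2⟩ := sqcch_haupt_data A E N q a ha haN H MP
    refine ⟨sqcch2_inLoc_of_not_mem HF 𝔫 hnc, ?_⟩
    -- `φ h ∈ P ∖ 𝔫`
    have hmem : ssgnPhi E N q (ssgH E N a ha haN) ∈
        s18tInt ↥(s18dVal A E) (ssgH E (N * q) a ha (haN.mul_right q)) :=
      ssgn_hq_mem_int HF HqF ha2 hq2 haq MP1 MP2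
    have hnot : (⟨ssgnPhi E N q (ssgH E N a ha haN), hmem⟩ :
        ↥(s18tInt ↥(s18dVal A E) (ssgH E (N * q) a ha (haN.mul_right q)))) ∉ 𝔫 := fun hc =>
      hnc (sqcch2_cusp_mem_conv HF HqF ha2 hq2 haq MP1 MP2 𝔫 hmem hc)
    refine ⟨(⟨ssgnPhi E N q (ssgH E N a ha haN), hmem⟩ :
        ↥(s18tInt ↥(s18dVal A E) (ssgH E (N * q) a ha (haN.mul_right q)))) ^ a,
      fun hc => hnot (h𝔫.mem_of_pow_mem a hc), ?_⟩
    have e : (((⟨ssgnPhi E N q (ssgH E N a ha haN), hmem⟩ :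
        ↥(s18tInt ↥(s18dVal A E) (ssgH E (N * q) a ha (haN.mul_right q)))) ^ a :
        ↥(s18tInt ↥(s18dVal A E) (ssgH E (N * q) a ha (haN.mul_right q)))) :
        modularFunctionFieldFullC E (N * q)) * ssgnPhi E N q (ssdJ E N) =
        aeval (ssgnPhi E N q (ssgH E N a ha haN)) R₁ := by
      push_cast
      exact (mul_comm _ _).trans HqF.id₁
    rw [e, aeval_eq_sum_range]
    refine Subring.sum_mem _ fun i _ => ?_
    rw [Algebra.smul_def]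
    exact Subring.mul_mem _ (ssgn_algebraMap_mem_int _ _) (Subring.pow_mem _ hmem i)
  rw [ssgnp_phi_eq]
  rcases ha with rfl | rfl
  · exact key (ssgn_haupt_two A E hu)
  · exact key (ssgn_haupt_three A E hu)

end Mod

/-! ### the level `M q`, `W_i = h.V_i` -/

section Tower

variable {q : ℕ} [Fact q.Prime] [NeZero q] (A : ValuationSubring Qb) (E : IntermediateField ℚ Qb)
  [FiniteDimensional ℚ E] [IsDiscreteValuationRing ↥(s18dVal A E)] [CharZero ↥(s18dVal A E)]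
  (M : ℕ) [NeZero M]

/-- the chart ring of `h_a` and `h_a⁻¹` lie in the two valuation rings of (VAL). -/
theorem sqcch2_chart_le {ϖ : ↥(s18dVal A E)} (hϖ : Irreducible ϖ)
    {N : ℕ} [NeZero N] (a : ℕ) [NeZero a] (ha : a = 2 ∨ a = 3) (haN : a ∣ N)
    {u₁ u₂ : modularFunctionFieldFullC E N} {W₁ W₂ : ValuationSubring (modularFunctionFieldFullC E N)}
    (hTwo : SsvTwo hϖ (ssgH E N a ha haN) u₁ u₂ W₁ W₂) :
    (∀ x ∈ s18tInt ↥(s18dVal A E) (ssgH E N a ha haN), x ∈ W₁ ∧ x ∈ W₂) ∧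
      ((ssgH E N a ha haN)⁻¹ ∈ W₁ ∧ (ssgH E N a ha haN)⁻¹ ∈ W₂) := by
  refine ⟨fun x hx => (hTwo.mem_iff x).mp (ssga_int_le_intLoc hϖ _ hx), ?_⟩
  have ht := ssg_transcendental_h E N a ha haN
  have h1 : (ssgH E N a ha haN)⁻¹ ∈
      s18tIntLoc ↥(s18dVal A E) (ssgH E N a ha haN)⁻¹ (C ϖ) (s18t_prime_C hϖ) :=
    ssga_int_le_intLoc hϖ _ (ssgn_self_mem_int _)
  have e : s18tIntLoc ↥(s18dVal A E) (ssgH E N a ha haN)⁻¹ (C ϖ) (s18t_prime_C hϖ) =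
      s18tIntLoc ↥(s18dVal A E) (ssgH E N a ha haN) (C ϖ) (s18t_prime_C hϖ) := by
    unfold s18tIntLoc
    rw [s18t_loc_inv (L := E) hϖ _ ht]
  rw [e] at h1
  exact (hTwo.mem_iff _).mp h1

set_option maxHeartbeats 1000000 in
/-- **NO NODE OVER THE CUSP `h_a = 0`** : a prime of the chart `α₁ h_a` of level `M q` containing
`α₁ h_a` does not lie on both `h.V₁` and `h.V₂`. -/
theorem sqcch2_hnc_amb (hA : A.LiesOverPrime q) (hqM : ¬ q ∣ M) {ϖ : ↥(s18dVal A E)}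
    (hϖ : Irreducible ϖ) {Ξ G : (↥(ssvmmR A E M q))[X]}
    (h : SsvAmb (ssvmmR A E M q) (ssvmgRUnif (ssvmm_le E M q) ϖ) (ssvmmY E M q) Ξ
      (X - C (ssvmmJ A E M q ^ q)) (X ^ q - C (ssvmmJ A E M q)) G)
    (a : ℕ) [NeZero a] (ha : a = 2 ∨ a = 3) (haM : a ∣ M) (haq : a ≠ q)
    (𝔫₁ : Ideal ↥(s18tInt ↥(s18dVal A E) (ssvmdIncl E M q (ssgH E M a ha haM))))
    [h𝔫₁ : 𝔫₁.IsPrime]
    (hh : (⟨ssvmdIncl E M q (ssgH E M a ha haM), ssgn_self_mem_int _⟩ :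
      ↥(s18tInt ↥(s18dVal A E) (ssvmdIncl E M q (ssgH E M a ha haM)))) ∈ 𝔫₁) :
    ¬ (SqgaOn (ssvmdIncl E M q (ssgH E M a ha haM)) 𝔫₁ h.V₁ ∧
      SqgaOn (ssvmdIncl E M q (ssgH E M a ha haM)) 𝔫₁ h.V₂) := by
  obtain ⟨Φ, MP⟩ := ssgcl_modPoly_over q A hA E
  have hqp : q.Prime := Fact.out
  have hq2 : 2 ≤ q := hqp.two_le
  have hndvd : ¬ q ∣ a := by
    intro hdvd
    have hap : a.Prime := by rcases ha with rfl | rfl <;> norm_num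
    exact haq ((Nat.prime_dvd_prime_iff_eq hqp hap).mp hdvd).symm
  have hun : IsUnit ((a : ℕ) : ↥(s18dVal A E)) := s18r_isUnit_natCast A E hA a hndvd
  obtain ⟨hc₁, hc₂⟩ := sqgch_cong_h A E M hA hqM hϖ Ξ G h a ha haM
  have hTwo := sqcau_two_h A E M a ha haM hA hqM hϖ h
  have e₁ : ssvmdIncl E M q (ssgH E M a ha haM) = ssgH E (M * q) a ha (haM.mul_right q) :=
    sqcch_incl_h E M q a ha haM
  have key : ∀ (t₁ : modularFunctionFieldFullC E (M * q))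
      (e : t₁ = ssgH E (M * q) a ha (haM.mul_right q))
      (hc₁ : ssvmfPhi E M q (ssgH E M a ha haM) - t₁ ^ q ∈ h.V₁.nonunits)
      (hc₂ : ssvmfPhi E M q (ssgH E M a ha haM) ^ q - t₁ ∈ h.V₂.nonunits)
      (𝔫₁ : Ideal ↥(s18tInt ↥(s18dVal A E) t₁)) [h𝔫₁ : 𝔫₁.IsPrime]
      (hh : (⟨t₁, ssgn_self_mem_int _⟩ : ↥(s18tInt ↥(s18dVal A E) t₁)) ∈ 𝔫₁),
      ¬ (SqgaOn t₁ 𝔫₁ h.V₁ ∧ SqgaOn t₁ 𝔫₁ h.V₂) := by
    rintro t₁ rfl hc₁ hc₂ 𝔫₁ h𝔫₁ hh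
    obtain ⟨hQ, hi₁, hi₂⟩ := sqcch2_chart_le A E hϖ a ha (haM.mul_right q) hTwo
    have h0 : ssgH E (M * q) a ha (haM.mul_right q) ≠ 0 := by
      intro h0
      have ht := ssg_transcendental_h E (M * q) a ha (haM.mul_right q)
      rw [h0] at ht
      exact ht (isAlgebraic_zero)
    exact sqcch2_not_cross _ (ssvmfPhi E M q (ssgH E M a ha haM)) q hq2 h0 h.V₁ h.V₂
      (fun x hx => (hQ x hx).1) (fun x hx => (hQ x hx).2) hi₁ hi₂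
      (sqcch2_sep_mem_mod A E M q a ha haM hq2 haq hun MP) hc₁ hc₂ 𝔫₁ hh
  exact key _ e₁ hc₁ hc₂ 𝔫₁ hh

set_option maxHeartbeats 1000000 in
/-- **A POINT OF LEVEL `M q` ON BOTH `h.V₁` AND `h.V₂` IS NOT A CUSP** (chart `α₁ h_a`) : `j` and
`φ₁ j` lie in the local ring. -/
theorem sqcch2_nc_node (hA : A.LiesOverPrime q) (hqM : ¬ q ∣ M) {ϖ : ↥(s18dVal A E)}
    (hϖ : Irreducible ϖ) {Ξ G : (↥(ssvmmR A E M q))[X]}
    (h : SsvAmb (ssvmmR A E M q) (ssvmgRUnif (ssvmm_le E M q) ϖ) (ssvmmY E M q) Ξ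
      (X - C (ssvmmJ A E M q ^ q)) (X ^ q - C (ssvmmJ A E M q)) G)
    (a : ℕ) [NeZero a] (ha : a = 2 ∨ a = 3) (haM : a ∣ M) (haq : a ≠ q)
    (𝔫₁ : Ideal ↥(s18tInt ↥(s18dVal A E) (ssvmdIncl E M q (ssgH E M a ha haM))))
    [h𝔫₁ : 𝔫₁.IsPrime]
    (ho₁ : SqgaOn (ssvmdIncl E M q (ssgH E M a ha haM)) 𝔫₁ h.V₁)
    (ho₂ : SqgaOn (ssvmdIncl E M q (ssgH E M a ha haM)) 𝔫₁ h.V₂) :
    SsnfInLoc (ssvmdIncl E M q (ssgH E M a ha haM)) 𝔫₁ (ssdJ E (M * q)) ∧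
      SsnfInLoc (ssvmdIncl E M q (ssgH E M a ha haM)) 𝔫₁ (ssvmfPhi E M q (ssdJ E M)) := by
  obtain ⟨Φ, MP⟩ := ssgcl_modPoly_over q A hA E
  have hqp : q.Prime := Fact.out
  have hq2 : 2 ≤ q := hqp.two_le
  have hndvd : ¬ q ∣ a := by
    intro hdvd
    have hap : a.Prime := by rcases ha with rfl | rfl <;> norm_num
    exact haq ((Nat.prime_dvd_prime_iff_eq hqp hap).mp hdvd).symm
  have hun : IsUnit ((a : ℕ) : ↥(s18dVal A E)) := s18r_isUnit_natCast A E hA a hndvd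
  have hnc := fun hh => sqcch2_hnc_amb A E M hA hqM hϖ h a ha haM haq 𝔫₁ hh ⟨ho₁, ho₂⟩
  have e₁ : ssvmdIncl E M q (ssgH E M a ha haM) = ssgH E (M * q) a ha (haM.mul_right q) :=
    sqcch_incl_h E M q a ha haM
  have key : ∀ (t₁ : modularFunctionFieldFullC E (M * q))
      (e : t₁ = ssgH E (M * q) a ha (haM.mul_right q))
      (𝔫₁ : Ideal ↥(s18tInt ↥(s18dVal A E) t₁)) [h𝔫₁ : 𝔫₁.IsPrime]
      (hnc : (⟨t₁, ssgn_self_mem_int _⟩ : ↥(s18tInt ↥(s18dVal A E) t₁)) ∉ 𝔫₁),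
      SsnfInLoc t₁ 𝔫₁ (ssdJ E (M * q)) ∧ SsnfInLoc t₁ 𝔫₁ (ssvmfPhi E M q (ssdJ E M)) := by
    rintro t₁ rfl 𝔫₁ h𝔫₁ hnc
    exact sqcch2_inLoc_mod A E M q a ha haM hq2 haq hun MP 𝔫₁ hnc
  exact key _ e₁ 𝔫₁ hnc

end Tower

end Fermat.Agent.SQ
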