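import Mathlib
import Fermat.Agent.SS.NF.Defs
import Fermat.Agent.SS.Geo.SmallCoord
import Fermat.Agent.S18.H.Ident
import Fermat.Agent.S18.RH.Main

/-!
# Program Q (S36), package SQ/Conc : the charts `h_a^{±1}` and `j⁻¹` at a cusp point
(concrete inputs of the two-way chart change, prefix `sqcxh_`)

For `a ∈ {2,3}` (`q = 5 - a`), `h = h_a` the Hauptmodul of `Γ₀(a)` in `F = F_E(N)`, `a ∣ N`,
`j⁻¹ = h²/(h+256)³` resp. `h³/((h+27)(h+243)³)`.  At a prime `𝔫 ∋ t` of the chart ring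
`P = s18tInt A t`, `t ∈ {h, h⁻¹}` (a cusp point), with `a` a unit of `A` :

* (H1) `j⁻¹ ∈ 𝔫 P_𝔫` (`SsnfInMax t 𝔫 j⁻¹`);
* (H2) `SqcxhData t 𝔫 j⁻¹` : there is `d ∈ P ∖ 𝔫` with `d⁻¹ ∈ P' = s18tInt A j⁻¹` and `d⁻¹ t ∈ P'`
  (`d = h + 256`, `1 + 256 h⁻¹`, `h + 243`, `1 + 243 h⁻¹`; `d⁻¹` is integral over `A[j⁻¹]` : it is,
  up to a unit of `A`, a root of a monic cubic / quartic with coefficients in `A[j⁻¹]`).
  Consequences : `SqcxhData.inLoc` (`t ∈ (P')_{𝔫'}` for EVERY ideal `𝔫' ⊆ 𝔫 P_𝔫` of `P'`, e.g. the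
  contraction of `𝔫 P_𝔫`) and `SqcxhData.exists_fg` (`t = g / f`, `f, g ∈ P'`, `f⁻¹ ∈ P_𝔫`).

Main exports : `sqcxh_cusp_pos` (chart `h_a`), `sqcxh_cusp_neg` (chart `h_a⁻¹`), any level `N`.
-/

set_option autoImplicit false
set_option linter.unusedSectionVars false
set_option linter.unusedVariables false
set_option linter.style.haveILetI false

noncomputable section

namespace Fermat.Agent.SQ

open Polynomial Fermat.Agent.S18 Fermat.Agent.SS ModularCurve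

/-! ### abstract part -/

section Abs

variable {A : Type*} [CommRing A] {F : Type*} [Field F] [Algebra A F]

/-- a root of `Xⁿ + ∑_{i<n} cᵢ Xⁱ`, `cᵢ ∈ A[s]`, lies in `s18tInt A s` -/
theorem sqcxh_mem_int_of_eq {s g : F} (n : ℕ) (c : Fin n → F)
    (hc : ∀ i, c i ∈ s18tChart A s)
    (h : g ^ n + ∑ i : Fin n, c i * g ^ (i : ℕ) = 0) : g ∈ s18tInt A s := by
  rw [mem_s18tInt]
  let c' : Fin n → ↥(s18tChart A s) := fun i => ⟨c i, hc i⟩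
  refine ⟨X ^ n + ∑ i : Fin n, C (c' i) * X ^ (i : ℕ),
    Polynomial.monic_X_pow_add (Polynomial.degree_sum_fin_lt c'), ?_⟩
  rw [← h]
  simp only [eval₂_add, eval₂_pow, eval₂_X, eval₂_finsetSum, eval₂_mul, eval₂_C]
  rfl

theorem sqcxh_chart_algebraMap (s : F) (a : A) : algebraMap A F a ∈ s18tChart A s :=
  Subalgebra.algebraMap_mem _ a

theorem sqcxh_chart_self (s : F) : s ∈ s18tChart A s :=
  Algebra.self_mem_adjoin_singleton A s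

theorem sqcxh_chart_le_int (t : F) {x : F} (hx : x ∈ s18tChart A t) : x ∈ s18tInt A t := by
  rw [mem_s18tInt]
  exact isIntegral_algebraMap (R := ↥(s18tChart A t)) (A := F) (x := ⟨x, hx⟩)

theorem sqcxh_algebraMap_mem_int (t : F) (a : A) : algebraMap A F a ∈ s18tInt A t :=
  sqcxh_chart_le_int t (sqcxh_chart_algebraMap t a)

theorem sqcxh_self_mem_int (t : F) : t ∈ s18tInt A t :=
  sqcxh_chart_le_int t (sqcxh_chart_self t)

/-- THE DATA of the reverse chart change : `d ∈ P ∖ 𝔫` with `d⁻¹ ∈ P'` and `d⁻¹ t ∈ P'`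
(`P = s18tInt A t`, `P' = s18tInt A s`). -/
def SqcxhData (t : F) (𝔫 : Ideal ↥(s18tInt A t)) (s : F) : Prop :=
  ∃ d : ↥(s18tInt A t), d ∉ 𝔫 ∧ (d : F)⁻¹ ∈ s18tInt A s ∧ (d : F)⁻¹ * t ∈ s18tInt A s

/-- the generic step : `d ∈ P ∖ 𝔫`, `d⁻¹ ∈ P'`, `d⁻¹ t ∈ P'` ⟹ `t ∈ (P')_{𝔫'}` for every ideal
`𝔫'` of `P'` contained in `𝔫 P_𝔫`. -/
theorem sqcxh_inLoc_of_unit {t s : F} (𝔫 : Ideal ↥(s18tInt A t))
    (d : ↥(s18tInt A t)) (hd : d ∉ 𝔫)
    (hf : (d : F)⁻¹ ∈ s18tInt A s) (hft : (d : F)⁻¹ * t ∈ s18tInt A s)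
    (𝔫' : Ideal ↥(s18tInt A s))
    (h𝔫' : ∀ x : ↥(s18tInt A s), x ∈ 𝔫' → SsnfInMax t 𝔫 (x : F)) :
    SsnfInLoc s 𝔫' t := by
  have hd0 : (d : F) ≠ 0 := fun h0 => hd (by
    have : d = 0 := Subtype.ext h0
    rw [this]; exact 𝔫.zero_mem)
  refine ⟨⟨(d : F)⁻¹, hf⟩, fun hmem => ?_, hft⟩
  obtain ⟨σ, hσ, p, hp, hσp⟩ := h𝔫' _ hmem
  apply hσ
  have h1 : σ = p * d := Subtype.ext (by
    push_cast
    rw [← hσp]
    change (σ : F) = (σ : F) * (d : F)⁻¹ * (d : F)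
    rw [mul_assoc, inv_mul_cancel₀ hd0, mul_one])
  rw [h1]
  exact Ideal.mul_mem_right _ _ hp

/-- `t ∈ (P')_{𝔫'}` for EVERY ideal `𝔫'` of `P'` contained in `𝔫 P_𝔫` -/
theorem SqcxhData.inLoc {t s : F} {𝔫 : Ideal ↥(s18tInt A t)} (H : SqcxhData t 𝔫 s)
    (𝔫' : Ideal ↥(s18tInt A s))
    (h𝔫' : ∀ x : ↥(s18tInt A s), x ∈ 𝔫' → SsnfInMax t 𝔫 (x : F)) : SsnfInLoc s 𝔫' t := by
  obtain ⟨d, hd, hf, hft⟩ := H
  exact sqcxh_inLoc_of_unit 𝔫 d hd hf hft 𝔫' h𝔫'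

/-- the same data as a fraction `t = g / f` with `f, g ∈ P'`, `f` a unit of `P_𝔫` -/
theorem SqcxhData.exists_fg {t s : F} {𝔫 : Ideal ↥(s18tInt A t)} (h𝔫 : 𝔫 ≠ ⊤)
    (H : SqcxhData t 𝔫 s) :
    ∃ f g : F, f ∈ s18tInt A s ∧ g ∈ s18tInt A s ∧ f ≠ 0 ∧ SsnfInLoc t 𝔫 f⁻¹ ∧ t = g * f⁻¹ := by
  obtain ⟨d, hd, hf, hft⟩ := H
  have hd0 : (d : F) ≠ 0 := fun h0 => hd (by
    have : d = 0 := Subtype.ext h0
    rw [this]; exact 𝔫.zero_mem)
  refine ⟨(d : F)⁻¹, (d : F)⁻¹ * t, hf, hft, inv_ne_zero hd0, ?_, ?_⟩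
  · refine ⟨1, fun h1 => h𝔫 ((Ideal.eq_top_iff_one _).mpr h1), ?_⟩
    rw [inv_inv, OneMemClass.coe_one, one_mul]
    exact d.2
  · rw [inv_inv, mul_comm ((d : F)⁻¹) t, mul_assoc, inv_mul_cancel₀ hd0, mul_one]

/-- the image of a unit of `A` lies outside every proper ideal of `P` -/
theorem sqcxh_unit_not_mem {t : F} (𝔫 : Ideal ↥(s18tInt A t)) (h𝔫 : 𝔫 ≠ ⊤) {c : A}
    (hc : IsUnit c) (x : ↥(s18tInt A t)) (hx : (x : F) = algebraMap A F c) : x ∉ 𝔫 := by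
  intro hmem
  obtain ⟨c', hc'⟩ := hc.exists_right_inv
  apply h𝔫
  rw [Ideal.eq_top_iff_one]
  have h1 : (1 : ↥(s18tInt A t)) =
      x * ⟨algebraMap A F c', sqcxh_algebraMap_mem_int t c'⟩ := Subtype.ext (by
    push_cast
    rw [hx, ← map_mul, hc', map_one])
  rw [h1]
  exact Ideal.mul_mem_right _ _ hmem

/-- the image of a natural number which is a unit of `A`, shifted by an element of `𝔫`, lies
outside `𝔫` -/
theorem sqcxh_add_not_mem {t : F} (𝔫 : Ideal ↥(s18tInt A t)) (h𝔫 : 𝔫 ≠ ⊤) {c : A}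
    (hc : IsUnit c) (x d : ↥(s18tInt A t)) (hx : x ∈ 𝔫)
    (hd : (d : F) = (x : F) + algebraMap A F c) : d ∉ 𝔫 := by
  intro hmem
  refine sqcxh_unit_not_mem 𝔫 h𝔫 hc (d - x) ?_ (Ideal.sub_mem _ hmem hx)
  push_cast
  rw [hd]; ring

/-! ### `a = 2` : `j h² = (h + 256)³` -/

section Two

variable {h j : F}

theorem sqcxh_two_jinv (hid : j * h ^ 2 = (h + 256) ^ 3) (hj0 : j ≠ 0) (hD : h + 256 ≠ 0) :
    j⁻¹ = h ^ 2 / (h + 256) ^ 3 := by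
  rw [eq_div_iff (pow_ne_zero 3 hD), ← hid, ← mul_assoc, inv_mul_cancel₀ hj0, one_mul]

/-- chart `h`, cusp points over `h = 0` -/
theorem sqcxh_two_pos (hid : j * h ^ 2 = (h + 256) ^ 3) (hj0 : j ≠ 0)
    (hu : IsUnit (2 : A)) (𝔫 : Ideal ↥(s18tInt A h)) [h𝔫 : 𝔫.IsPrime]
    (hh : (⟨h, sqcxh_self_mem_int h⟩ : ↥(s18tInt A h)) ∈ 𝔫) :
    SsnfInMax h 𝔫 j⁻¹ ∧ SqcxhData h 𝔫 j⁻¹ := by
  have h256 : (256 : F) = algebraMap A F 256 := (map_ofNat (algebraMap A F) 256).symm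
  have hu256 : IsUnit (256 : A) := by
    have : (256 : A) = 2 ^ 8 := by norm_num
    rw [this]; exact hu.pow 8
  obtain ⟨v, hv⟩ := hu256.exists_right_inv
  have hvF : (256 : F) * algebraMap A F v = 1 := by
    rw [h256, ← map_mul, hv, map_one]
  let d : ↥(s18tInt A h) := ⟨h + 256, Subring.add_mem _ (sqcxh_self_mem_int h)
    (by rw [h256]; exact sqcxh_algebraMap_mem_int h 256)⟩
  have hd : d ∉ 𝔫 := sqcxh_add_not_mem 𝔫 h𝔫.ne_top hu256 _ d hh (by rw [← h256])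
  have hD : h + 256 ≠ 0 := fun h0 => hd (by
    have : d = 0 := Subtype.ext h0
    rw [this]; exact 𝔫.zero_mem)
  have hjinv := sqcxh_two_jinv hid hj0 hD
  refine ⟨⟨d ^ 3, fun hm => hd (h𝔫.mem_of_pow_mem 3 hm), ⟨h, sqcxh_self_mem_int h⟩ ^ 2,
    Ideal.pow_mem_of_mem _ hh 2 (by norm_num), ?_⟩, ?_⟩
  · push_cast
    change (h + 256) ^ 3 * j⁻¹ = h ^ 2
    rw [hjinv, mul_div_cancel₀ _ (pow_ne_zero 3 hD)]
  · show SqcxhData _ 𝔫 j⁻¹
    -- `g = 256 / (h + 256)` is a root of `X³ - 2X² + X - 256 j⁻¹`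
    have hg : (256 : F) * (h + 256)⁻¹ ∈ s18tInt A j⁻¹ := by
      refine sqcxh_mem_int_of_eq 3 ![-(256 * j⁻¹), 1, -2] ?_ ?_
      · intro i
        fin_cases i
        · simp only [Fin.zero_eta, Matrix.cons_val_zero]
          rw [h256]
          exact Subalgebra.neg_mem _ (Subalgebra.mul_mem _ (sqcxh_chart_algebraMap _ _)
            (sqcxh_chart_self _))
        · simp only [Fin.mk_one, Matrix.cons_val_one, Matrix.cons_val_zero]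
          exact Subalgebra.one_mem _
        · simp only [Fin.reduceFinMk, Matrix.cons_val]
          have : (-2 : F) = algebraMap A F (-2) := by
            rw [map_neg, map_ofNat]
          rw [this]
          exact sqcxh_chart_algebraMap _ _
      · rw [Fin.sum_univ_three]
        simp only [Matrix.cons_val_zero, Matrix.cons_val_one, Matrix.cons_val, Fin.val_zero,
          Fin.val_one, Fin.val_two]
        rw [hjinv]
        field_simp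
        ring
    have hf : ((d : ↥(s18tInt A h)) : F)⁻¹ ∈ s18tInt A j⁻¹ := by
      have e : ((d : ↥(s18tInt A h)) : F)⁻¹ = algebraMap A F v * ((256 : F) * (h + 256)⁻¹) := by
        change (h + 256)⁻¹ = _
        rw [← mul_assoc, mul_comm (algebraMap A F v), hvF, one_mul]
      rw [e]
      exact Subring.mul_mem _ (sqcxh_algebraMap_mem_int _ v) hg
    refine ⟨d, hd, hf, ?_⟩
    have e : ((d : ↥(s18tInt A h)) : F)⁻¹ * h = 1 - (256 : F) * (h + 256)⁻¹ := by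
      change (h + 256)⁻¹ * h = _
      field_simp
      ring
    rw [e]
    exact Subring.sub_mem _ (Subring.one_mem _) hg

/-- chart `h⁻¹`, cusp points over `h = ∞` -/
theorem sqcxh_two_neg (hid : j * h ^ 2 = (h + 256) ^ 3) (hj0 : j ≠ 0) (hh0 : h ≠ 0)
    (hu : IsUnit (2 : A)) (𝔫 : Ideal ↥(s18tInt A h⁻¹)) [h𝔫 : 𝔫.IsPrime]
    (hh : (⟨h⁻¹, sqcxh_self_mem_int h⁻¹⟩ : ↥(s18tInt A h⁻¹)) ∈ 𝔫) :
    SsnfInMax h⁻¹ 𝔫 j⁻¹ ∧ SqcxhData h⁻¹ 𝔫 j⁻¹ := by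
  have h256 : (256 : F) = algebraMap A F 256 := (map_ofNat (algebraMap A F) 256).symm
  have hu256 : IsUnit (256 : A) := by
    have : (256 : A) = 2 ^ 8 := by norm_num
    rw [this]; exact hu.pow 8
  obtain ⟨v, hv⟩ := hu256.exists_right_inv
  have hvF : (256 : F) * algebraMap A F v = 1 := by
    rw [h256, ← map_mul, hv, map_one]
  let u : ↥(s18tInt A h⁻¹) := ⟨h⁻¹, sqcxh_self_mem_int h⁻¹⟩
  let c : ↥(s18tInt A h⁻¹) := ⟨256, by rw [h256]; exact sqcxh_algebraMap_mem_int _ 256⟩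
  let d : ↥(s18tInt A h⁻¹) := 1 + c * u
  have hdF : (d : F) = 1 + 256 * h⁻¹ := by
    change ((1 + c * u : ↥(s18tInt A h⁻¹)) : F) = _
    push_cast; rfl
  have hd : d ∉ 𝔫 := sqcxh_add_not_mem 𝔫 h𝔫.ne_top isUnit_one (c * u) d
    (Ideal.mul_mem_left _ _ hh) (by
      rw [hdF, map_one]; push_cast
      change _ = (256 : F) * h⁻¹ + 1
      ring)
  have hd0 : (1 : F) + 256 * h⁻¹ ≠ 0 := fun h0 => hd (by
    have : d = 0 := Subtype.ext (by rw [hdF, h0]; rfl)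
    rw [this]; exact 𝔫.zero_mem)
  have hD : h + 256 ≠ 0 := by
    have e : h + 256 = h * (1 + 256 * h⁻¹) := by field_simp
    rw [e]; exact mul_ne_zero hh0 hd0
  have hjinv : j⁻¹ = h⁻¹ / (1 + 256 * h⁻¹) ^ 3 := by
    rw [sqcxh_two_jinv hid hj0 hD, eq_div_iff (pow_ne_zero 3 hd0)]
    field_simp
  refine ⟨⟨d ^ 3, fun hm => hd (h𝔫.mem_of_pow_mem 3 hm), u, hh, ?_⟩, ?_⟩
  · push_cast
    rw [hdF, hjinv, mul_div_cancel₀ _ (pow_ne_zero 3 hd0)]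
  · show SqcxhData _ 𝔫 j⁻¹
    have hg : ((1 : F) + 256 * h⁻¹)⁻¹ ∈ s18tInt A j⁻¹ := by
      refine sqcxh_mem_int_of_eq 3 ![256 * j⁻¹, 0, -1] ?_ ?_
      · intro i
        fin_cases i
        · simp only [Fin.zero_eta, Matrix.cons_val_zero]
          rw [h256]
          exact Subalgebra.mul_mem _ (sqcxh_chart_algebraMap _ _) (sqcxh_chart_self _)
        · simp only [Fin.mk_one, Matrix.cons_val_one, Matrix.cons_val_zero]
          exact Subalgebra.zero_mem _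
        · simp only [Fin.reduceFinMk, Matrix.cons_val]
          exact Subalgebra.neg_mem _ (Subalgebra.one_mem _)
      · rw [Fin.sum_univ_three]
        simp only [Matrix.cons_val_zero, Matrix.cons_val_one, Matrix.cons_val, Fin.val_zero,
          Fin.val_one, Fin.val_two]
        rw [hjinv]
        field_simp
        ring
    have hf : ((d : ↥(s18tInt A h⁻¹)) : F)⁻¹ ∈ s18tInt A j⁻¹ := by rw [hdF]; exact hg
    refine ⟨d, hd, hf, ?_⟩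
    have e : ((d : ↥(s18tInt A h⁻¹)) : F)⁻¹ * h⁻¹ =
        algebraMap A F v * (1 - ((1 : F) + 256 * h⁻¹)⁻¹) := by
      rw [hdF]
      have h1 : ((1 : F) + 256 * h⁻¹)⁻¹ * h⁻¹ =
          (256 * algebraMap A F v) * (((1 : F) + 256 * h⁻¹)⁻¹ * h⁻¹) := by rw [hvF, one_mul]
      rw [h1]
      field_simp
      ring
    rw [e]
    exact Subring.mul_mem _ (sqcxh_algebraMap_mem_int _ v)
      (Subring.sub_mem _ (Subring.one_mem _) hg)

end Two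

/-! ### `a = 3` : `j h³ = (h + 27)(h + 243)³` -/

section Three

variable {h j : F}

theorem sqcxh_three_jinv (hid : j * h ^ 3 = (h + 27) * (h + 243) ^ 3) (hj0 : j ≠ 0)
    (hD₁ : h + 27 ≠ 0) (hD₂ : h + 243 ≠ 0) :
    j⁻¹ = h ^ 3 / ((h + 27) * (h + 243) ^ 3) := by
  rw [eq_div_iff (mul_ne_zero hD₁ (pow_ne_zero 3 hD₂)), ← hid, ← mul_assoc, inv_mul_cancel₀ hj0,
    one_mul]

theorem sqcxh_three_poly (h : F) (hD₁ : h + 27 ≠ 0) (hD₂ : h + 243 ≠ 0) :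
    ((243 : F) * (h + 243)⁻¹) ^ 4 +
      (243 * (h ^ 3 / ((h + 27) * (h + 243) ^ 3)) * ((243 : F) * (h + 243)⁻¹) ^ 0 +
        -(1 + 216 * (h ^ 3 / ((h + 27) * (h + 243) ^ 3))) * ((243 : F) * (h + 243)⁻¹) ^ 1 +
        3 * ((243 : F) * (h + 243)⁻¹) ^ 2 + -3 * ((243 : F) * (h + 243)⁻¹) ^ 3) = 0 := by
  field_simp
  ring

/-- chart `h`, cusp points over `h = 0` -/
theorem sqcxh_three_pos (hid : j * h ^ 3 = (h + 27) * (h + 243) ^ 3) (hj0 : j ≠ 0)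
    (hu : IsUnit (3 : A)) (𝔫 : Ideal ↥(s18tInt A h)) [h𝔫 : 𝔫.IsPrime]
    (hh : (⟨h, sqcxh_self_mem_int h⟩ : ↥(s18tInt A h)) ∈ 𝔫) :
    SsnfInMax h 𝔫 j⁻¹ ∧ SqcxhData h 𝔫 j⁻¹ := by
  have h27 : (27 : F) = algebraMap A F 27 := (map_ofNat (algebraMap A F) 27).symm
  have h243 : (243 : F) = algebraMap A F 243 := (map_ofNat (algebraMap A F) 243).symm
  have hu27 : IsUnit (27 : A) := by
    have : (27 : A) = 3 ^ 3 := by norm_num
    rw [this]; exact hu.pow 3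
  have hu243 : IsUnit (243 : A) := by
    have : (243 : A) = 3 ^ 5 := by norm_num
    rw [this]; exact hu.pow 5
  obtain ⟨v, hv⟩ := hu243.exists_right_inv
  have hvF : (243 : F) * algebraMap A F v = 1 := by
    rw [h243, ← map_mul, hv, map_one]
  let d₁ : ↥(s18tInt A h) := ⟨h + 27, Subring.add_mem _ (sqcxh_self_mem_int h)
    (by rw [h27]; exact sqcxh_algebraMap_mem_int h 27)⟩
  let d₂ : ↥(s18tInt A h) := ⟨h + 243, Subring.add_mem _ (sqcxh_self_mem_int h)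
    (by rw [h243]; exact sqcxh_algebraMap_mem_int h 243)⟩
  have hd₁ : d₁ ∉ 𝔫 := sqcxh_add_not_mem 𝔫 h𝔫.ne_top hu27 _ d₁ hh (by rw [← h27])
  have hd₂ : d₂ ∉ 𝔫 := sqcxh_add_not_mem 𝔫 h𝔫.ne_top hu243 _ d₂ hh (by rw [← h243])
  have hD₁ : h + 27 ≠ 0 := fun h0 => hd₁ (by
    have : d₁ = 0 := Subtype.ext h0
    rw [this]; exact 𝔫.zero_mem)
  have hD₂ : h + 243 ≠ 0 := fun h0 => hd₂ (by
    have : d₂ = 0 := Subtype.ext h0
    rw [this]; exact 𝔫.zero_mem)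
  have hjinv := sqcxh_three_jinv hid hj0 hD₁ hD₂
  refine ⟨⟨d₁ * d₂ ^ 3, fun hm => (h𝔫.mem_or_mem hm).elim hd₁
      (fun hm' => hd₂ (h𝔫.mem_of_pow_mem 3 hm')), ⟨h, sqcxh_self_mem_int h⟩ ^ 3,
    Ideal.pow_mem_of_mem _ hh 3 (by norm_num), ?_⟩, ?_⟩
  · push_cast
    change ((h + 27) * (h + 243) ^ 3) * j⁻¹ = h ^ 3
    rw [hjinv, mul_div_cancel₀ _ (mul_ne_zero hD₁ (pow_ne_zero 3 hD₂))]
  · show SqcxhData _ 𝔫 j⁻¹
    -- `g = 243 / (h + 243)` is a root of `X⁴ - 3X³ + 3X² - (1 + 216 j⁻¹) X + 243 j⁻¹`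
    have hg : (243 : F) * (h + 243)⁻¹ ∈ s18tInt A j⁻¹ := by
      refine sqcxh_mem_int_of_eq 4 ![243 * j⁻¹, -(1 + 216 * j⁻¹), 3, -3] ?_ ?_
      · intro i
        fin_cases i
        · simp only [Fin.zero_eta, Matrix.cons_val_zero]
          rw [h243]
          exact Subalgebra.mul_mem _ (sqcxh_chart_algebraMap _ _) (sqcxh_chart_self _)
        · simp only [Fin.mk_one, Matrix.cons_val_one, Matrix.cons_val_zero]
          have : (216 : F) = algebraMap A F 216 := (map_ofNat (algebraMap A F) 216).symm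
          rw [this]
          exact Subalgebra.neg_mem _ (Subalgebra.add_mem _ (Subalgebra.one_mem _)
            (Subalgebra.mul_mem _ (sqcxh_chart_algebraMap _ _) (sqcxh_chart_self _)))
        · simp only [Fin.reduceFinMk, Matrix.cons_val]
          have : (3 : F) = algebraMap A F 3 := (map_ofNat (algebraMap A F) 3).symm
          rw [this]
          exact sqcxh_chart_algebraMap _ _
        · simp only [Fin.reduceFinMk, Matrix.cons_val]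
          have : (-3 : F) = algebraMap A F (-3) := by rw [map_neg, map_ofNat]
          rw [this]
          exact sqcxh_chart_algebraMap _ _
      · rw [Fin.sum_univ_four]
        show ((243 : F) * (h + 243)⁻¹) ^ 4 + (243 * j⁻¹ * ((243 : F) * (h + 243)⁻¹) ^ 0 +
          -(1 + 216 * j⁻¹) * ((243 : F) * (h + 243)⁻¹) ^ 1 + 3 * ((243 : F) * (h + 243)⁻¹) ^ 2 +
          -3 * ((243 : F) * (h + 243)⁻¹) ^ 3) = 0
        rw [hjinv]
        exact sqcxh_three_poly h hD₁ hD₂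
    have hf : ((d₂ : ↥(s18tInt A h)) : F)⁻¹ ∈ s18tInt A j⁻¹ := by
      have e : ((d₂ : ↥(s18tInt A h)) : F)⁻¹ = algebraMap A F v * ((243 : F) * (h + 243)⁻¹) := by
        change (h + 243)⁻¹ = _
        rw [← mul_assoc, mul_comm (algebraMap A F v), hvF, one_mul]
      rw [e]
      exact Subring.mul_mem _ (sqcxh_algebraMap_mem_int _ v) hg
    refine ⟨d₂, hd₂, hf, ?_⟩
    have e : ((d₂ : ↥(s18tInt A h)) : F)⁻¹ * h = 1 - (243 : F) * (h + 243)⁻¹ := by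
      change (h + 243)⁻¹ * h = _
      field_simp
      ring
    rw [e]
    exact Subring.sub_mem _ (Subring.one_mem _) hg

theorem sqcxh_three_poly' (u : F) (hd₁ : (1 : F) + 27 * u ≠ 0) (hd₂ : (1 : F) + 243 * u ≠ 0) :
    (((1 : F) + 243 * u)⁻¹) ^ 4 +
      (27 * (u / ((1 + 27 * u) * (1 + 243 * u) ^ 3)) * (((1 : F) + 243 * u)⁻¹) ^ 0 +
        216 * (u / ((1 + 27 * u) * (1 + 243 * u) ^ 3)) * (((1 : F) + 243 * u)⁻¹) ^ 1 +
        0 * (((1 : F) + 243 * u)⁻¹) ^ 2 + -1 * (((1 : F) + 243 * u)⁻¹) ^ 3) = 0 := by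
  have hd₁' : (1 : F) + u * 27 ≠ 0 := by rwa [mul_comm] at hd₁
  have hd₂' : (1 : F) + u * 243 ≠ 0 := by rwa [mul_comm] at hd₂
  field_simp
  ring

/-- chart `h⁻¹`, cusp points over `h = ∞` -/
theorem sqcxh_three_neg (hid : j * h ^ 3 = (h + 27) * (h + 243) ^ 3) (hj0 : j ≠ 0) (hh0 : h ≠ 0)
    (hu : IsUnit (3 : A)) (𝔫 : Ideal ↥(s18tInt A h⁻¹)) [h𝔫 : 𝔫.IsPrime]
    (hh : (⟨h⁻¹, sqcxh_self_mem_int h⁻¹⟩ : ↥(s18tInt A h⁻¹)) ∈ 𝔫) :
    SsnfInMax h⁻¹ 𝔫 j⁻¹ ∧ SqcxhData h⁻¹ 𝔫 j⁻¹ := by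
  have h27 : (27 : F) = algebraMap A F 27 := (map_ofNat (algebraMap A F) 27).symm
  have h243 : (243 : F) = algebraMap A F 243 := (map_ofNat (algebraMap A F) 243).symm
  have h216 : (216 : F) = algebraMap A F 216 := (map_ofNat (algebraMap A F) 216).symm
  have hu243 : IsUnit (243 : A) := by
    have : (243 : A) = 3 ^ 5 := by norm_num
    rw [this]; exact hu.pow 5
  obtain ⟨v, hv⟩ := hu243.exists_right_inv
  have hvF : (243 : F) * algebraMap A F v = 1 := by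
    rw [h243, ← map_mul, hv, map_one]
  let u : ↥(s18tInt A h⁻¹) := ⟨h⁻¹, sqcxh_self_mem_int h⁻¹⟩
  let c₁ : ↥(s18tInt A h⁻¹) := ⟨27, by rw [h27]; exact sqcxh_algebraMap_mem_int _ 27⟩
  let c₂ : ↥(s18tInt A h⁻¹) := ⟨243, by rw [h243]; exact sqcxh_algebraMap_mem_int _ 243⟩
  let d₁ : ↥(s18tInt A h⁻¹) := 1 + c₁ * u
  let d₂ : ↥(s18tInt A h⁻¹) := 1 + c₂ * u
  have hd₁F : (d₁ : F) = 1 + 27 * h⁻¹ := by
    change ((1 + c₁ * u : ↥(s18tInt A h⁻¹)) : F) = _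
    push_cast; rfl
  have hd₂F : (d₂ : F) = 1 + 243 * h⁻¹ := by
    change ((1 + c₂ * u : ↥(s18tInt A h⁻¹)) : F) = _
    push_cast; rfl
  have hd₁ : d₁ ∉ 𝔫 := sqcxh_add_not_mem 𝔫 h𝔫.ne_top isUnit_one (c₁ * u) d₁
    (Ideal.mul_mem_left _ _ hh) (by
      rw [hd₁F, map_one]; push_cast
      change _ = (27 : F) * h⁻¹ + 1
      ring)
  have hd₂ : d₂ ∉ 𝔫 := sqcxh_add_not_mem 𝔫 h𝔫.ne_top isUnit_one (c₂ * u) d₂
    (Ideal.mul_mem_left _ _ hh) (by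
      rw [hd₂F, map_one]; push_cast
      change _ = (243 : F) * h⁻¹ + 1
      ring)
  have hd₁0 : (1 : F) + 27 * h⁻¹ ≠ 0 := fun h0 => hd₁ (by
    have : d₁ = 0 := Subtype.ext (by rw [hd₁F, h0]; rfl)
    rw [this]; exact 𝔫.zero_mem)
  have hd₂0 : (1 : F) + 243 * h⁻¹ ≠ 0 := fun h0 => hd₂ (by
    have : d₂ = 0 := Subtype.ext (by rw [hd₂F, h0]; rfl)
    rw [this]; exact 𝔫.zero_mem)
  have hD₁ : h + 27 ≠ 0 := by
    have e : h + 27 = h * (1 + 27 * h⁻¹) := by field_simp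
    rw [e]; exact mul_ne_zero hh0 hd₁0
  have hD₂ : h + 243 ≠ 0 := by
    have e : h + 243 = h * (1 + 243 * h⁻¹) := by field_simp
    rw [e]; exact mul_ne_zero hh0 hd₂0
  have hjinv : j⁻¹ = h⁻¹ / ((1 + 27 * h⁻¹) * (1 + 243 * h⁻¹) ^ 3) := by
    rw [sqcxh_three_jinv hid hj0 hD₁ hD₂,
      eq_div_iff (mul_ne_zero hd₁0 (pow_ne_zero 3 hd₂0))]
    field_simp
  refine ⟨⟨d₁ * d₂ ^ 3, fun hm => (h𝔫.mem_or_mem hm).elim hd₁
      (fun hm' => hd₂ (h𝔫.mem_of_pow_mem 3 hm')), u, hh, ?_⟩, ?_⟩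
  · push_cast
    rw [hd₁F, hd₂F, hjinv, mul_div_cancel₀ _ (mul_ne_zero hd₁0 (pow_ne_zero 3 hd₂0))]
  · show SqcxhData _ 𝔫 j⁻¹
    have hg : ((1 : F) + 243 * h⁻¹)⁻¹ ∈ s18tInt A j⁻¹ := by
      refine sqcxh_mem_int_of_eq 4 ![27 * j⁻¹, 216 * j⁻¹, 0, -1] ?_ ?_
      · intro i
        fin_cases i
        · simp only [Fin.zero_eta, Matrix.cons_val_zero]
          rw [h27]
          exact Subalgebra.mul_mem _ (sqcxh_chart_algebraMap _ _) (sqcxh_chart_self _)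
        · simp only [Fin.mk_one, Matrix.cons_val_one, Matrix.cons_val_zero]
          rw [h216]
          exact Subalgebra.mul_mem _ (sqcxh_chart_algebraMap _ _) (sqcxh_chart_self _)
        · simp only [Fin.reduceFinMk, Matrix.cons_val]
          exact Subalgebra.zero_mem _
        · simp only [Fin.reduceFinMk, Matrix.cons_val]
          exact Subalgebra.neg_mem _ (Subalgebra.one_mem _)
      · rw [Fin.sum_univ_four]
        show (((1 : F) + 243 * h⁻¹)⁻¹) ^ 4 + (27 * j⁻¹ * (((1 : F) + 243 * h⁻¹)⁻¹) ^ 0 +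
          216 * j⁻¹ * (((1 : F) + 243 * h⁻¹)⁻¹) ^ 1 + 0 * (((1 : F) + 243 * h⁻¹)⁻¹) ^ 2 +
          -1 * (((1 : F) + 243 * h⁻¹)⁻¹) ^ 3) = 0
        rw [hjinv]
        exact sqcxh_three_poly' h⁻¹ hd₁0 hd₂0
    have hf : ((d₂ : ↥(s18tInt A h⁻¹)) : F)⁻¹ ∈ s18tInt A j⁻¹ := by rw [hd₂F]; exact hg
    refine ⟨d₂, hd₂, hf, ?_⟩
    have e : ((d₂ : ↥(s18tInt A h⁻¹)) : F)⁻¹ * h⁻¹ =
        algebraMap A F v * (1 - ((1 : F) + 243 * h⁻¹)⁻¹) := by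
      rw [hd₂F]
      have h1 : ((1 : F) + 243 * h⁻¹)⁻¹ * h⁻¹ =
          (243 * algebraMap A F v) * (((1 : F) + 243 * h⁻¹)⁻¹ * h⁻¹) := by rw [hvF, one_mul]
      rw [h1]
      field_simp
      ring
    rw [e]
    exact Subring.mul_mem _ (sqcxh_algebraMap_mem_int _ v)
      (Subring.sub_mem _ (Subring.one_mem _) hg)

end Three

theorem sqcxh_inLoc_of_inMax {t : F} {𝔫 : Ideal ↥(s18tInt A t)} {x : F}
    (h : SsnfInMax t 𝔫 x) : SsnfInLoc t 𝔫 x := by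
  obtain ⟨σ, hσ, p, -, hp⟩ := h
  exact ⟨σ, hσ, by rw [hp]; exact p.2⟩

end Abs

/-! ### concrete part : `F = F_E(N)`, `h = h_a`, `j` -/

section Conc

variable (𝔸 : ValuationSubring (AlgebraicClosure ℚ))
  (E : IntermediateField ℚ (AlgebraicClosure ℚ)) (N : ℕ) [NeZero N]

theorem sqcxh_ident_two (haN : 2 ∣ N) :
    ssdJ E N * ssgH E N 2 (Or.inl rfl) haN ^ 2 = (ssgH E N 2 (Or.inl rfl) haN + 256) ^ 3 := by
  have h1 := congrArg (coeffMap (Int.castRingHom E)) s18h_identity_two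
  rw [map_mul, map_pow, map_pow, map_add, coeffMap_jqModC, s18hk_coeffMap_hq, map_ofNat] at h1
  exact Subtype.ext (by push_cast; exact h1)

theorem sqcxh_ident_three (haN : 3 ∣ N) :
    ssdJ E N * ssgH E N 3 (Or.inr rfl) haN ^ 3 =
      (ssgH E N 3 (Or.inr rfl) haN + 27) * (ssgH E N 3 (Or.inr rfl) haN + 243) ^ 3 := by
  have h1 := congrArg (coeffMap (Int.castRingHom E)) s18h_identity_three
  rw [map_mul, map_pow, map_mul, map_pow, map_add, map_add, coeffMap_jqModC, s18hk_coeffMap_hq,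
    map_ofNat, map_ofNat] at h1
  exact Subtype.ext (by push_cast; exact h1)

theorem sqcxh_j_ne_zero : ssdJ E N ≠ 0 := fun h0 =>
  ssd_transcendental_j E N (by rw [h0]; exact isAlgebraic_zero)

theorem sqcxh_h_ne_zero (a : ℕ) [NeZero a] (ha : a = 2 ∨ a = 3) (haN : a ∣ N) :
    ssgH E N a ha haN ≠ 0 := fun h0 =>
  ssg_transcendental_h E N a ha haN (by rw [h0]; exact isAlgebraic_zero)

variable (a : ℕ) [NeZero a] (ha : a = 2 ∨ a = 3) (haN : a ∣ N)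

/-- **(H1)+(H2), chart `h_a`** : at a prime `𝔫 ∋ h_a` of `s18tInt A h_a` (a cusp point over
`h_a = 0`), `j⁻¹ ∈ 𝔫 P_𝔫`, and the data of the reverse chart change (`d = h_a + 256` resp. `h_a + 243`). -/
theorem sqcxh_cusp_pos {q : ℕ} [Fact q.Prime] (hA : 𝔸.LiesOverPrime q)
    (hqa : (q = 2 ∧ a = 3) ∨ (q = 3 ∧ a = 2))
    (𝔫 : Ideal ↥(s18tInt ↥(s18dVal 𝔸 E) (ssgH E N a ha haN))) [h𝔫 : 𝔫.IsPrime]
    (hh : (⟨ssgH E N a ha haN, sqcxh_self_mem_int _⟩ :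
      ↥(s18tInt ↥(s18dVal 𝔸 E) (ssgH E N a ha haN))) ∈ 𝔫) :
    SsnfInMax (ssgH E N a ha haN) 𝔫 (ssdJ E N)⁻¹ ∧ SqcxhData (ssgH E N a ha haN) 𝔫 (ssdJ E N)⁻¹ := by
  rcases hqa with ⟨rfl, rfl⟩ | ⟨rfl, rfl⟩
  · have hu : IsUnit (3 : ↥(s18dVal 𝔸 E)) := by
      have := s18r_isUnit_natCast 𝔸 E hA 3 (by norm_num)
      simpa using this
    exact sqcxh_three_pos (sqcxh_ident_three E N haN) (sqcxh_j_ne_zero E N) hu 𝔫 hh
  · have hu : IsUnit (2 : ↥(s18dVal 𝔸 E)) := by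
      have := s18r_isUnit_natCast 𝔸 E hA 2 (by norm_num)
      simpa using this
    exact sqcxh_two_pos (sqcxh_ident_two E N haN) (sqcxh_j_ne_zero E N) hu 𝔫 hh

/-- **(H1)+(H2), chart `h_a⁻¹`** : at a prime `𝔫 ∋ h_a⁻¹` of `s18tInt A h_a⁻¹` (a cusp point over
`h_a = ∞`). -/
theorem sqcxh_cusp_neg {q : ℕ} [Fact q.Prime] (hA : 𝔸.LiesOverPrime q)
    (hqa : (q = 2 ∧ a = 3) ∨ (q = 3 ∧ a = 2))
    (𝔫 : Ideal ↥(s18tInt ↥(s18dVal 𝔸 E) (ssgH E N a ha haN)⁻¹)) [h𝔫 : 𝔫.IsPrime]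
    (hh : (⟨(ssgH E N a ha haN)⁻¹, sqcxh_self_mem_int _⟩ :
      ↥(s18tInt ↥(s18dVal 𝔸 E) (ssgH E N a ha haN)⁻¹)) ∈ 𝔫) :
    SsnfInMax (ssgH E N a ha haN)⁻¹ 𝔫 (ssdJ E N)⁻¹ ∧ SqcxhData (ssgH E N a ha haN)⁻¹ 𝔫 (ssdJ E N)⁻¹ := by
  rcases hqa with ⟨rfl, rfl⟩ | ⟨rfl, rfl⟩
  · have hu : IsUnit (3 : ↥(s18dVal 𝔸 E)) := by
      have := s18r_isUnit_natCast 𝔸 E hA 3 (by norm_num)
      simpa using this
    exact sqcxh_three_neg (sqcxh_ident_three E N haN) (sqcxh_j_ne_zero E N)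
      (sqcxh_h_ne_zero E N 3 _ haN) hu 𝔫 hh
  · have hu : IsUnit (2 : ↥(s18dVal 𝔸 E)) := by
      have := s18r_isUnit_natCast 𝔸 E hA 2 (by norm_num)
      simpa using this
    exact sqcxh_two_neg (sqcxh_ident_two E N haN) (sqcxh_j_ne_zero E N)
      (sqcxh_h_ne_zero E N 2 _ haN) hu 𝔫 hh

end Conc

end Fermat.Agent.SQ
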