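import Mathlib
import Fermat.Agent.SS.Loc.Ring
import Fermat.Agent.SS.NF.Defs
import Fermat.Agent.SQ.Defs
import Fermat.Agent.SQ.ThreeLoc
import Fermat.Agent.SQ.NewGlue
import Fermat.Agent.SQ.Germ.CuspAbs
import Fermat.Agent.SQ.Germ.Unram

/-!
# Program Q (S36) : TWO-WAY CHANGE OF CHART at a closed point (prefix `sqcx`)

Setting of S18 package T : `A` a DVR, `F` a field, `s s' : F` two chart coordinates,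
`Q = s18tInt A s`, `Q' = s18tInt A s'` the two chart rings, `𝔫` a prime of `Q`.

* `sqcxPull 𝔫 hs'` : for `s' ∈ Q_𝔫`, the prime `𝔫'' = Q' ∩ 𝔫 Q_𝔫` of `Q'`;
* `SqcxSame s s' 𝔫 𝔫'` : the two chart points have THE SAME LOCAL RING (and maximal ideal) in `F`;
* `sqcx_same` : `SqcxSame s s' 𝔫 (sqcxPull 𝔫 hs')` as soon as `s = g / f` with `f, g ∈ Q'`, `f` a unit
  of `Q_𝔫` (the reverse inclusion);
* `sqcx_isMaximal` : `𝔫` maximal, `ϖ ∈ 𝔫` ⟹ `𝔫'` maximal (and `ϖ ∈ 𝔫'`);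
* intrinsic forms of `SqGermReg`, `SqtOn`, `SqngBranch` and the TRANSFER of `SqtOn`, `SqGermReg`,
  `SqngBranch`, `SqSimpleAt`, `SqTripleAt`, the `(T2)`-conclusion, `SsCentredAt` along `SqcxSame`.
-/

set_option autoImplicit false
set_option linter.unusedSectionVars false
set_option linter.unusedVariables false
set_option linter.style.haveILetI false

noncomputable section

namespace Fermat.Agent.SQ

open Polynomial IntermediateField AlgebraicCurve Fermat.Agent.S18 Fermat.Agent.SS IsLocalRing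

universe u

variable {A : Type*} [CommRing A] [IsDomain A] [IsDiscreteValuationRing A] [CharZero A]
variable {L : Type*} [Field L] [Algebra A L] [IsFractionRing A L]
variable {F : Type u} [Field F] [Algebra A F] [Algebra L F] [IsScalarTower A L F]
variable {ϖ : A}

/-! ### 0. one chart : elementary facts -/

section One

variable {t : F} {𝔫 : Ideal ↥(s18tInt A t)} [h𝔫 : 𝔫.IsPrime]

theorem sqcx_inLoc_iff {x : F} : SsnfInLoc t 𝔫 x ↔ x ∈ ssLocRing t 𝔫 := Iff.rfl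

theorem sqcx_inMax_iff {x : F} : SsnfInMax t 𝔫 x ↔ SsInMax t 𝔫 x := Iff.rfl

theorem sqcx_inLoc_of_int {x : F} (hx : x ∈ s18tInt A t) : SsnfInLoc t 𝔫 x :=
  ssl_int_le_locRing t 𝔫 hx

theorem sqcx_inLoc_of_inMax {x : F} (hx : SsnfInMax t 𝔫 x) : SsnfInLoc t 𝔫 x :=
  (sqcx_inMax_iff.mp hx).inLoc

/-- `p ∈ 𝔫 ↔ p ∈ 𝔫 Q_𝔫` for `p ∈ Q` -/
theorem sqcx_mem_iff (p : ↥(s18tInt A t)) : p ∈ 𝔫 ↔ SsnfInMax t 𝔫 (p : F) := by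
  constructor
  · exact fun hp => sqgcu_inMax_of_mem hp
  · rintro ⟨σ, hσ, p', hp', hσp⟩
    have e : σ * p = p' := Subtype.ext (by push_cast; exact hσp)
    have h1 : σ * p ∈ 𝔫 := by rw [e]; exact hp'
    exact (h𝔫.mem_or_mem h1).resolve_left hσ

theorem sqcx_inLoc_mul {x y : F} (hx : SsnfInLoc t 𝔫 x) (hy : SsnfInLoc t 𝔫 y) :
    SsnfInLoc t 𝔫 (x * y) := Subring.mul_mem (ssLocRing t 𝔫) hx hy

theorem sqcx_inLoc_add {x y : F} (hx : SsnfInLoc t 𝔫 x) (hy : SsnfInLoc t 𝔫 y) :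
    SsnfInLoc t 𝔫 (x + y) := Subring.add_mem (ssLocRing t 𝔫) hx hy

theorem sqcx_inLoc_inv {σ : ↥(s18tInt A t)} (hσ : σ ∉ 𝔫) : SsnfInLoc t 𝔫 (σ : F)⁻¹ :=
  sqgcu_inv_mem_loc hσ

theorem sqcx_ne_zero_of_not_mem {σ : ↥(s18tInt A t)} (hσ : σ ∉ 𝔫) : (σ : F) ≠ 0 := fun h =>
  hσ (by
    have : σ = 0 := Subtype.ext h
    rw [this]; exact 𝔫.zero_mem)

theorem sqcx_inMax_mul {x y : F} (hx : SsnfInLoc t 𝔫 x) (hy : SsnfInMax t 𝔫 y) :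
    SsnfInMax t 𝔫 (x * y) := sqgcu_inMax_mul hx hy

theorem sqcx_inMax_add {x y : F} (hx : SsnfInMax t 𝔫 x) (hy : SsnfInMax t 𝔫 y) :
    SsnfInMax t 𝔫 (x + y) := sqgcu_inMax_add hx hy

/-- an element of `Q_𝔫` outside `𝔫 Q_𝔫` is a unit of `Q_𝔫` -/
theorem sqcx_inv_of_not_inMax {x : F} (hx : SsnfInLoc t 𝔫 x) (h : ¬ SsnfInMax t 𝔫 x) :
    SsnfInLoc t 𝔫 x⁻¹ := sqgcu_inv_mem_of_not_inMax hx h

/-- a unit of `Q_𝔫` is not in `𝔫 Q_𝔫` -/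
theorem sqcx_not_inMax_of_inv {x : F} (hx0 : x ≠ 0) (hxi : SsnfInLoc t 𝔫 x⁻¹) :
    ¬ SsnfInMax t 𝔫 x := by
  intro h
  have h1 := sqcx_inMax_mul hxi h
  rw [inv_mul_cancel₀ hx0] at h1
  exact sqgcu_not_inMax_one h1

/-- fractions : `x ∈ Q_𝔫` iff `x = σ⁻¹ w` -/
theorem sqcx_inLoc_frac {x : F} (hx : SsnfInLoc t 𝔫 x) :
    ∃ σ w : ↥(s18tInt A t), σ ∉ 𝔫 ∧ x = (σ : F)⁻¹ * (w : F) := by
  obtain ⟨σ, hσ, hσx⟩ := hx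
  refine ⟨σ, ⟨_, hσx⟩, hσ, ?_⟩
  rw [← mul_assoc, inv_mul_cancel₀ (sqcx_ne_zero_of_not_mem hσ), one_mul]

theorem sqcx_inMax_frac {x : F} (hx : SsnfInMax t 𝔫 x) :
    ∃ σ w : ↥(s18tInt A t), σ ∉ 𝔫 ∧ w ∈ 𝔫 ∧ x = (σ : F)⁻¹ * (w : F) := by
  obtain ⟨σ, hσ, p, hp, hσx⟩ := hx
  refine ⟨σ, p, hσ, hp, ?_⟩
  rw [← hσx, ← mul_assoc, inv_mul_cancel₀ (sqcx_ne_zero_of_not_mem hσ), one_mul]

end One

/-! ### 1. the pulled-back prime -/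

section Pull

variable {s s' : F} (𝔫 : Ideal ↥(s18tInt A s)) [h𝔫 : 𝔫.IsPrime]

/-- the inclusion `Q' → Q_𝔫` for `s' ∈ Q_𝔫` -/
def sqcxIncl (hs' : SsnfInLoc s 𝔫 s') : ↥(s18tInt A s') →+* ↥(ssLocRing s 𝔫) :=
  (s18tInt A s').subtype.codRestrict (ssLocRing s 𝔫)
    (fun z => sqgcu_int_le_loc_of_mem 𝔫 hs' z z.2)

theorem sqcxIncl_coe (hs' : SsnfInLoc s 𝔫 s') (z : ↥(s18tInt A s')) :
    ((sqcxIncl 𝔫 hs' z : ↥(ssLocRing s 𝔫)) : F) = (z : F) := rfl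

/-- the prime `𝔫'' = Q' ∩ 𝔫 Q_𝔫` of the chart ring of `s'` -/
def sqcxPull (hs' : SsnfInLoc s 𝔫 s') : Ideal ↥(s18tInt A s') :=
  (maximalIdeal ↥(ssLocRing s 𝔫)).comap (sqcxIncl 𝔫 hs')

instance sqcxPull_isPrime (hs' : SsnfInLoc s 𝔫 s') : (sqcxPull 𝔫 hs').IsPrime :=
  Ideal.comap_isPrime _ _

theorem mem_sqcxPull (hs' : SsnfInLoc s 𝔫 s') (z : ↥(s18tInt A s')) :
    z ∈ sqcxPull 𝔫 hs' ↔ SsnfInMax s 𝔫 (z : F) := by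
  rw [sqcxPull, Ideal.mem_comap, ssl_mem_maximalIdeal, sqcxIncl_coe]
  exact Iff.rfl

/-- `Q' ⊆ Q_𝔫` -/
theorem sqcx_int_inLoc (hs' : SsnfInLoc s 𝔫 s') {x : F} (hx : x ∈ s18tInt A s') :
    SsnfInLoc s 𝔫 x := sqgcu_int_le_loc_of_mem 𝔫 hs' x hx

/-- `Q'_𝔫'' ⊆ Q_𝔫` -/
theorem sqcx_loc_le (hs' : SsnfInLoc s 𝔫 s') {x : F}
    (hx : SsnfInLoc s' (sqcxPull 𝔫 hs') x) : SsnfInLoc s 𝔫 x := by
  obtain ⟨σ, w, hσ, rfl⟩ := sqcx_inLoc_frac hx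
  have hσR : SsnfInLoc s 𝔫 (σ : F) := sqcx_int_inLoc 𝔫 hs' σ.2
  have hσi : SsnfInLoc s 𝔫 (σ : F)⁻¹ :=
    sqcx_inv_of_not_inMax hσR (fun h => hσ ((mem_sqcxPull 𝔫 hs' σ).mpr h))
  exact sqcx_inLoc_mul hσi (sqcx_int_inLoc 𝔫 hs' w.2)

/-- `𝔫'' Q'_𝔫'' ⊆ 𝔫 Q_𝔫` -/
theorem sqcx_max_le (hs' : SsnfInLoc s 𝔫 s') {x : F}
    (hx : SsnfInMax s' (sqcxPull 𝔫 hs') x) : SsnfInMax s 𝔫 x := by
  obtain ⟨σ, w, hσ, hw, rfl⟩ := sqcx_inMax_frac hx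
  have hσR : SsnfInLoc s 𝔫 (σ : F) := sqcx_int_inLoc 𝔫 hs' σ.2
  have hσi : SsnfInLoc s 𝔫 (σ : F)⁻¹ :=
    sqcx_inv_of_not_inMax hσR (fun h => hσ ((mem_sqcxPull 𝔫 hs' σ).mpr h))
  exact sqcx_inMax_mul hσi ((mem_sqcxPull 𝔫 hs' w).mp hw)

/-- the reverse inclusion : `s = g / f`, `f, g ∈ Q'`, `f` a unit of `Q_𝔫` ⟹ `s ∈ Q'_𝔫''` -/
theorem sqcx_self_inLoc (hs' : SsnfInLoc s 𝔫 s') {f g : F} (hf : f ∈ s18tInt A s')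
    (hg : g ∈ s18tInt A s') (hf0 : f ≠ 0) (hfu : SsnfInLoc s 𝔫 f⁻¹) (hsfg : s = g * f⁻¹) :
    SsnfInLoc s' (sqcxPull 𝔫 hs') s := by
  have hfn : (⟨f, hf⟩ : ↥(s18tInt A s')) ∉ sqcxPull 𝔫 hs' := fun h =>
    sqcx_not_inMax_of_inv hf0 hfu ((mem_sqcxPull 𝔫 hs' _).mp h)
  have h := sqcx_inLoc_mul (𝔫 := sqcxPull 𝔫 hs') (sqcx_inLoc_of_int hg) (sqcx_inLoc_inv hfn)
  rwa [← hsfg] at h

/-- `Q_𝔫 ⊆ Q'_𝔫''` -/
theorem sqcx_loc_ge (hs' : SsnfInLoc s 𝔫 s')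
    (hs : SsnfInLoc s' (sqcxPull 𝔫 hs') s) {x : F} (hx : SsnfInLoc s 𝔫 x) :
    SsnfInLoc s' (sqcxPull 𝔫 hs') x := by
  obtain ⟨σ, w, hσ, rfl⟩ := sqcx_inLoc_frac hx
  have hQ : ∀ y ∈ s18tInt A s, SsnfInLoc s' (sqcxPull 𝔫 hs') y :=
    fun y hy => sqgcu_int_le_loc_of_mem (sqcxPull 𝔫 hs') hs y hy
  have hσi : SsnfInLoc s' (sqcxPull 𝔫 hs') (σ : F)⁻¹ := by
    refine sqcx_inv_of_not_inMax (hQ _ σ.2) (fun h => hσ ?_)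
    exact (sqcx_mem_iff σ).mpr (sqcx_max_le 𝔫 hs' h)
  exact sqcx_inLoc_mul hσi (hQ _ w.2)

/-- `𝔫 Q_𝔫 ⊆ 𝔫'' Q'_𝔫''` -/
theorem sqcx_max_ge (hs' : SsnfInLoc s 𝔫 s')
    (hs : SsnfInLoc s' (sqcxPull 𝔫 hs') s) {x : F} (hx : SsnfInMax s 𝔫 x) :
    SsnfInMax s' (sqcxPull 𝔫 hs') x := by
  have hxL : SsnfInLoc s' (sqcxPull 𝔫 hs') x := sqcx_loc_ge 𝔫 hs' hs (sqcx_inLoc_of_inMax hx)
  by_contra hnot
  have hxi := sqcx_inv_of_not_inMax hxL hnot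
  have hx0 : x ≠ 0 := by
    rintro rfl
    apply hnot
    exact ⟨1, fun h => (sqcxPull_isPrime 𝔫 hs').ne_top ((Ideal.eq_top_iff_one _).mpr h), 0,
      Ideal.zero_mem _, by simp⟩
  exact sqcx_not_inMax_of_inv hx0 (sqcx_loc_le 𝔫 hs' hxi) hx

end Pull

/-! ### 2. two chart points with the same local ring -/

/-- the chart points `(s, 𝔫)` and `(s', 𝔫')` have the same local ring and the same maximal ideal -/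
structure SqcxSame (s s' : F) (𝔫 : Ideal ↥(s18tInt A s)) (𝔫' : Ideal ↥(s18tInt A s')) : Prop where
  loc : ∀ x : F, SsnfInLoc s' 𝔫' x ↔ SsnfInLoc s 𝔫 x
  max : ∀ x : F, SsnfInMax s' 𝔫' x ↔ SsnfInMax s 𝔫 x

theorem SqcxSame.symm {s s' : F} {𝔫 : Ideal ↥(s18tInt A s)} {𝔫' : Ideal ↥(s18tInt A s')}
    (h : SqcxSame s s' 𝔫 𝔫') : SqcxSame s' s 𝔫' 𝔫 :=
  ⟨fun x => (h.loc x).symm, fun x => (h.max x).symm⟩

theorem SqcxSame.refl (s : F) (𝔫 : Ideal ↥(s18tInt A s)) : SqcxSame s s 𝔫 𝔫 :=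
  ⟨fun _ => Iff.rfl, fun _ => Iff.rfl⟩

/-- **TWO-WAY CHANGE OF CHART** : `s' ∈ Q_𝔫` and `s = g / f` with `f, g ∈ Q'`, `f` a unit of `Q_𝔫` :
the prime `𝔫'' = Q' ∩ 𝔫 Q_𝔫` of `Q'` has the same local ring as `𝔫`. -/
theorem sqcx_same {s s' : F} (𝔫 : Ideal ↥(s18tInt A s)) [h𝔫 : 𝔫.IsPrime]
    (hs' : SsnfInLoc s 𝔫 s') {f g : F} (hf : f ∈ s18tInt A s') (hg : g ∈ s18tInt A s')
    (hf0 : f ≠ 0) (hfu : SsnfInLoc s 𝔫 f⁻¹) (hsfg : s = g * f⁻¹) :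
    SqcxSame s s' 𝔫 (sqcxPull 𝔫 hs') := by
  have hs := sqcx_self_inLoc 𝔫 hs' hf hg hf0 hfu hsfg
  exact ⟨fun x => ⟨sqcx_loc_le 𝔫 hs', sqcx_loc_ge 𝔫 hs' hs⟩,
    fun x => ⟨sqcx_max_le 𝔫 hs', sqcx_max_ge 𝔫 hs' hs⟩⟩

/-- existential form of `sqcx_same` -/
theorem sqcx_exists {s s' : F} (𝔫 : Ideal ↥(s18tInt A s)) [h𝔫 : 𝔫.IsPrime]
    (hs' : SsnfInLoc s 𝔫 s') {f g : F} (hf : f ∈ s18tInt A s') (hg : g ∈ s18tInt A s')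
    (hf0 : f ≠ 0) (hfu : SsnfInLoc s 𝔫 f⁻¹) (hsfg : s = g * f⁻¹) :
    ∃ 𝔫'' : Ideal ↥(s18tInt A s'), 𝔫''.IsPrime ∧ SqcxSame s s' 𝔫 𝔫'' ∧
      ∀ p : ↥(s18tInt A s'), p ∈ 𝔫'' ↔ SsnfInMax s 𝔫 (p : F) :=
  ⟨sqcxPull 𝔫 hs', sqcxPull_isPrime 𝔫 hs', sqcx_same 𝔫 hs' hf hg hf0 hfu hsfg,
    mem_sqcxPull 𝔫 hs'⟩

section Same

variable {s s' : F} {𝔫 : Ideal ↥(s18tInt A s)} {𝔫' : Ideal ↥(s18tInt A s')}
  [h𝔫 : 𝔫.IsPrime] [h𝔫' : 𝔫'.IsPrime]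

theorem SqcxSame.mem_iff (h : SqcxSame s s' 𝔫 𝔫') (p : ↥(s18tInt A s')) :
    p ∈ 𝔫' ↔ SsnfInMax s 𝔫 (p : F) := by
  rw [sqcx_mem_iff, h.max]

theorem SqcxSame.mem_iff' (h : SqcxSame s s' 𝔫 𝔫') (p : ↥(s18tInt A s)) :
    p ∈ 𝔫 ↔ SsnfInMax s' 𝔫' (p : F) := by
  rw [sqcx_mem_iff, h.max]

/-- the constant `ϖ` lies in both or in none -/
theorem SqcxSame.pi_mem_iff (h : SqcxSame s s' 𝔫 𝔫') (ϖ : A) :
    sskPi ϖ s' ∈ 𝔫' ↔ sskPi ϖ s ∈ 𝔫 := by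
  rw [h.mem_iff, sqcx_mem_iff]
  exact Iff.rfl

/-- `s' ∈ 𝔫'` iff `s' ∈ 𝔫 Q_𝔫` -/
theorem SqcxSame.self_mem_iff (h : SqcxSame s s' 𝔫 𝔫') :
    (⟨s', s18tc_self_mem_int s'⟩ : ↥(s18tInt A s')) ∈ 𝔫' ↔ SsnfInMax s 𝔫 s' :=
  h.mem_iff _

end Same

/-! ### 3. maximality -/

section Max

/-- the residue field of a closed point over `ϖ` is algebraic over `A / ϖ` : every element of `Q`
satisfies a monic polynomial of `A[X]` modulo `𝔫`. -/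
theorem sqcx_monic_mod (hϖ : Irreducible ϖ) (s : F) (hs : Transcendental L s)
    [FiniteDimensional L⟮s⟯ F] (𝔫 : Ideal ↥(s18tInt A s)) [h𝔫 : 𝔫.IsMaximal]
    (hϖ𝔫 : sskPi ϖ s ∈ 𝔫) (y : ↥(s18tInt A s)) :
    ∃ P : A[X], P.Monic ∧ sqguEval s y P ∈ 𝔫 := by
  letI iA : Algebra A ↥(s18tInt A s) := (sqguConst s).toAlgebra
  haveI : Algebra.FiniteType A ↥(s18tInt A s) := sqgu_finiteType (L := L) s hs
  haveI : 𝔫.LiesOver (maximalIdeal A) := ⟨sqgu_liesOver hϖ s 𝔫 hϖ𝔫⟩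
  letI := Ideal.Quotient.field (maximalIdeal A)
  letI := Ideal.Quotient.field 𝔫
  haveI : Algebra.FiniteType A (↥(s18tInt A s) ⧸ 𝔫) :=
    Algebra.FiniteType.of_surjective (Ideal.Quotient.mkₐ A 𝔫) Ideal.Quotient.mk_surjective
  haveI : Algebra.FiniteType (A ⧸ maximalIdeal A) (↥(s18tInt A s) ⧸ 𝔫) :=
    Algebra.FiniteType.of_restrictScalars_finiteType A _ _
  haveI : Module.Finite (A ⧸ maximalIdeal A) (↥(s18tInt A s) ⧸ 𝔫) :=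
    finite_of_finite_type_of_isJacobsonRing _ _
  haveI : Module.Finite A (↥(s18tInt A s) ⧸ 𝔫) :=
    Module.Finite.trans (A ⧸ maximalIdeal A) _
  have hint : IsIntegral A (Ideal.Quotient.mk 𝔫 y) := IsIntegral.of_finite A _
  obtain ⟨P, hP, hPy⟩ := hint
  refine ⟨P, hP, ?_⟩
  rw [← Ideal.Quotient.eq_zero_iff_mem]
  have h1 := Polynomial.hom_eval₂ P (sqguConst s) (Ideal.Quotient.mk 𝔫) y
  have h2 : sqguEval s y P = P.eval₂ (sqguConst s) y := rfl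
  rw [h2, h1]
  exact hPy

variable {s s' : F} {𝔫 : Ideal ↥(s18tInt A s)} {𝔫' : Ideal ↥(s18tInt A s')}
  [h𝔫 : 𝔫.IsPrime] [h𝔫' : 𝔫'.IsPrime]

/-- every element of `Q'` satisfies a monic polynomial of `A[X]` modulo `𝔫'` -/
theorem SqcxSame.monic_mod (h : SqcxSame s s' 𝔫 𝔫') (hϖ : Irreducible ϖ)
    (hs : Transcendental L s) [FiniteDimensional L⟮s⟯ F] (hmax : 𝔫.IsMaximal)
    (hϖ𝔫 : sskPi ϖ s ∈ 𝔫) (x : ↥(s18tInt A s')) :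
    ∃ P : A[X], P.Monic ∧ sqguEval s' x P ∈ 𝔫' := by
  haveI := hmax
  have hxL : SsnfInLoc s 𝔫 (x : F) := (h.loc _).mp (sqcx_inLoc_of_int x.2)
  obtain ⟨σ, w, hσ, hxσw⟩ := sqcx_inLoc_frac hxL
  obtain ⟨σ', i, hi, hσ'⟩ := hmax.exists_inv hσ
  -- `y = σ' w ≡ x`
  have hσ0 := sqcx_ne_zero_of_not_mem hσ
  have hσx : (σ : F) * (x : F) = (w : F) := by
    rw [hxσw, ← mul_assoc, mul_inv_cancel₀ hσ0, one_mul]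
  have hσ'F : (σ' : F) * (σ : F) + (i : F) = 1 := by
    have := congrArg (fun z : ↥(s18tInt A s) => (z : F)) hσ'
    simpa using this
  have hxy : SsnfInMax s 𝔫 ((x : F) - ((σ' * w : ↥(s18tInt A s)) : F)) := by
    have e : (x : F) - ((σ' * w : ↥(s18tInt A s)) : F) = (x : F) * (i : F) := by
      push_cast
      rw [← hσx]
      linear_combination (-(x : F)) * hσ'F
    rw [e]
    exact sqcx_inMax_mul hxL ((sqcx_mem_iff i).mp hi)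
  obtain ⟨P, hP, hPy⟩ := sqcx_monic_mod (L := L) hϖ s hs 𝔫 hϖ𝔫 (σ' * w)
  refine ⟨P, hP, ?_⟩
  rw [h.mem_iff, sqguEval_coe]
  -- work in the local ring
  set R := ssLocRing s 𝔫 with hR
  let cR : A →+* ↥R := (sslIncl s 𝔫).comp (sqguConst s)
  have hcR : (R.subtype).comp cR = algebraMap A F := RingHom.ext fun a => rfl
  have hev : ∀ z : ↥R, (((P.map cR).eval z : ↥R) : F) = aeval (z : F) P := by
    intro z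
    rw [eval_map, aeval_def, ← hcR]
    exact Polynomial.hom_eval₂ P cR R.subtype z
  let X' : ↥R := ⟨(x : F), hxL⟩
  let Y' : ↥R := ⟨((σ' * w : ↥(s18tInt A s)) : F), sqcx_inLoc_of_int (σ' * w).2⟩
  obtain ⟨r, hr⟩ := Polynomial.sub_dvd_eval_sub X' Y' (P.map cR)
  have hXY : X' - Y' ∈ maximalIdeal ↥R := (ssl_mem_maximalIdeal s 𝔫 _).mpr hxy
  have hY : (P.map cR).eval Y' ∈ maximalIdeal ↥R := by
    rw [ssl_mem_maximalIdeal, hev]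
    have : aeval (Y' : F) P = ((sqguEval s (σ' * w) P : ↥(s18tInt A s)) : F) :=
      (sqguEval_coe s (σ' * w) P).symm
    rw [this]
    exact (sqcx_mem_iff _).mp hPy
  have hX : (P.map cR).eval X' ∈ maximalIdeal ↥R := by
    have : (P.map cR).eval X' = (X' - Y') * r + (P.map cR).eval Y' := by
      rw [← hr]; ring
    rw [this]
    exact Ideal.add_mem _ (Ideal.mul_mem_right _ _ hXY) hY
  rw [ssl_mem_maximalIdeal, hev] at hX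
  exact hX

/-- **the corresponding point of the other chart is closed** -/
theorem SqcxSame.isMaximal (h : SqcxSame s s' 𝔫 𝔫') (hϖ : Irreducible ϖ)
    (hs : Transcendental L s) [FiniteDimensional L⟮s⟯ F] (hmax : 𝔫.IsMaximal)
    (hϖ𝔫 : sskPi ϖ s ∈ 𝔫) : 𝔫'.IsMaximal := by
  have hϖ𝔫' : sskPi ϖ s' ∈ 𝔫' := (h.pi_mem_iff ϖ).mpr hϖ𝔫
  set f : A →+* ↥(s18tInt A s') ⧸ 𝔫' := (Ideal.Quotient.mk 𝔫').comp (sqguConst s') with hf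
  have hint : f.IsIntegral := by
    intro d
    obtain ⟨x, rfl⟩ := Ideal.Quotient.mk_surjective d
    obtain ⟨P, hP, hPx⟩ := h.monic_mod (L := L) hϖ hs hmax hϖ𝔫 x
    refine ⟨P, hP, ?_⟩
    have h1 := Polynomial.hom_eval₂ P (sqguConst s') (Ideal.Quotient.mk 𝔫') x
    rw [hf, ← h1]
    exact Ideal.Quotient.eq_zero_iff_mem.mpr hPx
  have hcomap : (⊥ : Ideal (↥(s18tInt A s') ⧸ 𝔫')).comap f = maximalIdeal A := by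
    refine ((maximalIdeal.isMaximal A).eq_of_le ?_ ?_).symm
    · intro htop
      have h1 : (1 : A) ∈ (⊥ : Ideal (↥(s18tInt A s') ⧸ 𝔫')).comap f := by rw [htop]; trivial
      rw [Ideal.mem_comap, map_one, Ideal.mem_bot] at h1
      exact one_ne_zero h1
    · rw [hϖ.maximalIdeal_eq, Ideal.span_singleton_le_iff_mem, Ideal.mem_comap, Ideal.mem_bot]
      exact Ideal.Quotient.eq_zero_iff_mem.mpr hϖ𝔫'
  have hI : ((⊥ : Ideal (↥(s18tInt A s') ⧸ 𝔫')).comap f).IsMaximal := by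
    rw [hcomap]; exact maximalIdeal.isMaximal A
  haveI : (⊥ : Ideal (↥(s18tInt A s') ⧸ 𝔫')).IsPrime := Ideal.isPrime_bot
  have hbot := Ideal.isMaximal_of_isIntegral_of_isMaximal_comap' f hint ⊥ hI
  exact (Ideal.bot_quotient_isMaximal_iff 𝔫').mp hbot

end Max

/-! ### 4. intrinsic forms of the local predicates -/

section Intrinsic

variable {t : F} {𝔫 : Ideal ↥(s18tInt A t)} [h𝔫 : 𝔫.IsPrime]

/-- `SqGermReg` only depends on the local ring : `𝔫 Q_𝔫 = (a, b)`. -/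
theorem sqcx_germReg_iff : SqGermReg t 𝔫 ↔ ∃ a b : F, SsnfInMax t 𝔫 a ∧ SsnfInMax t 𝔫 b ∧
    ∀ x : F, SsnfInMax t 𝔫 x →
      ∃ c d : F, SsnfInLoc t 𝔫 c ∧ SsnfInLoc t 𝔫 d ∧ x = c * a + d * b := by
  constructor
  · rintro ⟨a, b, ha, hb, hgen⟩
    refine ⟨a, b, ha, hb, fun x hx => ?_⟩
    obtain ⟨τ, p, hτ, hp, rfl⟩ := sqcx_inMax_frac hx
    obtain ⟨σ, hσ, c, d, hcd⟩ := hgen p hp
    have hσ0 := sqcx_ne_zero_of_not_mem hσ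
    have hpe : (p : F) = (σ : F)⁻¹ * ((c : F) * a + (d : F) * b) := by
      rw [← hcd, ← mul_assoc, inv_mul_cancel₀ hσ0, one_mul]
    refine ⟨(τ : F)⁻¹ * (σ : F)⁻¹ * (c : F), (τ : F)⁻¹ * (σ : F)⁻¹ * (d : F), ?_, ?_, ?_⟩
    · exact sqcx_inLoc_mul (sqcx_inLoc_mul (sqcx_inLoc_inv hτ) (sqcx_inLoc_inv hσ))
        (sqcx_inLoc_of_int c.2)
    · exact sqcx_inLoc_mul (sqcx_inLoc_mul (sqcx_inLoc_inv hτ) (sqcx_inLoc_inv hσ))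
        (sqcx_inLoc_of_int d.2)
    · rw [hpe]; ring
  · rintro ⟨a, b, ha, hb, hgen⟩
    refine ⟨a, b, ha, hb, fun x hx => ?_⟩
    obtain ⟨c, d, ⟨τ₁, hτ₁, hc₁⟩, ⟨τ₂, hτ₂, hd₁⟩, hxcd⟩ := hgen x ((sqcx_mem_iff x).mp hx)
    refine ⟨τ₁ * τ₂, fun h => (h𝔫.mem_or_mem h).elim hτ₁ hτ₂,
      τ₂ * ⟨(τ₁ : F) * c, hc₁⟩, τ₁ * ⟨(τ₂ : F) * d, hd₁⟩, ?_⟩
    push_cast
    rw [hxcd]
    ring

/-- `SqtOn` only depends on the local ring : `Q_𝔫 ∩ 𝔪_V ⊆ 𝔫 Q_𝔫`. -/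
theorem sqcx_on_iff (V : ValuationSubring F) (hQV : ∀ x ∈ s18tInt A t, x ∈ V) :
    SqtOn V t 𝔫 ↔ ∀ x : F, SsnfInLoc t 𝔫 x → x ∈ V.nonunits → SsnfInMax t 𝔫 x := by
  constructor
  · rintro hon x ⟨σ, hσ, hσx⟩ hxV
    have h1 : (σ : F) * x ∈ V.nonunits := sqgcu_nu_mul V (hQV _ σ.2) hxV
    exact ⟨σ, hσ, ⟨(σ : F) * x, hσx⟩, hon ⟨(σ : F) * x, hσx⟩ h1, rfl⟩
  · intro h p hp
    exact (sqcx_mem_iff p).mpr (h _ (sqcx_inLoc_of_int p.2) hp)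

/-- `Q_𝔫 ⊆ V` for a component through `𝔫` -/
theorem sqcx_loc_le_of_on (V : ValuationSubring F) (hQV : ∀ x ∈ s18tInt A t, x ∈ V)
    (hon : SqtOn V t 𝔫) {x : F} (hx : SsnfInLoc t 𝔫 x) : x ∈ V := by
  obtain ⟨σ, w, hσ, rfl⟩ := sqcx_inLoc_frac hx
  have hσV : (σ : F) ∈ V := hQV _ σ.2
  have hσu : V.valuation (σ : F) = 1 := by
    rcases lt_or_eq_of_le ((V.valuation_le_one_iff _).mpr hσV) with h | h
    · exact absurd (hon σ (V.mem_nonunits_iff.mpr h)) hσ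
    · exact h
  have : V.valuation ((σ : F)⁻¹ * (w : F)) ≤ 1 := by
    rw [map_mul, map_inv₀, hσu, inv_one, one_mul]
    exact (V.valuation_le_one_iff _).mpr (hQV _ w.2)
  exact (V.valuation_le_one_iff _).mp this

/-- `SqngBranch` only depends on the local ring : `Q_𝔫 ∩ 𝔪_V ⊆ 𝔫 Q_𝔫` and
`𝔫 Q_𝔫 = z Q_𝔫 + (Q_𝔫 ∩ 𝔪_V)`. -/
theorem sqcx_branch_iff (V : ValuationSubring F) (hQV : ∀ x ∈ s18tInt A t, x ∈ V) :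
    SqngBranch t 𝔫 V ↔ SqtOn V t 𝔫 ∧ ∃ z : F, SsnfInMax t 𝔫 z ∧
      ∀ x : F, SsnfInMax t 𝔫 x → ∃ c y : F, SsnfInLoc t 𝔫 c ∧ SsnfInLoc t 𝔫 y ∧
        y ∈ V.nonunits ∧ x = c * z + y := by
  constructor
  · rintro ⟨𝔭, h𝔭, hprime, hle, z, hz, hgen⟩
    have hon : SqtOn V t 𝔫 := fun p hp => hle ((h𝔭 p).mpr hp)
    refine ⟨hon, z, hz, fun x hx => ?_⟩
    obtain ⟨τ, p₀, hτ, hp₀, rfl⟩ := sqcx_inMax_frac hx
    obtain ⟨σ, hσ, c, p, hp, hcp⟩ := hgen p₀ hp₀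
    have hσ0 := sqcx_ne_zero_of_not_mem hσ
    have hpe : (p₀ : F) = (σ : F)⁻¹ * ((c : F) * z + (p : F)) := by
      rw [← hcp, ← mul_assoc, inv_mul_cancel₀ hσ0, one_mul]
    have hu : SsnfInLoc t 𝔫 ((τ : F)⁻¹ * (σ : F)⁻¹) :=
      sqcx_inLoc_mul (sqcx_inLoc_inv hτ) (sqcx_inLoc_inv hσ)
    refine ⟨(τ : F)⁻¹ * (σ : F)⁻¹ * (c : F), (τ : F)⁻¹ * (σ : F)⁻¹ * (p : F),
      sqcx_inLoc_mul hu (sqcx_inLoc_of_int c.2), sqcx_inLoc_mul hu (sqcx_inLoc_of_int p.2), ?_, ?_⟩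
    · exact sqgcu_nu_mul V (sqcx_loc_le_of_on V hQV hon hu) ((h𝔭 p).mp hp)
    · rw [hpe]; ring
  · rintro ⟨hon, z, hz, hgen⟩
    have hPV : s18tInt A t ≤ V.toSubring := fun x hx => hQV x hx
    refine ⟨sqguCentre t V hPV, fun p => ?_, sqguCentre_isPrime t V hPV, fun p hp => ?_, z, hz,
      fun x hx => ?_⟩
    · rw [mem_sqguCentre, V.mem_nonunits_iff]
    · rw [mem_sqguCentre] at hp
      exact hon p (V.mem_nonunits_iff.mpr hp)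
    · obtain ⟨c, y, ⟨τ₁, hτ₁, hc₁⟩, ⟨τ₂, hτ₂, hy₁⟩, hyV, hxcy⟩ :=
        hgen x ((sqcx_mem_iff x).mp hx)
      refine ⟨τ₁ * τ₂, fun h => (h𝔫.mem_or_mem h).elim hτ₁ hτ₂,
        τ₂ * ⟨(τ₁ : F) * c, hc₁⟩, τ₁ * ⟨(τ₂ : F) * y, hy₁⟩, ?_, ?_⟩
      · rw [mem_sqguCentre, ← V.mem_nonunits_iff]
        push_cast
        rw [← mul_assoc]
        exact sqgcu_nu_mul V (V.mul_mem _ _ (hQV _ τ₁.2) (hQV _ τ₂.2)) hyV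
      · push_cast
        rw [hxcy]
        ring

end Intrinsic

/-! ### 5. transfer along `SqcxSame` -/

section Transfer

variable {s s' : F} {𝔫 : Ideal ↥(s18tInt A s)} {𝔫' : Ideal ↥(s18tInt A s')}
  [h𝔫 : 𝔫.IsPrime] [h𝔫' : 𝔫'.IsPrime]

/-- `ssglTinv t ∈ 𝔫'` for the chart `s' = t⁻¹` -/
theorem SqcxSame.tinv_mem_iff {t : F} {𝔫' : Ideal ↥(s18tInt A t⁻¹)} [h𝔫' : 𝔫'.IsPrime]
    (h : SqcxSame s t⁻¹ 𝔫 𝔫') : ssglTinv (A := A) t ∈ 𝔫' ↔ SsnfInMax s 𝔫 t⁻¹ :=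
  h.mem_iff _

theorem SqcxSame.germReg_iff (h : SqcxSame s s' 𝔫 𝔫') : SqGermReg s' 𝔫' ↔ SqGermReg s 𝔫 := by
  rw [sqcx_germReg_iff, sqcx_germReg_iff]
  simp only [h.loc, h.max]

theorem SqcxSame.on_iff (h : SqcxSame s s' 𝔫 𝔫') (V : ValuationSubring F)
    (hQV : ∀ x ∈ s18tInt A s, x ∈ V) (hQ'V : ∀ x ∈ s18tInt A s', x ∈ V) :
    SqtOn V s' 𝔫' ↔ SqtOn V s 𝔫 := by
  rw [sqcx_on_iff V hQ'V, sqcx_on_iff V hQV]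
  simp only [h.loc, h.max]

/-- the same for helper9's `SqgaOn` -/
theorem SqcxSame.gaOn_iff (h : SqcxSame s s' 𝔫 𝔫') (V : ValuationSubring F)
    (hQV : ∀ x ∈ s18tInt A s, x ∈ V) (hQ'V : ∀ x ∈ s18tInt A s', x ∈ V) :
    (∀ p : ↥(s18tInt A s'), (p : F) ∈ V.nonunits → p ∈ 𝔫') ↔
      (∀ p : ↥(s18tInt A s), (p : F) ∈ V.nonunits → p ∈ 𝔫) :=
  h.on_iff V hQV hQ'V

theorem SqcxSame.branch_iff (h : SqcxSame s s' 𝔫 𝔫') (V : ValuationSubring F)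
    (hQV : ∀ x ∈ s18tInt A s, x ∈ V) (hQ'V : ∀ x ∈ s18tInt A s', x ∈ V) :
    SqngBranch s' 𝔫' V ↔ SqngBranch s 𝔫 V := by
  rw [sqcx_branch_iff V hQ'V, sqcx_branch_iff V hQV, h.on_iff V hQV hQ'V]
  simp only [h.loc, h.max]

theorem SqcxSame.simpleAt_iff (h : SqcxSame s s' 𝔫 𝔫') (V₁ V₂ V₃ : ValuationSubring F)
    (hQ₁ : ∀ x ∈ s18tInt A s, x ∈ V₁) (hQ₂ : ∀ x ∈ s18tInt A s, x ∈ V₂)
    (hQ₃ : ∀ x ∈ s18tInt A s, x ∈ V₃) (hQ'₁ : ∀ x ∈ s18tInt A s', x ∈ V₁)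
    (hQ'₂ : ∀ x ∈ s18tInt A s', x ∈ V₂) (hQ'₃ : ∀ x ∈ s18tInt A s', x ∈ V₃) :
    SqSimpleAt s' V₁ V₂ V₃ 𝔫' ↔ SqSimpleAt s V₁ V₂ V₃ 𝔫 := by
  have hQ : ∀ i : Fin 3, ∀ x ∈ s18tInt A s, x ∈ (![V₁, V₂, V₃] i) := by
    intro i
    fin_cases i
    exacts [hQ₁, hQ₂, hQ₃]
  have hQ' : ∀ i : Fin 3, ∀ x ∈ s18tInt A s', x ∈ (![V₁, V₂, V₃] i) := by
    intro i
    fin_cases i
    exacts [hQ'₁, hQ'₂, hQ'₃]
  constructor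
  · rintro ⟨hreg, i, hbr, hoff⟩
    exact ⟨h.germReg_iff.mp hreg, i, (h.branch_iff _ (hQ i) (hQ' i)).mp hbr,
      fun j hj hon => hoff j hj ((h.on_iff _ (hQ j) (hQ' j)).mpr hon)⟩
  · rintro ⟨hreg, i, hbr, hoff⟩
    exact ⟨h.germReg_iff.mpr hreg, i, (h.branch_iff _ (hQ i) (hQ' i)).mpr hbr,
      fun j hj hon => hoff j hj ((h.on_iff _ (hQ j) (hQ' j)).mp hon)⟩

variable {F₁ : Type*} [Field F₁] [Algebra A F₁] [Algebra L F₁] [IsScalarTower A L F₁]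

theorem SqcxSame.tripleAt (h : SqcxSame s s' 𝔫 𝔫') (α φ : F₁ →+* F) (Nα Nφ : F →* F₁)
    (V₁ V₂ V₃ : ValuationSubring F)
    (hQ₁ : ∀ x ∈ s18tInt A s, x ∈ V₁) (hQ₂ : ∀ x ∈ s18tInt A s, x ∈ V₂)
    (hQ₃ : ∀ x ∈ s18tInt A s, x ∈ V₃) (hQ'₁ : ∀ x ∈ s18tInt A s', x ∈ V₁)
    (hQ'₂ : ∀ x ∈ s18tInt A s', x ∈ V₂) (hQ'₃ : ∀ x ∈ s18tInt A s', x ∈ V₃)
    (H : SqTripleAt α φ Nα Nφ s' V₁ V₂ V₃ 𝔫') : SqTripleAt α φ Nα Nφ s V₁ V₂ V₃ 𝔫 where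
  reg := h.germReg_iff.mp H.reg
  br₁ := (h.branch_iff V₁ hQ₁ hQ'₁).mp H.br₁
  br₂ := (h.branch_iff V₂ hQ₂ hQ'₂).mp H.br₂
  br₃ := (h.branch_iff V₃ hQ₃ hQ'₃).mp H.br₃
  unitα x hx0 hx hxi :=
    (h.loc _).mp (H.unitα x hx0 ((h.loc _).mpr hx) ((h.loc _).mpr hxi))
  unitφ x hx0 hx hxi :=
    (h.loc _).mp (H.unitφ x hx0 ((h.loc _).mpr hx) ((h.loc _).mpr hxi))
  lres₁α x hx := by
    obtain ⟨y, hy, hxy⟩ := H.lres₁α x ((h.loc _).mpr hx)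
    exact ⟨y, (h.loc _).mp hy, hxy⟩
  lres₂α x hx := by
    obtain ⟨y, hy, hxy⟩ := H.lres₂α x ((h.loc _).mpr hx)
    exact ⟨y, (h.loc _).mp hy, hxy⟩
  lres₂φ x hx := by
    obtain ⟨y, hy, hxy⟩ := H.lres₂φ x ((h.loc _).mpr hx)
    exact ⟨y, (h.loc _).mp hy, hxy⟩
  lres₃φ x hx := by
    obtain ⟨y, hy, hxy⟩ := H.lres₃φ x ((h.loc _).mpr hx)
    exact ⟨y, (h.loc _).mp hy, hxy⟩

/-- the `(T2)`-conclusion only depends on the local ring -/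
theorem SqcxSame.hT2_iff (h : SqcxSame s s' 𝔫 𝔫') (V₂ : ValuationSubring F) (ϖF : F) (e : ℕ) :
    (∃ π w : F, SsnfInLoc s' 𝔫' π ∧ π ∈ V₂.nonunits ∧ SsnfInLoc s' 𝔫' w ∧ ϖF = π ^ e * w) ↔
      ∃ π w : F, SsnfInLoc s 𝔫 π ∧ π ∈ V₂.nonunits ∧ SsnfInLoc s 𝔫 w ∧ ϖF = π ^ e * w := by
  simp only [h.loc]

/-- a valuation ring centred at `𝔫` is centred at `𝔫'` (one direction) -/
theorem SqcxSame.centre_of (h : SqcxSame s s' 𝔫 𝔫') (W : ValuationSubring F)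
    (hQ : s18tInt A s ≤ W.toSubring)
    (hc : sskCentre s W ⊆ (𝔫 : Set ↥(s18tInt A s))) :
    s18tInt A s' ≤ W.toSubring ∧ sskCentre s' W ⊆ (𝔫' : Set ↥(s18tInt A s')) := by
  have hon : SqtOn W s 𝔫 := fun p hp => hc hp
  have hloc : ∀ x : F, SsnfInLoc s 𝔫 x → x ∈ W :=
    fun x hx => sqcx_loc_le_of_on W (fun y hy => hQ hy) hon hx
  have hQ' : ∀ x ∈ s18tInt A s', x ∈ W :=
    fun x hx => hloc x ((h.loc _).mp (sqcx_inLoc_of_int hx))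
  refine ⟨fun x hx => hQ' x hx, fun p hp => ?_⟩
  have hp' : (p : F) ∈ W.nonunits := hp
  show p ∈ 𝔫'
  rw [h.mem_iff]
  exact (sqcx_on_iff W (fun y hy => hQ hy)).mp hon _ ((h.loc _).mp (sqcx_inLoc_of_int p.2)) hp'

theorem SqcxSame.centre_iff (h : SqcxSame s s' 𝔫 𝔫') (W : ValuationSubring F) :
    (s18tInt A s' ≤ W.toSubring ∧ sskCentre s' W ⊆ (𝔫' : Set ↥(s18tInt A s'))) ↔
      (s18tInt A s ≤ W.toSubring ∧ sskCentre s W ⊆ (𝔫 : Set ↥(s18tInt A s))) :=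
  ⟨fun ⟨h1, h2⟩ => h.symm.centre_of W h1 h2, fun ⟨h1, h2⟩ => h.centre_of W h1 h2⟩

theorem SqcxSame.centredAt_iff (h : SqcxSame s s' 𝔫 𝔫') (R : Place L F) :
    SsCentredAt s' 𝔫' R ↔ SsCentredAt s 𝔫 R :=
  h.centre_iff R.toValuationSubring

end Transfer

end Fermat.Agent.SQ
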