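import Mathlib
import Fermat.Agent.SQ.Germ.CuspMain
import Fermat.Agent.SQ.Germ.Inst
import Fermat.Agent.SQ.Germ.WireInv
import Fermat.Agent.SQ.Germ.Adapt
import Fermat.Agent.SQ.Germ.CongT2
import Fermat.Agent.SQ.Germ.CuspVal2
import Fermat.Agent.SQ.Germ.DerivK
import Fermat.Agent.SS.Germ.Close

/-!
# Program Q (S36), assembler slot `locInf` for the chart `t = j` : THE CONCRETE INSTANCE (prefix `sqccj`)

`E ⊂ ℚ̄`, `A₀ = 𝔸 ∩ E` a discrete valuation ring, `𝔸` over the prime `q ∤ M`, the tower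
`F_E(M) ⊂ F_E(M q) ⊂ F = F_E(M q q)`, `t = j`, `y = j_q = sqvmJq`, `z = j_qq = sqvmY`.

`sqccj_locInf` : every closed point `𝔫 ∋ ϖ, j⁻¹` of the chart `j⁻¹` of `F_E(M q q)` is SIMPLE
(`SqSimpleAt j⁻¹ V₁ V₂ V₃ 𝔫`, the field `locInf` of `SqGeoCore`), from

* the level-`q` data of Program S (`S18Coord`, `GrdfbHyp` for `j` and `j⁻¹`, `SsvTwo` for the
  witness `h` of `ssvmm_amb`),
* (VAL²) in the shapes `SqniVal` and `SqvThree` (with `e₂ = q - 1`), `V₂(j_qq - j) = V₂(π₂)`.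

Everything else is supplied here : the three modular equations `Φ(j, j_q) = Φ(j_q, j_qq) =
Φ(j_q, j) = 0`, the six congruences on `V₁, V₂, V₃`, `G₀ = - (q/ϖ) α(g)` with the congruence
(T2-cong) `sqgct_main`, the horizontal unit property `sqgd_horizontal` at the non-cuspidal places
through a cusp point, and the cuspidal valuation `sqgcu_val_g`.
-/

set_option autoImplicit false
set_option linter.unusedSectionVars false
set_option linter.unusedVariables false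
set_option linter.style.haveILetI false
set_option synthInstance.maxHeartbeats 400000

noncomputable section

namespace Fermat.Agent.SQ

open Polynomial ModularCurve AlgebraicCurve IntermediateField IsLocalRing Fermat.Agent.S18
  Fermat.Agent.SS Fermat.Agent.G Fermat.Agent.S24

local notation "Qb" => AlgebraicClosure ℚ

/-! ### generic lemmas -/

section Abs

variable {A K F : Type*} [CommRing A] [Field K] [Field F] [Algebra A K] [Algebra A F] [Algebra K F]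
  [IsScalarTower A K F]

/-- base change of the coefficients does not change the value of a bivariate polynomial -/
theorem sqccj_eval₂_map (Ψ : A[X][X]) (x y : F) :
    (Ψ.map (mapRingHom (algebraMap A K))).eval₂ ((aeval x : K[X] →ₐ[K] F) : K[X] →+* F) y =
      Ψ.eval₂ ((aeval x : A[X] →ₐ[A] F) : A[X] →+* F) y := by
  rw [Polynomial.eval₂_map]
  congr 1
  refine Polynomial.ringHom_ext (fun c => ?_) ?_
  · simp only [RingHom.comp_apply, RingHom.coe_coe, coe_mapRingHom, map_C, aeval_C]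
    exact (IsScalarTower.algebraMap_apply A K F c).symm
  · simp only [RingHom.comp_apply, RingHom.coe_coe, coe_mapRingHom, map_X, aeval_X]

omit [Algebra A K] [Algebra K F] [IsScalarTower A K F] in
/-- the inner partial derivative, evaluated, as a sum -/
theorem sqccj_DX_eval₂ (Ψ : A[X][X]) (x y : F) (n : ℕ) (hn : Ψ.natDegree < n) :
    (sqgdDX Ψ).eval₂ ((aeval x : A[X] →ₐ[A] F) : A[X] →+* F) y =
      ∑ i ∈ Finset.range n, aeval x (derivative (Ψ.coeff i)) * y ^ i := by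
  have hd : (sqgdDX Ψ).natDegree < n := by
    refine lt_of_le_of_lt ?_ hn
    rw [natDegree_le_iff_coeff_eq_zero]
    intro N hN
    rw [sqgdDX_coeff, coeff_eq_zero_of_natDegree_lt hN, map_zero]
  rw [eval₂_eq_sum_range' _ hd]
  refine Finset.sum_congr rfl fun i _ => ?_
  rw [sqgdDX_coeff]
  rfl

end Abs

/-! ### the branch at a cuspidal horizontal place through a cusp point of `V₂` -/

section Branch

universe u

variable {A : Type*} [CommRing A] [IsDomain A] [IsDiscreteValuationRing A] [CharZero A]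
variable {F : Type u} [Field F] [Algebra A F]
variable {t y : F} {q : ℕ} {Φ : A[X][X]}

/-- at a horizontal place `W` with a pole of `t`, centred in a closed point `𝔫` of the chart `t⁻¹`
lying on a component `V₂` with `y ≡ t^q` : `v y = (v t)^q`. -/
theorem sqccj_branch (𝔫 : Ideal ↥(s18tInt A t⁻¹)) [h𝔫 : 𝔫.IsPrime] {W : ValuationSubring F}
    (hQ : s18tInt A t⁻¹ ≤ W.toSubring)
    (hc : sskCentre t⁻¹ W ⊆ (𝔫 : Set ↥(s18tInt A t⁻¹)))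
    (MP₁ : SsgnModPoly A F t y q Φ) (hq : 1 ≤ q) (ht0 : t ≠ 0)
    (V₂ : ValuationSubring F) (hQ₂ : ∀ x ∈ s18tInt A t⁻¹, x ∈ V₂)
    (hy₂ : y - t ^ q ∈ V₂.nonunits) (hon : SqtOn V₂ t⁻¹ 𝔫) :
    W.valuation y = W.valuation t ^ q := by
  have h₁ := sqgcz_rel_of_modPoly MP₁
  have hf₁ := sqgcz_sep₁_not_mem 𝔫 h₁ ht0 hq V₂ hQ₂ hy₂ hon
  have hμ0 : W.valuation t ≠ 0 := (Valuation.ne_zero_iff _).mpr ht0
  have hvf₁ : W.valuation (t⁻¹ ^ q * y) = 1 := by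
    refine le_antisymm ((W.valuation_le_one_iff _).mpr (hQ (h₁.sep_mem ht0 hq)))
      (not_lt.mp fun hlt => hf₁ (hc ?_))
    exact (ValuationSubring.mem_nonunits_iff _).mpr hlt
  rw [map_mul, map_pow, map_inv₀, inv_pow] at hvf₁
  have h2 : W.valuation t ^ q * ((W.valuation t ^ q)⁻¹ * W.valuation y) = W.valuation t ^ q := by
    rw [hvf₁, mul_one]
  rwa [mul_inv_cancel_left₀ (pow_ne_zero q hμ0)] at h2

end Branch

/-! ### the function `g = (1/q) dj_q/dj` at the horizontal places of `F_E(M q)` -/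

section G

variable {q : ℕ} [Fact q.Prime] [NeZero q] (𝔸 : ValuationSubring Qb) (E : IntermediateField ℚ Qb)
  [IsDiscreteValuationRing ↥(s18dVal 𝔸 E)] [CharZero ↥(s18dVal 𝔸 E)] (M : ℕ) [NeZero M]

set_option maxHeartbeats 1600000 in
/-- **`g` is a unit at every place of `F_E(M q) / E` at which `j, j - 1728, j_q, j_q - 1728` are
units** (`sqgd_horizontal` + `sqgk_G_formula`; no chart). -/
theorem sqccj_G_unit (hA : 𝔸.LiesOverPrime q) (hqM : ¬ q ∣ M)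
    (W : ValuationSubring (modularFunctionFieldFullC E (M * q))) (hW : S18IsPlace E W)
    (hj : ssvmdJ E (M * q) ∈ W) (hj0 : (ssvmdJ E (M * q))⁻¹ ∈ W)
    (hj1 : (ssvmdJ E (M * q) - 1728)⁻¹ ∈ W)
    (hy : ssvmmY E M q ∈ W) (hy0 : (ssvmmY E M q)⁻¹ ∈ W) (hy1 : (ssvmmY E M q - 1728)⁻¹ ∈ W) :
    sqgvG E M q ∈ W ∧ (sqgvG E M q)⁻¹ ∈ W := by
  obtain ⟨ϖ, hϖ⟩ := IsDiscreteValuationRing.exists_irreducible ↥(s18dVal 𝔸 E)
  obtain ⟨Φ₀, -, -, -, hroot, hY, -⟩ := sqgv_modular 𝔸 E hA hϖ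
  set Φ : (↥E)[X][X] := Φ₀.map (mapRingHom (algebraMap ↥(s18dVal 𝔸 E) ↥E)) with hΦdef
  have hΦ : Φ.eval₂ ((aeval (ssvmdJ E (M * q)) :
      (↥E)[X] →ₐ[E] modularFunctionFieldFullC E (M * q)) :
      (↥E)[X] →+* modularFunctionFieldFullC E (M * q)) (ssvmmY E M q) = 0 := by
    apply Subtype.ext
    rw [sqgk_coe_eval₂ (↥E) M q Φ]
    exact hroot
  have hPY : sqgkPY E M q Φ ≠ 0 := by
    intro h0
    apply hY
    rw [← sqgk_coe_eval₂ (↥E) M q (derivative Φ)]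
    have : sqgkPY E M q Φ = (derivative Φ).eval₂ ((aeval (ssvmdJ E (M * q)) :
      (↥E)[X] →ₐ[E] modularFunctionFieldFullC E (M * q)) :
      (↥E)[X] →+* modularFunctionFieldFullC E (M * q)) (ssvmmY E M q) := rfl
    rw [← this, h0]
    rfl
  have hg : sqgvG E M q * (((q : ℕ) : modularFunctionFieldFullC E (M * q)) * sqgkPY E M q Φ) =
      - sqgkPX E M q Φ := sqgk_G_formula (↥E) M q Φ hΦ
  have hg0 : sqgvG E M q ≠ 0 := sqgvG_ne_zero (↥E) M q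
  obtain ⟨H1, H2⟩ := sqgd_horizontal E M hqM Φ hΦ W hW hj hj0 hj1 hy hy0 hy1
  change sqgkPX E M q Φ * (sqgkPY E M q Φ)⁻¹ ∈ W at H1
  change sqgkPY E M q Φ * (sqgkPX E M q Φ)⁻¹ ∈ W at H2
  have hq0 : ((q : ℕ) : modularFunctionFieldFullC E (M * q)) ≠ 0 :=
    Nat.cast_ne_zero.mpr (NeZero.ne q)
  have hqV : ((q : ℕ) : modularFunctionFieldFullC E (M * q)) ∈ W := by
    have := hW.2 ((q : ℕ) : E)
    rwa [map_natCast] at this
  have hqiV : ((q : ℕ) : modularFunctionFieldFullC E (M * q))⁻¹ ∈ W := by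
    have := hW.2 (((q : ℕ) : E)⁻¹)
    rwa [map_inv₀, map_natCast] at this
  have hPX : sqgkPX E M q Φ ≠ 0 := by
    intro h0
    rw [h0, neg_zero] at hg
    rcases mul_eq_zero.mp hg with h | h
    · exact hg0 h
    · exact (mul_ne_zero hq0 hPY) h
  have eg : sqgvG E M q = -(sqgkPX E M q Φ * (sqgkPY E M q Φ)⁻¹) *
      ((q : ℕ) : modularFunctionFieldFullC E (M * q))⁻¹ := by
    field_simp
    linear_combination hg
  have egi : (sqgvG E M q)⁻¹ = -(sqgkPY E M q Φ * (sqgkPX E M q Φ)⁻¹) *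
      ((q : ℕ) : modularFunctionFieldFullC E (M * q)) := by
    rw [eg]
    field_simp
  constructor
  · rw [eg]
    exact W.mul_mem _ _ (W.neg_mem _ H1) hqiV
  · rw [egi]
    exact W.mul_mem _ _ (W.neg_mem _ H2) hqV

set_option maxHeartbeats 1000000 in
/-- **`v g = (v j)^(q - 1)`** at a valuation of `F_E(M q)` with `v j > 1` on the branch
`v j_q = (v j)^q` (`sqgcu_val_g` + `sqgk_G_formula`). -/
theorem sqccj_G_val (hA : 𝔸.LiesOverPrime q) {Γ₀ : Type*} [LinearOrderedCommGroupWithZero Γ₀]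
    (v : Valuation (modularFunctionFieldFullC E (M * q)) Γ₀)
    (hAv : ∀ a : ↥(s18dVal 𝔸 E),
      v (algebraMap ↥(s18dVal 𝔸 E) (modularFunctionFieldFullC E (M * q)) a) ≤ 1)
    (hvq : v ((q : ℕ) : modularFunctionFieldFullC E (M * q)) = 1)
    (h1 : 1 < v (ssvmdJ E (M * q)))
    (hy : v (ssvmmY E M q) = v (ssvmdJ E (M * q)) ^ q) :
    v (sqgvG E M q) = v (ssvmdJ E (M * q)) ^ (q - 1) := by
  have hq2 : 2 ≤ q := (Fact.out : q.Prime).two_le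
  obtain ⟨Φ₀, MP⟩ := ssgcl_modPoly_over q 𝔸 hA E
  have MP' : SsgnModPoly ↥(s18dVal 𝔸 E) (modularFunctionFieldFullC E (M * q))
      (ssvmdJ E (M * q)) (ssvmmY E M q) q Φ₀ := ssgn_modPoly_F 𝔸 E M q MP
  set Φ : (↥E)[X][X] := Φ₀.map (mapRingHom (algebraMap ↥(s18dVal 𝔸 E) ↥E)) with hΦdef
  have hΦ : Φ.eval₂ ((aeval (ssvmdJ E (M * q)) :
      (↥E)[X] →ₐ[E] modularFunctionFieldFullC E (M * q)) :
      (↥E)[X] →+* modularFunctionFieldFullC E (M * q)) (ssvmmY E M q) = 0 := by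
    rw [hΦdef, sqccj_eval₂_map]
    exact MP'.root
  have hg := sqgk_G_formula (↥E) M q Φ hΦ
  rw [hΦdef, sqgd_derivative_map, sqgdDX_map, sqccj_eval₂_map, sqccj_eval₂_map,
    sqccj_DX_eval₂ Φ₀ _ _ (q + 2) (by rw [MP.deg]; omega)] at hg
  exact sqgcu_val_g v hAv MP' hq2 hvq h1 hy hg

end G

/-! ### the tower `F_E(M) ⊂ F_E(M q) ⊂ F_E(M q q)` : elements and modular equations -/

section Tower

variable {q : ℕ} [Fact q.Prime] [NeZero q] (𝔸 : ValuationSubring Qb) (E : IntermediateField ℚ Qb)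
  [IsDiscreteValuationRing ↥(s18dVal 𝔸 E)] [CharZero ↥(s18dVal 𝔸 E)] (M : ℕ) [NeZero M]

theorem sqccj_incl₁_J : ssvmdIncl E M q (ssdJ E M) = ssvmdJ E (M * q) :=
  Subtype.ext (ssvmdIncl_coe E M q (ssdJ E M))

theorem sqccj_phi₁_J : ssvmfPhi E M q (ssdJ E M) = ssvmmY E M q := Subtype.ext rfl

theorem sqccj_phi_J : ssvmfPhi E (M * q) q (ssvmdJ E (M * q)) = sqvmJq E M q := Subtype.ext rfl

theorem sqccj_phi_Y : ssvmfPhi E (M * q) q (ssvmmY E M q) = sqvmY E M q := by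
  apply Subtype.ext
  show qExpand E q (qExpand E q (jqModC E)) = qExpand E (q * q) (jqModC E)
  rw [qExpand_qExpand]

theorem sqccj_incl_incl_J :
    ssvmdIncl E (M * q) q (ssvmdIncl E M q (ssdJ E M)) = ssvmdJ E (M * q * q) := by
  rw [sqccj_incl₁_J, sqvm_incl_J]

/-- the inclusion `F_E(N) → F_E(N ℓ)` is integral -/
theorem sqccj_incl_isIntegral (N ℓ : ℕ) [NeZero N] [NeZero ℓ] :
    (ssvmdIncl E N ℓ).toRingHom.IsIntegral := by
  haveI := ssd_finiteDimensional_j E (N * ℓ)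
  exact gff_integral_of_finite _
    (gff_finite_along (ssvmdIncl E N ℓ) (ssdJ E N) (ssdJ E (N * ℓ))
      (Subtype.ext (ssvmdIncl_coe E N ℓ (ssdJ E N))))

set_option maxHeartbeats 1000000 in
/-- **the three modular equations in `F_E(M q q)`** : `Φ(j, j_q) = Φ(j_q, j_qq) = Φ(j_q, j) = 0`
(the last one by the Atkin-Lehner involution of `F_E(M q)`). -/
theorem sqccj_modPoly (hA : 𝔸.LiesOverPrime q) (hqM : ¬ q ∣ M) :
    ∃ Φ : (↥(s18dVal 𝔸 E))[X][X],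
      SsgnModPoly ↥(s18dVal 𝔸 E) (modularFunctionFieldFullC E (M * q * q))
        (ssvmdJ E (M * q * q)) (sqvmJq E M q) q Φ ∧
      SsgnModPoly ↥(s18dVal 𝔸 E) (modularFunctionFieldFullC E (M * q * q))
        (sqvmJq E M q) (sqvmY E M q) q Φ ∧
      SsgnModPoly ↥(s18dVal 𝔸 E) (modularFunctionFieldFullC E (M * q * q))
        (sqvmJq E M q) (ssvmdJ E (M * q * q)) q Φ := by
  obtain ⟨Φ, MP⟩ := ssgcl_modPoly_over q 𝔸 hA E
  refine ⟨Φ, ssgn_modPoly_F 𝔸 E (M * q) q MP, ?_, ?_⟩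
  · -- `Φ(j_q, j_qq) = 0` : the `𝐪 ↦ 𝐪^q` image of the equation
    have h1 := MP.map (ssgnExp 𝔸 E q)
    rw [ssgnExp_apply, ssgnExp_apply, qExpand_qExpand] at h1
    exact SsgnModPoly.of_map (ssgnVal 𝔸 E (M * q * q)) (ssgnVal_injective 𝔸 E (M * q * q)) h1
  · -- `Φ(j_q, j) = 0` : the Atkin-Lehner involution, then the inclusion
    have MP' : SsgnModPoly ↥(s18dVal 𝔸 E) (modularFunctionFieldFullC E (M * q))
        (ssvmdJ E (M * q)) (ssvmmY E M q) q Φ := ssgn_modPoly_F 𝔸 E M q MP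
    obtain ⟨w, hwα, hwβ, -, hwc⟩ := ssvma_exists_w E M hqM
    let wA : modularFunctionFieldFullC E (M * q) →ₐ[↥(s18dVal 𝔸 E)]
        modularFunctionFieldFullC E (M * q) :=
      { (w : modularFunctionFieldFullC E (M * q) →+* modularFunctionFieldFullC E (M * q)) with
        commutes' := fun a => by
          show w (algebraMap ↥(s18dVal 𝔸 E) ↥(modularFunctionFieldFullC E (M * q)) a) = _
          rw [IsScalarTower.algebraMap_apply ↥(s18dVal 𝔸 E) E (modularFunctionFieldFullC E (M * q))]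
          exact hwc _ }
    have h1 := MP'.map wA
    have e1 : wA (ssvmdJ E (M * q)) = ssvmmY E M q := by
      show w (ssvmdJ E (M * q)) = _
      rw [← sqccj_incl₁_J, hwα, sqccj_phi₁_J]
    have e2 : wA (ssvmmY E M q) = ssvmdJ E (M * q) := by
      show w (ssvmmY E M q) = _
      rw [← sqccj_phi₁_J, hwβ, sqccj_incl₁_J]
    rw [e1, e2] at h1
    have h2 := h1.map ((ssvmdIncl E (M * q) q).restrictScalars ↥(s18dVal 𝔸 E))
    rw [AlgHom.restrictScalars_apply, AlgHom.restrictScalars_apply, sqvm_incl_Y, sqvm_incl_J] at h2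
    exact h2

end Tower

/-! ### the congruences on the three components -/

section Cong

variable {q : ℕ} [Fact q.Prime] [NeZero q] (𝔸 : ValuationSubring Qb) (E : IntermediateField ℚ Qb)
  [IsDiscreteValuationRing ↥(s18dVal 𝔸 E)] [CharZero ↥(s18dVal 𝔸 E)] (M : ℕ) [NeZero M]
variable {W₁ W₂ : ValuationSubring (modularFunctionFieldFullC E (M * q))}
  {V₁ V₂ V₃ : ValuationSubring (modularFunctionFieldFullC E (M * q * q))}
  {ϖE : E} {π₂ : modularFunctionFieldFullC E (M * q * q)}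

set_option maxHeartbeats 1000000 in
/-- **the six congruences** from the positions of (VAL²) and the two level-`q` congruences :
on `V₁` : `j_q ≡ j^q`, `j_qq ≡ j_q^q`; on `V₂` : `j_q ≡ j^q`, `j_qq^q ≡ j_q`, `j_qq ≡ j`;
on `V₃` : `j_q^q ≡ j`. -/
theorem sqccj_cong
    (val : SqniVal (algebraMap E (modularFunctionFieldFullC E (M * q)))
      (ssvmdIncl E (M * q) q).toRingHom (ssvmfPhi E (M * q) q) (s18dVal 𝔸 E) W₁ W₂
      V₁ V₂ V₃ ϖE π₂ q)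
    (hu₁ : ssvmmY E M q - ssvmdJ E (M * q) ^ q ∈ W₁.nonunits)
    (hu₂ : ssvmmY E M q ^ q - ssvmdJ E (M * q) ∈ W₂.nonunits)
    (hJ₁ : ssvmdJ E (M * q) ∈ W₁) (hY₂ : ssvmmY E M q ∈ W₂) :
    (sqvmJq E M q - ssvmdJ E (M * q * q) ^ q ∈ V₁.nonunits ∧
      sqvmY E M q - sqvmJq E M q ^ q ∈ V₁.nonunits) ∧
    (sqvmJq E M q - ssvmdJ E (M * q * q) ^ q ∈ V₂.nonunits ∧
      sqvmY E M q ^ q - sqvmJq E M q ∈ V₂.nonunits ∧
      sqvmY E M q - ssvmdJ E (M * q * q) ∈ V₂.nonunits) ∧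
    sqvmJq E M q ^ q - ssvmdJ E (M * q * q) ∈ V₃.nonunits := by
  have hq : q.Prime := Fact.out
  have eα₁ : (ssvmdIncl E (M * q) q).toRingHom (ssvmmY E M q - ssvmdJ E (M * q) ^ q) =
      sqvmJq E M q - ssvmdJ E (M * q * q) ^ q := by
    rw [map_sub, map_pow]
    show ssvmdIncl E (M * q) q (ssvmmY E M q) - ssvmdIncl E (M * q) q (ssvmdJ E (M * q)) ^ q = _
    rw [sqvm_incl_Y, sqvm_incl_J]
  have eα₂ : (ssvmdIncl E (M * q) q).toRingHom (ssvmmY E M q ^ q - ssvmdJ E (M * q)) =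
      sqvmJq E M q ^ q - ssvmdJ E (M * q * q) := by
    rw [map_sub, map_pow]
    show ssvmdIncl E (M * q) q (ssvmmY E M q) ^ q - ssvmdIncl E (M * q) q (ssvmdJ E (M * q)) = _
    rw [sqvm_incl_Y, sqvm_incl_J]
  have eφ₁ : ssvmfPhi E (M * q) q (ssvmmY E M q - ssvmdJ E (M * q) ^ q) =
      sqvmY E M q - sqvmJq E M q ^ q := by
    rw [map_sub, map_pow, sqccj_phi_Y, sqccj_phi_J]
  have eφ₂ : ssvmfPhi E (M * q) q (ssvmmY E M q ^ q - ssvmdJ E (M * q)) =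
      sqvmY E M q ^ q - sqvmJq E M q := by
    rw [map_sub, map_pow, sqccj_phi_Y, sqccj_phi_J]
  have hy₁ := (sqni_nonunits_iff val.posα₁ _).mpr hu₁
  have hy₂ := (sqni_nonunits_iff val.posα₂ _).mpr hu₁
  have hz₁ := (sqni_nonunits_iff val.posφ₁ _).mpr hu₁
  have hz₂ := (sqni_nonunits_iff val.posφ₂ _).mpr hu₂
  have hy₃ := (sqni_nonunits_iff val.posα₃ _).mpr hu₂
  rw [eα₁] at hy₁ hy₂
  rw [eφ₁] at hz₁
  rw [eφ₂] at hz₂
  rw [eα₂] at hy₃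
  refine ⟨⟨hy₁, hz₁⟩, ⟨hy₂, hz₂, ?_⟩, hy₃⟩
  -- `j_qq ≡ j` on `V₂` : `j_qq^q ≡ j_q ≡ j^q` and the residue characteristic is `q`
  have hqV : ((q : ℕ) : modularFunctionFieldFullC E (M * q * q)) ∈ V₂.nonunits := by
    have h1 := (sqni_nonunits_iff val.posα₂ _).mpr
      ((sqni_nonunits_iff val.overW₁ _).mpr val.q_mem)
    rwa [map_natCast, map_natCast] at h1
  have hT : ssvmdJ E (M * q * q) ∈ V₂ := by
    have h1 := (sqni_mem_iff val.posα₂ _).mpr hJ₁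
    have e : (ssvmdIncl E (M * q) q).toRingHom (ssvmdJ E (M * q)) = ssvmdJ E (M * q * q) :=
      sqvm_incl_J E M q
    rwa [e] at h1
  have hZ : sqvmY E M q ∈ V₂ := by
    have h1 := (sqni_mem_iff val.posφ₂ _).mpr hY₂
    rwa [sqccj_phi_Y] at h1
  refine sqgcp_sub_of_pow hq hqV hZ hT ?_
  have e : sqvmY E M q ^ q - ssvmdJ E (M * q * q) ^ q =
      (sqvmY E M q ^ q - sqvmJq E M q) + (sqvmJq E M q - ssvmdJ E (M * q * q) ^ q) := by ring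
  rw [e]
  exact ssgr_nu_add V₂ hz₂ hy₂

end Cong

/-! ### the function `G₀ = - (q/ϖ) α(g)` and the inputs of `sqgcz_T2`, for every prime `q` -/

section G0

variable {q : ℕ} [Fact q.Prime] [NeZero q] (𝔸 : ValuationSubring Qb) (E : IntermediateField ℚ Qb)
  [IsDiscreteValuationRing ↥(s18dVal 𝔸 E)] [CharZero ↥(s18dVal 𝔸 E)] (M : ℕ) [NeZero M]

/-- **`G₀ = - (q/ϖ) · α(g)`**, `g = (1/q) dj_q/dj ∈ F_E(M q)` -/
def sqccjG0 (ϖ : ↥(s18dVal 𝔸 E)) : modularFunctionFieldFullC E (M * q * q) :=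
  -(((q : ℕ) : modularFunctionFieldFullC E (M * q * q)) *
    (algebraMap ↥(s18dVal 𝔸 E) ↥(modularFunctionFieldFullC E (M * q * q)) ϖ)⁻¹ *
      ssvmdIncl E (M * q) q (sqgvG E M q))

variable {ϖ : ↥(s18dVal 𝔸 E)}

/-- the constant `q/ϖ` of `G₀` comes from `E` -/
theorem sqccj_const (hϖ : Irreducible ϖ) :
    ∃ cE : E, cE ≠ 0 ∧ algebraMap E (modularFunctionFieldFullC E (M * q * q)) cE =
      ((q : ℕ) : modularFunctionFieldFullC E (M * q * q)) *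
        (algebraMap ↥(s18dVal 𝔸 E) ↥(modularFunctionFieldFullC E (M * q * q)) ϖ)⁻¹ := by
  refine ⟨((q : ℕ) : E) * (algebraMap ↥(s18dVal 𝔸 E) E ϖ)⁻¹, ?_, ?_⟩
  · refine mul_ne_zero (Nat.cast_ne_zero.mpr (Fact.out : q.Prime).ne_zero) (inv_ne_zero ?_)
    exact (map_ne_zero_iff _ (IsFractionRing.injective ↥(s18dVal 𝔸 E) E)).mpr hϖ.ne_zero
  · rw [map_mul, map_natCast, map_inv₀,
      ← IsScalarTower.algebraMap_apply ↥(s18dVal 𝔸 E) E (modularFunctionFieldFullC E (M * q * q))]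

set_option maxHeartbeats 2000000 in
/-- **(hfin)** : `G₀` is a unit at the NON-CUSPIDAL horizontal places through a cusp point of the
chart `j⁻¹` of `F_E(M q q)`. -/
theorem sqccj_G0_fin (hA : 𝔸.LiesOverPrime q) (hqM : ¬ q ∣ M) (hϖ : Irreducible ϖ)
    (𝔫 : Ideal ↥(s18tInt ↥(s18dVal 𝔸 E) (ssdJ E (M * q * q))⁻¹)) [h𝔫 : 𝔫.IsPrime]
    (hcusp : ssglTinv (A := ↥(s18dVal 𝔸 E)) (ssdJ E (M * q * q)) ∈ 𝔫)
    (W : ValuationSubring (modularFunctionFieldFullC E (M * q * q))) (hW : S18IsPlace E W)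
    (hQ : s18tInt ↥(s18dVal 𝔸 E) (ssdJ E (M * q * q))⁻¹ ≤ W.toSubring)
    (hc : sskCentre (ssdJ E (M * q * q))⁻¹ W ⊆
      (𝔫 : Set ↥(s18tInt ↥(s18dVal 𝔸 E) (ssdJ E (M * q * q))⁻¹)))
    (htW : ssdJ E (M * q * q) ∈ W) :
    sqccjG0 𝔸 E M ϖ ∈ W ∧ (sqccjG0 𝔸 E M ϖ)⁻¹ ∈ W := by
  have hqp : q.Prime := Fact.out
  obtain ⟨Φ, MP₁, MP₂, -⟩ := sqccj_modPoly 𝔸 E M hA hqM
  have htT : Transcendental E (ssdJ E (M * q * q)) := ssd_transcendental_j E (M * q * q)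
  have hT0 : ssdJ E (M * q * q) ≠ 0 := fun h0 => htT (by rw [h0]; exact isAlgebraic_zero)
  have hJ0 : ssvmdJ E (M * q) ≠ 0 := fun h0 =>
    ssd_transcendental_j E (M * q) (by
      have : ssdJ E (M * q) = 0 := h0
      rw [this]; exact isAlgebraic_zero)
  have hY0 : sqvmJq E M q ≠ 0 := by
    rw [← sqccj_phi_J]
    exact (_root_.map_ne_zero _).mpr hJ0
  have hZ0 : sqvmY E M q ≠ 0 := by
    rw [← sqccj_phi_Y, ← sqccj_phi₁_J]
    refine (_root_.map_ne_zero _).mpr ((_root_.map_ne_zero _).mpr fun h0 =>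
      ssd_transcendental_j E M ?_)
    rw [h0]; exact isAlgebraic_zero
  have hαL : ∀ c : E, (ssvmdIncl E (M * q) q).toRingHom
      (algebraMap E (modularFunctionFieldFullC E (M * q)) c) =
      algebraMap E (modularFunctionFieldFullC E (M * q * q)) c :=
    fun c => (ssvmdIncl E (M * q) q).commutes c
  have hint := sqccj_incl_isIntegral E (M * q) q
  have hαJ : (ssvmdIncl E (M * q) q).toRingHom (ssvmdJ E (M * q)) = ssdJ E (M * q * q) := by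
    show _ = ssvmdJ E (M * q * q)
    exact sqvm_incl_J E M q
  have hαY : (ssvmdIncl E (M * q) q).toRingHom (ssvmmY E M q) = sqvmJq E M q := sqvm_incl_Y E M q
  obtain ⟨⟨htinv, ht1⟩, ⟨hyW, hyinv, hy1⟩, -⟩ :=
    sqgcz_hor_fin_mem hQ hc hcusp hqp.one_le MP₁ MP₂ hT0 hY0 hZ0 htW (1728 : ↥(s18dVal 𝔸 E))
  have e1728 : algebraMap ↥(s18dVal 𝔸 E) ↥(modularFunctionFieldFullC E (M * q * q))
      (1728 : ↥(s18dVal 𝔸 E)) = 1728 := map_ofNat _ 1728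
  rw [e1728] at ht1 hy1
  have hW' := sqgk_comap_isPlace (ssvmdIncl E (M * q) q).toRingHom hαL hint W hW
  obtain ⟨hg1, hg2⟩ := sqccj_G_unit 𝔸 E M hA hqM
    (W.comap (ssvmdIncl E (M * q) q).toRingHom) hW'
    (by rw [ValuationSubring.mem_comap, hαJ]; exact htW)
    (by rw [ValuationSubring.mem_comap, map_inv₀, hαJ]; exact htinv)
    (by rw [ValuationSubring.mem_comap, map_inv₀, map_sub, hαJ, map_ofNat]; exact ht1)
    (by rw [ValuationSubring.mem_comap, hαY]; exact hyW)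
    (by rw [ValuationSubring.mem_comap, map_inv₀, hαY]; exact hyinv)
    (by rw [ValuationSubring.mem_comap, map_inv₀, map_sub, hαY, map_ofNat]; exact hy1)
  rw [ValuationSubring.mem_comap] at hg1
  rw [ValuationSubring.mem_comap, map_inv₀] at hg2
  obtain ⟨cE, hcE0, hcEF⟩ := sqccj_const (q := q) 𝔸 E M hϖ
  have hcW : ((q : ℕ) : modularFunctionFieldFullC E (M * q * q)) *
      (algebraMap ↥(s18dVal 𝔸 E) ↥(modularFunctionFieldFullC E (M * q * q)) ϖ)⁻¹ ∈ W := by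
    rw [← hcEF]; exact hW.2 cE
  have hciW : (((q : ℕ) : modularFunctionFieldFullC E (M * q * q)) *
      (algebraMap ↥(s18dVal 𝔸 E) ↥(modularFunctionFieldFullC E (M * q * q)) ϖ)⁻¹)⁻¹ ∈ W := by
    rw [← hcEF, ← map_inv₀]; exact hW.2 cE⁻¹
  constructor
  · unfold sqccjG0
    exact W.neg_mem _ (W.mul_mem _ _ hcW hg1)
  · unfold sqccjG0
    rw [inv_neg, mul_inv]
    exact W.neg_mem _ (W.mul_mem _ _ hciW hg2)

set_option maxHeartbeats 2000000 in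
/-- **(hcsp)** : `v G₀ = (v j)^(q - 1)` at the CUSPIDAL horizontal places through a point of the
chart `j⁻¹` lying on a component `V₂` on which `j_q ≡ j^q`. -/
theorem sqccj_G0_csp (hA : 𝔸.LiesOverPrime q) (hqM : ¬ q ∣ M) (hϖ : Irreducible ϖ)
    (𝔫 : Ideal ↥(s18tInt ↥(s18dVal 𝔸 E) (ssdJ E (M * q * q))⁻¹)) [h𝔫 : 𝔫.IsPrime]
    (V₂ : ValuationSubring (modularFunctionFieldFullC E (M * q * q)))
    (hQ₂ : ∀ x ∈ s18tInt ↥(s18dVal 𝔸 E) (ssdJ E (M * q * q))⁻¹, x ∈ V₂)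
    (hy₂ : sqvmJq E M q - ssdJ E (M * q * q) ^ q ∈ V₂.nonunits)
    (hon : SqtOn V₂ (ssdJ E (M * q * q))⁻¹ 𝔫)
    (W : ValuationSubring (modularFunctionFieldFullC E (M * q * q))) (hW : S18IsPlace E W)
    (hQ : s18tInt ↥(s18dVal 𝔸 E) (ssdJ E (M * q * q))⁻¹ ≤ W.toSubring)
    (hc : sskCentre (ssdJ E (M * q * q))⁻¹ W ⊆
      (𝔫 : Set ↥(s18tInt ↥(s18dVal 𝔸 E) (ssdJ E (M * q * q))⁻¹)))
    (htW : ssdJ E (M * q * q) ∉ W) :
    W.valuation (sqccjG0 𝔸 E M ϖ) = W.valuation (ssdJ E (M * q * q)) ^ (q - 1) := by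
  have hqp : q.Prime := Fact.out
  obtain ⟨Φ, MP₁, -, -⟩ := sqccj_modPoly 𝔸 E M hA hqM
  have htT : Transcendental E (ssdJ E (M * q * q)) := ssd_transcendental_j E (M * q * q)
  have hT0 : ssdJ E (M * q * q) ≠ 0 := fun h0 => htT (by rw [h0]; exact isAlgebraic_zero)
  have hαJ : (ssvmdIncl E (M * q) q).toRingHom (ssvmdJ E (M * q)) = ssdJ E (M * q * q) := by
    show _ = ssvmdJ E (M * q * q)
    exact sqvm_incl_J E M q
  have hαY : (ssvmdIncl E (M * q) q).toRingHom (ssvmmY E M q) = sqvmJq E M q := sqvm_incl_Y E M q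
  have hbr := sqccj_branch 𝔫 hQ hc MP₁ hqp.one_le hT0 V₂ hQ₂ hy₂ hon
  have h1 : 1 < W.valuation (ssdJ E (M * q * q)) :=
    not_le.mp fun hle => htW ((W.valuation_le_one_iff _).mp hle)
  have hv := sqccj_G_val 𝔸 E M hA (W.valuation.comap (ssvmdIncl E (M * q) q).toRingHom)
    (fun a => by
      rw [Valuation.comap_apply]
      have e : (ssvmdIncl E (M * q) q).toRingHom
          (algebraMap ↥(s18dVal 𝔸 E) ↥(modularFunctionFieldFullC E (M * q)) a) =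
          algebraMap ↥(s18dVal 𝔸 E) ↥(modularFunctionFieldFullC E (M * q * q)) a :=
        sqgct_incl_algebraMap 𝔸 E M a
      rw [e]
      exact sqgcz_hA (t := ssdJ E (M * q * q)) hQ a)
    (by
      rw [Valuation.comap_apply, map_natCast]
      have : ((q : ℕ) : modularFunctionFieldFullC E (M * q * q)) =
          algebraMap ↥(s18dVal 𝔸 E) ↥(modularFunctionFieldFullC E (M * q * q))
            ((q : ℕ) : ↥(s18dVal 𝔸 E)) := (map_natCast _ q).symm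
      rw [this]
      exact ssl_val_constA hW (Nat.cast_ne_zero.mpr hqp.ne_zero))
    (by rw [Valuation.comap_apply, hαJ]; exact h1)
    (by rw [Valuation.comap_apply, Valuation.comap_apply, hαJ, hαY]; exact hbr)
  rw [Valuation.comap_apply, Valuation.comap_apply, hαJ] at hv
  obtain ⟨cE, hcE0, hcEF⟩ := sqccj_const (q := q) 𝔸 E M hϖ
  have hvc : W.valuation (((q : ℕ) : modularFunctionFieldFullC E (M * q * q)) *
      (algebraMap ↥(s18dVal 𝔸 E) ↥(modularFunctionFieldFullC E (M * q * q)) ϖ)⁻¹) = 1 := by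
    rw [← hcEF]; exact ssl_val_const hW hcE0
  unfold sqccjG0
  rw [Valuation.map_neg, map_mul, hvc, one_mul]
  exact hv

variable {Ξ G : (↥(ssvmmR 𝔸 E M q))[X]}
  (h : SsvAmb (ssvmmR 𝔸 E M q) (ssvmgRUnif (ssvmm_le E M q) ϖ) (ssvmmY E M q) Ξ
    (X - C (ssvmmJ 𝔸 E M q ^ q)) (X ^ q - C (ssvmmJ 𝔸 E M q)) G)

set_option maxHeartbeats 2000000 in
/-- **THE VERTICAL INPUTS OF `sqgcz_T2` ON `V₂`, FOR EVERY PRIME `q`** : for a valuation subring `V₂`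
of `F_E(M q q)` lying over `W₁ = h.V₁` along `α` and over `W₂ = h.V₂` along `φ` (no chart, no
`SqvThree`) : the three congruences and (T2-cong) `(j_qq - j)^(q-1)/ϖ ≡ G₀`. -/
theorem sqccj_T2_vert (hA : 𝔸.LiesOverPrime q) (hqM : ¬ q ∣ M) (hϖ : Irreducible ϖ)
    (hu₁ : ssvmmY E M q - ssvmdJ E (M * q) ^ q ∈ h.V₁.nonunits)
    (hu₂ : ssvmmY E M q ^ q - ssvmdJ E (M * q) ∈ h.V₂.nonunits)
    (hϖ₁ : algebraMap ↥(s18dVal 𝔸 E) ↥(modularFunctionFieldFullC E (M * q)) ϖ ∈ h.V₁.nonunits)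
    (V₂ : ValuationSubring (modularFunctionFieldFullC E (M * q * q)))
    (hposα : V₂.comap (ssvmdIncl E (M * q) q).toRingHom = h.V₁)
    (hposφ : V₂.comap (ssvmfPhi E (M * q) q) = h.V₂) :
    (sqvmJq E M q - ssdJ E (M * q * q) ^ q ∈ V₂.nonunits ∧
      sqvmY E M q ^ q - sqvmJq E M q ∈ V₂.nonunits ∧
      sqvmY E M q - ssdJ E (M * q * q) ∈ V₂.nonunits) ∧
    (sqvmY E M q - ssdJ E (M * q * q)) ^ (q - 1) *
      (algebraMap ↥(s18dVal 𝔸 E) ↥(modularFunctionFieldFullC E (M * q * q)) ϖ)⁻¹ -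
        sqccjG0 𝔸 E M ϖ ∈ V₂.nonunits := by
  have hqp : q.Prime := Fact.out
  have hTJ : ssvmdJ E (M * q * q) = ssdJ E (M * q * q) := rfl
  -- the Gauss ring of `F_E(M q)` is `h.V₁`
  have hV₁ := ssvma_V₁_eq 𝔸 E M hA hϖ Ξ G h
  have hWV : ∀ x ∈ s18vO ↥(s18dVal 𝔸 E) (modularFunctionFieldFullC E (M * q)),
      ssvmdIncl E (M * q) q x ∈ V₂ := by
    intro x hx
    have h1 : x ∈ h.V₁ := by rw [hV₁]; exact hx
    exact (sqni_mem_iff hposα x).mpr h1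
  have hJ₁ : ssvmdJ E (M * q) ∈ h.V₁ := by rw [hV₁]; exact sqgct_J_mem 𝔸 E M hϖ
  have hY₂ : ssvmmY E M q ∈ h.V₂ := by
    have h1 : ssvmfPhi E M q (ssvmdJ E M) ∈ h.V₂ :=
      ssvmf_phi_mem₂ 𝔸 E M hA hqM hϖ Ξ G h _ (ssvma_j_mem 𝔸 E M).1
    have e : ssvmfPhi E M q (ssvmdJ E M) = ssvmmY E M q := Subtype.ext rfl
    rwa [e] at h1
  have hϖV : algebraMap ↥(s18dVal 𝔸 E) ↥(modularFunctionFieldFullC E (M * q * q)) ϖ ∈
      V₂.nonunits := by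
    have h2 := (sqni_nonunits_iff hposα _).mpr hϖ₁
    have e : (ssvmdIncl E (M * q) q).toRingHom
        (algebraMap ↥(s18dVal 𝔸 E) ↥(modularFunctionFieldFullC E (M * q)) ϖ) =
        algebraMap ↥(s18dVal 𝔸 E) ↥(modularFunctionFieldFullC E (M * q * q)) ϖ :=
      sqgct_incl_algebraMap 𝔸 E M ϖ
    rwa [e] at h2
  have hqV : ((q : ℕ) : modularFunctionFieldFullC E (M * q * q)) ∈ V₂.nonunits := by
    have hqm := s18d_natCast_mem 𝔸 E hA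
    rw [hϖ.maximalIdeal_eq, Ideal.mem_span_singleton'] at hqm
    obtain ⟨c₀, hc₀'⟩ := hqm
    have hc₀ : ((q : ℕ) : ↥(s18dVal 𝔸 E)) = ϖ * c₀ := by rw [← hc₀', mul_comm]
    have e : ((q : ℕ) : modularFunctionFieldFullC E (M * q * q)) =
        algebraMap ↥(s18dVal 𝔸 E) ↥(modularFunctionFieldFullC E (M * q * q)) ϖ *
          ssvmdIncl E (M * q) q
            (algebraMap ↥(s18dVal 𝔸 E) ↥(modularFunctionFieldFullC E (M * q)) c₀) := by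
      rw [sqgct_incl_algebraMap, ← map_mul, ← hc₀, map_natCast]
    rw [e]
    exact sqgct_nonunits_mul V₂ hϖV (hWV _ (s18vg_algebraMap_mem _ c₀))
  -- the congruences
  have eα₁ : (ssvmdIncl E (M * q) q).toRingHom (ssvmmY E M q - ssvmdJ E (M * q) ^ q) =
      sqvmJq E M q - ssdJ E (M * q * q) ^ q := by
    rw [map_sub, map_pow]
    show ssvmdIncl E (M * q) q (ssvmmY E M q) - ssvmdIncl E (M * q) q (ssvmdJ E (M * q)) ^ q = _
    rw [sqvm_incl_Y, sqvm_incl_J]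
    rfl
  have eφ₂ : ssvmfPhi E (M * q) q (ssvmmY E M q ^ q - ssvmdJ E (M * q)) =
      sqvmY E M q ^ q - sqvmJq E M q := by
    rw [map_sub, map_pow, sqccj_phi_Y, sqccj_phi_J]
  have hy₂ := (sqni_nonunits_iff hposα _).mpr hu₁
  have hz₂ := (sqni_nonunits_iff hposφ _).mpr hu₂
  rw [eα₁] at hy₂
  rw [eφ₂] at hz₂
  have hT : ssdJ E (M * q * q) ∈ V₂ := by
    have h1 := (sqni_mem_iff hposα _).mpr hJ₁
    have e : (ssvmdIncl E (M * q) q).toRingHom (ssvmdJ E (M * q)) = ssvmdJ E (M * q * q) :=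
      sqvm_incl_J E M q
    rwa [e] at h1
  have hZ : sqvmY E M q ∈ V₂ := by
    have h1 := (sqni_mem_iff hposφ _).mpr hY₂
    rwa [sqccj_phi_Y] at h1
  have hzt₂ : sqvmY E M q - ssdJ E (M * q * q) ∈ V₂.nonunits := by
    refine sqgcp_sub_of_pow hqp hqV hZ hT ?_
    have e : sqvmY E M q ^ q - ssdJ E (M * q * q) ^ q =
        (sqvmY E M q ^ q - sqvmJq E M q) + (sqvmJq E M q - ssdJ E (M * q * q) ^ q) := by ring
    rw [e]
    exact ssgr_nu_add V₂ hz₂ hy₂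
  refine ⟨⟨hy₂, hz₂, hzt₂⟩, ?_⟩
  · have h1 := sqgct_main 𝔸 E M hA hϖ V₂ hWV hϖV hzt₂
    have e : (sqvmY E M q - ssdJ E (M * q * q)) ^ (q - 1) *
        (algebraMap ↥(s18dVal 𝔸 E) ↥(modularFunctionFieldFullC E (M * q * q)) ϖ)⁻¹ -
          sqccjG0 𝔸 E M ϖ =
        (sqvmY E M q - ssvmdJ E (M * q * q)) ^ (q - 1) *
        (algebraMap ↥(s18dVal 𝔸 E) ↥(modularFunctionFieldFullC E (M * q * q)) ϖ)⁻¹ +
      ((q : ℕ) : ↥(modularFunctionFieldFullC E (M * q * q))) *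
        (algebraMap ↥(s18dVal 𝔸 E) ↥(modularFunctionFieldFullC E (M * q * q)) ϖ)⁻¹ *
          ssvmdIncl E (M * q) q (sqgvG E M q) := by
      unfold sqccjG0
      rw [hTJ]; ring
    rw [e]
    exact h1

set_option maxHeartbeats 2000000 in
/-- **`V₂(j_qq - j)^(q-1) = V₂(ϖ)`** when `q = ϖ c₀` with `c₀` a unit of `A₀` (`E` unramified at `𝔸`),
for `V₂` as in `sqccj_T2_vert`. -/
theorem sqccj_T2_pow (hA : 𝔸.LiesOverPrime q) (hqM : ¬ q ∣ M) (hϖ : Irreducible ϖ)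
    (c₀ c₁ : ↥(s18dVal 𝔸 E)) (hc₀ : ((q : ℕ) : ↥(s18dVal 𝔸 E)) = ϖ * c₀) (hc₁ : c₀ * c₁ = 1)
    (hu₁ : ssvmmY E M q - ssvmdJ E (M * q) ^ q ∈ h.V₁.nonunits)
    (hu₂ : ssvmmY E M q ^ q - ssvmdJ E (M * q) ∈ h.V₂.nonunits)
    (hϖ₁ : algebraMap ↥(s18dVal 𝔸 E) ↥(modularFunctionFieldFullC E (M * q)) ϖ ∈ h.V₁.nonunits)
    (V₂ : ValuationSubring (modularFunctionFieldFullC E (M * q * q)))
    (hposα : V₂.comap (ssvmdIncl E (M * q) q).toRingHom = h.V₁)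
    (hposφ : V₂.comap (ssvmfPhi E (M * q) q) = h.V₂) :
    V₂.valuation (sqvmY E M q - ssdJ E (M * q * q)) ^ (q - 1) =
      V₂.valuation (algebraMap ↥(s18dVal 𝔸 E) ↥(modularFunctionFieldFullC E (M * q * q)) ϖ) := by
  have hTJ : ssvmdJ E (M * q * q) = ssdJ E (M * q * q) := rfl
  obtain ⟨⟨-, -, hzt₂⟩, -⟩ := sqccj_T2_vert 𝔸 E M h hA hqM hϖ hu₁ hu₂ hϖ₁ V₂ hposα hposφ
  have hV₁ := ssvma_V₁_eq 𝔸 E M hA hϖ Ξ G h
  have hWV : ∀ x ∈ s18vO ↥(s18dVal 𝔸 E) (modularFunctionFieldFullC E (M * q)),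
      ssvmdIncl E (M * q) q x ∈ V₂ := by
    intro x hx
    have h1 : x ∈ h.V₁ := by rw [hV₁]; exact hx
    exact (sqni_mem_iff hposα x).mpr h1
  have hϖV : algebraMap ↥(s18dVal 𝔸 E) ↥(modularFunctionFieldFullC E (M * q * q)) ϖ ∈
      V₂.nonunits := by
    have h2 := (sqni_nonunits_iff hposα _).mpr hϖ₁
    have e : (ssvmdIncl E (M * q) q).toRingHom
        (algebraMap ↥(s18dVal 𝔸 E) ↥(modularFunctionFieldFullC E (M * q)) ϖ) =
        algebraMap ↥(s18dVal 𝔸 E) ↥(modularFunctionFieldFullC E (M * q * q)) ϖ :=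
      sqgct_incl_algebraMap 𝔸 E M ϖ
    rwa [e] at h2
  have h1 := sqgct_val_U 𝔸 E M hA hϖ c₀ c₁ hc₀ hc₁ V₂ hWV hϖV hzt₂
  rw [hTJ, map_mul, map_pow, map_inv₀] at h1
  have hϖ0 : V₂.valuation
      (algebraMap ↥(s18dVal 𝔸 E) ↥(modularFunctionFieldFullC E (M * q * q)) ϖ) ≠ 0 := by
    intro h0
    rw [h0, inv_zero, mul_zero] at h1
    exact zero_ne_one h1
  exact (mul_inv_eq_one₀ hϖ0).mp h1

set_option maxHeartbeats 2000000 in
/-- **ALL THE CONCRETE INPUTS OF `sqgcz_T2` IN THE CHART `j⁻¹`, FOR EVERY PRIME `q`**, for a valuation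
subring `V₂ ⊇ s18tInt A₀ j⁻¹` of `F_E(M q q)` over `h.V₁` along `α` and over `h.V₂` along `φ` (no
`SqvThree` for the chart `j`) : `t = j`, `y = j_q = sqvmJq`, `z = j_qq = sqvmY`,
`G₀ = sqccjG0 𝔸 E M ϖ`. -/
theorem sqccj_T2_inputs (hA : 𝔸.LiesOverPrime q) (hqM : ¬ q ∣ M) (hϖ : Irreducible ϖ)
    (c₀ c₁ : ↥(s18dVal 𝔸 E)) (hc₀ : ((q : ℕ) : ↥(s18dVal 𝔸 E)) = ϖ * c₀) (hc₁ : c₀ * c₁ = 1)
    (hu₁ : ssvmmY E M q - ssvmdJ E (M * q) ^ q ∈ h.V₁.nonunits)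
    (hu₂ : ssvmmY E M q ^ q - ssvmdJ E (M * q) ∈ h.V₂.nonunits)
    (hϖ₁ : algebraMap ↥(s18dVal 𝔸 E) ↥(modularFunctionFieldFullC E (M * q)) ϖ ∈ h.V₁.nonunits)
    (V₂ : ValuationSubring (modularFunctionFieldFullC E (M * q * q)))
    (hposα : V₂.comap (ssvmdIncl E (M * q) q).toRingHom = h.V₁)
    (hposφ : V₂.comap (ssvmfPhi E (M * q) q) = h.V₂)
    (hQ₂ : ∀ x ∈ s18tInt ↥(s18dVal 𝔸 E) (ssdJ E (M * q * q))⁻¹, x ∈ V₂) :
    ∃ Φ : (↥(s18dVal 𝔸 E))[X][X],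
      SsgnModPoly ↥(s18dVal 𝔸 E) (modularFunctionFieldFullC E (M * q * q))
        (ssdJ E (M * q * q)) (sqvmJq E M q) q Φ ∧
      SsgnModPoly ↥(s18dVal 𝔸 E) (modularFunctionFieldFullC E (M * q * q))
        (sqvmJq E M q) (sqvmY E M q) q Φ ∧
      SsgnModPoly ↥(s18dVal 𝔸 E) (modularFunctionFieldFullC E (M * q * q))
        (sqvmJq E M q) (ssdJ E (M * q * q)) q Φ ∧
      sqvmY E M q ≠ ssdJ E (M * q * q) ∧
      sqvmJq E M q - ssdJ E (M * q * q) ^ q ∈ V₂.nonunits ∧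
      sqvmY E M q ^ q - sqvmJq E M q ∈ V₂.nonunits ∧
      sqvmY E M q - ssdJ E (M * q * q) ∈ V₂.nonunits ∧
      V₂.valuation (sqvmY E M q - ssdJ E (M * q * q)) ^ (q - 1) =
        V₂.valuation (algebraMap ↥(s18dVal 𝔸 E) ↥(modularFunctionFieldFullC E (M * q * q)) ϖ) ∧
      (sqvmY E M q - ssdJ E (M * q * q)) ^ (q - 1) *
        (algebraMap ↥(s18dVal 𝔸 E) ↥(modularFunctionFieldFullC E (M * q * q)) ϖ)⁻¹ -
          sqccjG0 𝔸 E M ϖ ∈ V₂.nonunits ∧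
      (∀ 𝔫 : Ideal ↥(s18tInt ↥(s18dVal 𝔸 E) (ssdJ E (M * q * q))⁻¹), 𝔫.IsMaximal →
        ssglTinv (A := ↥(s18dVal 𝔸 E)) (ssdJ E (M * q * q)) ∈ 𝔫 →
        ∀ W : ValuationSubring (modularFunctionFieldFullC E (M * q * q)), S18IsPlace E W →
        s18tInt ↥(s18dVal 𝔸 E) (ssdJ E (M * q * q))⁻¹ ≤ W.toSubring →
        sskCentre (ssdJ E (M * q * q))⁻¹ W ⊆
          (𝔫 : Set ↥(s18tInt ↥(s18dVal 𝔸 E) (ssdJ E (M * q * q))⁻¹)) →
        ssdJ E (M * q * q) ∈ W → sqccjG0 𝔸 E M ϖ ∈ W ∧ (sqccjG0 𝔸 E M ϖ)⁻¹ ∈ W) ∧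
      (∀ 𝔫 : Ideal ↥(s18tInt ↥(s18dVal 𝔸 E) (ssdJ E (M * q * q))⁻¹), 𝔫.IsMaximal →
        SqtOn V₂ (ssdJ E (M * q * q))⁻¹ 𝔫 →
        ∀ W : ValuationSubring (modularFunctionFieldFullC E (M * q * q)), S18IsPlace E W →
        s18tInt ↥(s18dVal 𝔸 E) (ssdJ E (M * q * q))⁻¹ ≤ W.toSubring →
        sskCentre (ssdJ E (M * q * q))⁻¹ W ⊆
          (𝔫 : Set ↥(s18tInt ↥(s18dVal 𝔸 E) (ssdJ E (M * q * q))⁻¹)) →
        ssdJ E (M * q * q) ∉ W →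
        W.valuation (sqccjG0 𝔸 E M ϖ) = W.valuation (ssdJ E (M * q * q)) ^ (q - 1)) := by
  obtain ⟨Φ, MP₁, MP₂, MP₃⟩ := sqccj_modPoly 𝔸 E M hA hqM
  obtain ⟨⟨hy₂, hz₂, hzt₂⟩, hcong⟩ :=
    sqccj_T2_vert 𝔸 E M h hA hqM hϖ hu₁ hu₂ hϖ₁ V₂ hposα hposφ
  have hpow := sqccj_T2_pow 𝔸 E M h hA hqM hϖ c₀ c₁ hc₀ hc₁ hu₁ hu₂ hϖ₁ V₂ hposα hposφ
  refine ⟨Φ, MP₁, MP₂, MP₃, sqvm_Y_ne_J E M, hy₂, hz₂, hzt₂, hpow, hcong, ?_, ?_⟩
  · intro 𝔫 h𝔫 hcusp W hW hQ hc htW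
    haveI := h𝔫.isPrime
    exact sqccj_G0_fin 𝔸 E M hA hqM hϖ 𝔫 hcusp W hW hQ hc htW
  · intro 𝔫 h𝔫 hon W hW hQ hc htW
    haveI := h𝔫.isPrime
    exact sqccj_G0_csp 𝔸 E M hA hqM hϖ 𝔫 V₂ hQ₂ hy₂ hon W hW hQ hc htW

end G0

/-! ### `locInf` for the chart `j` -/

section Main

variable {q : ℕ} [Fact q.Prime] [NeZero q] (𝔸 : ValuationSubring Qb) (E : IntermediateField ℚ Qb)
  [IsDiscreteValuationRing ↥(s18dVal 𝔸 E)] [CharZero ↥(s18dVal 𝔸 E)] (M : ℕ) [NeZero M]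
variable {ϖ : ↥(s18dVal 𝔸 E)} {Ξ G : (↥(ssvmmR 𝔸 E M q))[X]}
  (h : SsvAmb (ssvmmR 𝔸 E M q) (ssvmgRUnif (ssvmm_le E M q) ϖ) (ssvmmY E M q) Ξ
    (X - C (ssvmmJ 𝔸 E M q ^ q)) (X ^ q - C (ssvmmJ 𝔸 E M q)) G)

set_option maxHeartbeats 4000000 in
/-- **THE SLOT `locInf` OF `SqGeoCore` FOR THE CHART `t = j`** : every closed point `𝔫 ∋ ϖ, j⁻¹` of
the chart `j⁻¹` of `F_E(M q q)` is simple. -/
theorem sqccj_locInf (hA : 𝔸.LiesOverPrime q) (hqM : ¬ q ∣ M) (hϖ : Irreducible ϖ)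
    (hgood : GrdfbHyp hϖ (ssdJ E M)) (hgood' : GrdfbHyp hϖ (ssdJ E M)⁻¹)
    (hTwo : SsvTwo hϖ (ssdJ E (M * q)) (ssvmmY E M q - ssvmdJ E (M * q) ^ q)
      (ssvmmY E M q ^ q - ssvmdJ E (M * q)) h.V₁ h.V₂)
    {V₁ V₂ V₃ : ValuationSubring (modularFunctionFieldFullC E (M * q * q))}
    {ϖE : E} {π₂ : modularFunctionFieldFullC E (M * q * q)}
    (val : SqniVal (algebraMap E (modularFunctionFieldFullC E (M * q)))
      (ssvmdIncl E (M * q) q).toRingHom (ssvmfPhi E (M * q) q) (s18dVal 𝔸 E) h.V₁ h.V₂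
      V₁ V₂ V₃ ϖE π₂ q)
    (three : SqvThree hϖ (ssdJ E (M * q * q)) (q - 1) π₂ V₁ V₂ V₃)
    (hπ : V₂.valuation (sqvmY E M q - ssdJ E (M * q * q)) = V₂.valuation π₂) :
    ∀ 𝔫 : Ideal ↥(s18tInt ↥(s18dVal 𝔸 E) (ssdJ E (M * q * q))⁻¹), 𝔫.IsMaximal →
      sskPi ϖ (ssdJ E (M * q * q))⁻¹ ∈ 𝔫 →
      ssglTinv (A := ↥(s18dVal 𝔸 E)) (ssdJ E (M * q * q)) ∈ 𝔫 →
      SqSimpleAt (ssdJ E (M * q * q))⁻¹ V₁ V₂ V₃ 𝔫 := by
  have hqp : q.Prime := Fact.out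
  have hq2 : 2 ≤ q := hqp.two_le
  have hq1 : 1 ≤ q := hqp.one_le
  -- notation
  set T : modularFunctionFieldFullC E (M * q * q) := ssdJ E (M * q * q) with hT
  have hTJ : ssvmdJ E (M * q * q) = T := rfl
  have e₁ : ssvmdIncl E M q (ssdJ E M) = ssdJ E (M * q) := sqccj_incl₁_J E M
  have eT : ssvmdIncl E (M * q) q (ssvmdIncl E M q (ssdJ E M)) = T := sqccj_incl_incl_J E M
  -- transcendence and finiteness
  have htT : Transcendental E T := ssd_transcendental_j E (M * q * q)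
  haveI hfT : FiniteDimensional E⟮T⟯ (modularFunctionFieldFullC E (M * q * q)) :=
    ssd_finiteDimensional_j E (M * q * q)
  have ht₀ : Transcendental E (ssdJ E M) := ssd_transcendental_j E M
  haveI hf₀ : FiniteDimensional E⟮ssdJ E M⟯ (modularFunctionFieldFullC E M) :=
    ssd_finiteDimensional_j E M
  haveI hf₀' : FiniteDimensional E⟮(ssdJ E M)⁻¹⟯ (modularFunctionFieldFullC E M) :=
    sqgcz_finiteDimensional_inv (L := E) (ssdJ E M)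
  have ht₀' : Transcendental E (ssdJ E M)⁻¹ := sqgcz_transcendental_inv ht₀
  have hT0 : T ≠ 0 := fun h0 => htT (by rw [h0]; exact isAlgebraic_zero)
  -- the level-`q` data
  have hc : S18Coord hϖ (modularFunctionFieldFullC E M) (ssdJ E M) :=
    s18v_coord_j' hϖ (s18d_natCast_mem 𝔸 E hA) M hqM
  have hYint : ssvmmY E M q ∈ s18tInt ↥(s18dVal 𝔸 E) (ssvmdJ E (M * q)) :=
    ssgq_jq_mem_int 𝔸 E M hA hqM
  have hInt : ssvmfPhi E M q (ssdJ E M) ∈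
      s18tInt ↥(s18dVal 𝔸 E) (ssvmdIncl E M q (ssdJ E M)) := by
    rw [e₁, sqccj_phi₁_J]
    exact hYint
  have hle : ∀ x ∈ s18tInt ↥(s18dVal 𝔸 E) (ssvmdJ E (M * q)), x ∈ h.V₁ ∧ x ∈ h.V₂ :=
    fun x hx => (hTwo.mem_iff x).mp (ssga_int_le_intLoc hϖ _ hx)
  -- `SqgwHyp`, then `SqgHyp` in the charts at infinity
  have hTwo' : SsvTwo hϖ (ssvmdIncl E M q (ssdJ E M)) (ssvmmY E M q - ssvmdJ E (M * q) ^ q)
      (ssvmmY E M q ^ q - ssvmdJ E (M * q)) h.V₁ h.V₂ := by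
    rw [e₁]; exact hTwo
  have three' : SqvThree hϖ (ssvmdIncl E (M * q) q (ssvmdIncl E M q (ssdJ E M))) (q - 1) π₂
      V₁ V₂ V₃ := by
    rw [eT]; exact three
  have ht' : Transcendental E (ssvmdIncl E (M * q) q (ssvmdIncl E M q (ssdJ E M))) := by
    rw [eT]; exact htT
  haveI hf' : FiniteDimensional E⟮ssvmdIncl E (M * q) q (ssvmdIncl E M q (ssdJ E M))⟯
      (modularFunctionFieldFullC E (M * q * q)) := by
    rw [eT]; exact hfT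
  have H₀ := sqgin_hyp 𝔸 E M h hA hqM hϖ (ssdJ E M) hc hgood hTwo' hInt val ht' three'
  have hcongW : (ssvmfPhi E M q (ssdJ E M)) ^ q - (ssvmdIncl E M q).toRingHom (ssdJ E M) ∈
      h.V₂.nonunits := by
    have e : (ssvmdIncl E M q).toRingHom (ssdJ E M) = ssvmdJ E (M * q) := e₁
    rw [e, sqccj_phi₁_J]
    exact hTwo.mem₂
  have H := H₀.sqgHyp_inv_of_three (L := E) hϖ ht₀ ht' three' hgood' hcongW
  rw [eT] at H
  -- the modular equations and the congruences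
  obtain ⟨Φ, MP₁, MP₂, MP₃⟩ := sqccj_modPoly 𝔸 E M hA hqM
  obtain ⟨⟨hy₁, hz₁⟩, ⟨hy₂, hz₂, hzt₂⟩, hy₃⟩ := sqccj_cong 𝔸 E M val hTwo.mem₁ hTwo.mem₂
    (hle _ (s18tc_self_mem_int _)).1 (hle _ hYint).2
  have hzt : sqvmY E M q ≠ T := sqvm_Y_ne_J E M
  have hβ₂ : ((ssvmfPhi E (M * q) q).comp (ssvmfPhi E M q)) (ssdJ E M) = sqvmY E M q := by
    rw [RingHom.comp_apply, sqccj_phi₁_J, sqccj_phi_Y]
  -- the function `G₀` : (T2-cong), the horizontal places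
  have hQ₂ : ∀ x ∈ s18tInt ↥(s18dVal 𝔸 E) T⁻¹, x ∈ V₂ := fun x hx => H.three.le₂ x hx
  have hϖ₁ : algebraMap ↥(s18dVal 𝔸 E) ↥(modularFunctionFieldFullC E (M * q)) ϖ ∈ h.V₁.nonunits :=
    (h.V₁.mem_nonunits_iff).mpr hTwo.unif₁.1
  obtain ⟨-, hcong⟩ := sqccj_T2_vert 𝔸 E M h hA hqM hϖ hTwo.mem₁ hTwo.mem₂ hϖ₁ V₂ val.posα₂
    val.posφ₂
  have hfin : ∀ 𝔫 : Ideal ↥(s18tInt ↥(s18dVal 𝔸 E) T⁻¹), 𝔫.IsMaximal →
      ssglTinv (A := ↥(s18dVal 𝔸 E)) T ∈ 𝔫 → SqtOn V₂ T⁻¹ 𝔫 →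
      ∀ W : ValuationSubring (modularFunctionFieldFullC E (M * q * q)), S18IsPlace E W →
      s18tInt ↥(s18dVal 𝔸 E) T⁻¹ ≤ W.toSubring →
      sskCentre T⁻¹ W ⊆ (𝔫 : Set ↥(s18tInt ↥(s18dVal 𝔸 E) T⁻¹)) → T ∈ W →
      sqccjG0 𝔸 E M ϖ ∈ W ∧ (sqccjG0 𝔸 E M ϖ)⁻¹ ∈ W := by
    intro 𝔫 h𝔫 hcusp hon W hW hQ hc htW
    haveI := h𝔫.isPrime
    exact sqccj_G0_fin 𝔸 E M hA hqM hϖ 𝔫 hcusp W hW hQ hc htW
  have hcsp : ∀ 𝔫 : Ideal ↥(s18tInt ↥(s18dVal 𝔸 E) T⁻¹), 𝔫.IsMaximal →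
      ssglTinv (A := ↥(s18dVal 𝔸 E)) T ∈ 𝔫 → SqtOn V₂ T⁻¹ 𝔫 →
      ∀ W : ValuationSubring (modularFunctionFieldFullC E (M * q * q)), S18IsPlace E W →
      s18tInt ↥(s18dVal 𝔸 E) T⁻¹ ≤ W.toSubring →
      sskCentre T⁻¹ W ⊆ (𝔫 : Set ↥(s18tInt ↥(s18dVal 𝔸 E) T⁻¹)) → T ∉ W →
      W.valuation (sqccjG0 𝔸 E M ϖ) = W.valuation T ^ (q - 1) := by
    intro 𝔫 h𝔫 hcusp hon W hW hQ hc htW
    haveI := h𝔫.isPrime
    exact sqccj_G0_csp 𝔸 E M hA hqM hϖ 𝔫 V₂ hQ₂ hy₂ hon W hW hQ hc htW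
  -- the abstract theorem
  intro 𝔫 h𝔫 hϖ𝔫 hcusp
  have key := sqgcn_locInf (L := E) H hϖ ht₀' three htT hq2 MP₁ MP₂ MP₃ hzt hβ₂ hy₁ hz₁ hy₂ hz₂ hzt₂
    hy₃ hπ (sqccjG0 𝔸 E M ϖ) hcong hfin hcsp 𝔫 h𝔫 hϖ𝔫 hcusp
  rcases key with k | k | k
  · exact k.simpleAt₁
  · exact k.simpleAt₂
  · exact k.simpleAt₃

end Main

end Fermat.Agent.SQ
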