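import Mathlib
import Fermat.Agent.SQ.Germ.CuspT2

/-!
# Program Q (S36), concrete side, `q ∈ {2, 3}` : (T2) AT A CUSP POINT OF `C₂`, WITH (GK) AS A HYPOTHESIS
(prefix `sqcch2_`)

`sqcch2_T2_of_gk` = helper5's `sqgcz_T2` (`SQ/Germ/CuspT2.lean`, SAME PROOF) in which the family `SqvFam`
of the chart `t` is replaced by what the proof uses of it : `s18tInt A t⁻¹ ⊆ V₂`, `t ∈ V₂` and the
generalised Krull statement (GK) at the point `𝔫` (which lies on `V₂` only).  For `q = 3` the chart is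
`h_a^{±1}`, not `j^{±1}` : (GK) for the chart `j⁻¹` at a cusp point is obtained from (GK) for the chart
`h_a^{±1}` by the change of chart (the two local rings coincide).
-/

set_option autoImplicit false
set_option linter.unusedSectionVars false
set_option linter.unusedVariables false
set_option linter.style.haveILetI false

noncomputable section

namespace Fermat.Agent.SQ

open Polynomial IntermediateField Fermat.Agent.S18 Fermat.Agent.SS IsLocalRing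

universe u

variable {A : Type*} [CommRing A] [IsDomain A] [IsDiscreteValuationRing A] [CharZero A]
variable {L : Type*} [Field L] [Algebra A L] [IsFractionRing A L]
variable {F : Type u} [Field F] [Algebra A F] [Algebra L F] [IsScalarTower A L F]
variable {ϖ : A} {t : F}

include L in
/-- **(T2) AT THE CUSP POINT OF `V₂`, from (GK).** -/
theorem sqcch2_T2_of_gk (hϖ : Irreducible ϖ) (ht0 : t ≠ 0) (V₂ : ValuationSubring F) (e₂ : ℕ)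
    (hQ₂ : ∀ x ∈ s18tInt A t⁻¹, x ∈ V₂) (htV₂ : t ∈ V₂)
    (𝔫 : Ideal ↥(s18tInt A t⁻¹)) (h𝔫 : 𝔫.IsMaximal)
    (hcusp : (⟨t⁻¹, s18tc_self_mem_int t⁻¹⟩ : ↥(s18tInt A t⁻¹)) ∈ 𝔫)
    (hon : SqtOn V₂ t⁻¹ 𝔫)
    (gk : ∀ x : F, x ∈ V₂ →
      (∀ W : ValuationSubring F, S18IsPlace L W → s18tInt A t⁻¹ ≤ W.toSubring →
        sskCentre t⁻¹ W ⊆ (𝔫 : Set ↥(s18tInt A t⁻¹)) → x ∈ W) → SsnfInLoc t⁻¹ 𝔫 x)
    {q : ℕ} (hq : 2 ≤ q) {y z : F} {Φ : A[X][X]}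
    (MP₁ : SsgnModPoly A F t y q Φ) (MP₂ : SsgnModPoly A F y z q Φ)
    (MP₃ : SsgnModPoly A F y t q Φ) (hzt : z ≠ t)
    (hy₂ : y - t ^ q ∈ V₂.nonunits) (hz₂ : z ^ q - y ∈ V₂.nonunits)
    (hzt₂ : z - t ∈ V₂.nonunits)
    (hpow : V₂.valuation (z - t) ^ e₂ = V₂.valuation (algebraMap A F ϖ))
    (G₀ : F)
    (hcong : (z - t) ^ e₂ * (algebraMap A F ϖ)⁻¹ - G₀ ∈ V₂.nonunits)
    (hfin : ∀ W : ValuationSubring F, S18IsPlace L W → s18tInt A t⁻¹ ≤ W.toSubring →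
      sskCentre t⁻¹ W ⊆ (𝔫 : Set ↥(s18tInt A t⁻¹)) → t ∈ W → G₀ ∈ W ∧ G₀⁻¹ ∈ W)
    (hcsp : ∀ W : ValuationSubring F, S18IsPlace L W → s18tInt A t⁻¹ ≤ W.toSubring →
      sskCentre t⁻¹ W ⊆ (𝔫 : Set ↥(s18tInt A t⁻¹)) → t ∉ W →
      W.valuation G₀ = W.valuation t ^ e₂) :
    ∃ π₂ w : F, SsnfInLoc t⁻¹ 𝔫 π₂ ∧ π₂ ∈ V₂.nonunits ∧ SsnfInLoc t⁻¹ 𝔫 w ∧
      algebraMap A F ϖ = π₂ ^ e₂ * w := by
  classical
  haveI h𝔫p : 𝔫.IsPrime := h𝔫.isPrime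
  have hϖ0 : algebraMap A F ϖ ≠ 0 := sqt_unif_ne_zero L hϖ
  have hq1 : 1 ≤ q := by omega
  set v₂ := V₂.valuation with hv₂
  -- vertical values
  have vt : v₂ t = 1 := by
    have h1 : v₂ t ≤ 1 := (V₂.valuation_le_one_iff _).mpr htV₂
    have h2 : v₂ t⁻¹ ≤ 1 :=
      (V₂.valuation_le_one_iff _).mpr (hQ₂ _ (s18tc_self_mem_int t⁻¹))
    have h0 : v₂ t ≠ 0 := (Valuation.ne_zero_iff _).mpr ht0
    rw [map_inv₀, inv_le_one₀ (zero_lt_iff.mpr h0)] at h2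
    exact le_antisymm h1 h2
  have vz : v₂ z = 1 := by
    have h1 : v₂ (z - t) < v₂ t := by
      rw [vt]; exact (V₂.mem_nonunits_iff).mp hzt₂
    have h2 : z = (z - t) + t := by ring
    rw [h2, Valuation.map_add_eq_of_lt_right _ h1, vt]
  have vy : v₂ y = 1 := by
    have h1 : v₂ (y - t ^ q) < v₂ (t ^ q) := by
      rw [map_pow, vt, one_pow]; exact (V₂.mem_nonunits_iff).mp hy₂
    have h2 : y = (y - t ^ q) + t ^ q := by ring
    rw [h2, Valuation.map_add_eq_of_lt_right _ h1, map_pow, vt, one_pow]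
  have hy0 : y ≠ 0 := fun h0 => by rw [h0, map_zero] at vy; exact zero_ne_one vy
  have hz0 : z ≠ 0 := fun h0 => by rw [h0, map_zero] at vz; exact zero_ne_one vz
  have vU : v₂ ((z - t) ^ e₂ * (algebraMap A F ϖ)⁻¹) = 1 := by
    rw [map_mul, map_pow, hpow, map_inv₀,
      mul_inv_cancel₀ ((Valuation.ne_zero_iff _).mpr hϖ0)]
  have vG : v₂ G₀ = 1 := by
    have h1 : v₂ (-((z - t) ^ e₂ * (algebraMap A F ϖ)⁻¹ - G₀)) <
        v₂ ((z - t) ^ e₂ * (algebraMap A F ϖ)⁻¹) := by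
      rw [Valuation.map_neg, vU]; exact (V₂.mem_nonunits_iff).mp hcong
    have h2 : G₀ = -((z - t) ^ e₂ * (algebraMap A F ϖ)⁻¹ - G₀) +
        (z - t) ^ e₂ * (algebraMap A F ϖ)⁻¹ := by ring
    rw [h2, Valuation.map_add_eq_of_lt_right _ h1, vU]
  have hG0 : G₀ ≠ 0 := fun h0 => by rw [h0, map_zero] at vG; exact zero_ne_one vG
  -- the poles and the separating functions
  have h₁ := sqgcz_rel_of_modPoly MP₁
  have h₂ := sqgcz_rel_of_modPoly MP₂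
  have hzMax : SsInMax t⁻¹ 𝔫 z⁻¹ := sqgcu_pole₂ 𝔫 h₁ h₂ ht0 hy0 hq1 hcusp
  have hzR : z⁻¹ ∈ ssLocRing t⁻¹ 𝔫 := hzMax.inLoc
  have hf₁ := sqgcz_sep₁_not_mem 𝔫 h₁ ht0 hq1 V₂ hQ₂ hy₂ hon
  have hf₂ := sqgcz_sep₂_inMax 𝔫 h₁ h₂ ht0 hy0 hq hcusp V₂ hQ₂ hz₂ hon
  -- the horizontal places through `𝔫`
  have hor : ∀ W : ValuationSubring F, S18IsPlace L W → s18tInt A t⁻¹ ≤ W.toSubring →
      sskCentre t⁻¹ W ⊆ (𝔫 : Set ↥(s18tInt A t⁻¹)) →
      (t ∈ W ∧ z ∈ W ∧ z⁻¹ ∈ W ∧ G₀ ∈ W ∧ G₀⁻¹ ∈ W) ∨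
      (W.valuation z = W.valuation t ∧ W.valuation (z - t) = W.valuation t ∧
        W.valuation G₀ = W.valuation t ^ e₂ ∧ W.valuation t ≠ 0) := by
    intro W hW hQ hc
    by_cases htW : t ∈ W
    · left
      obtain ⟨hG1, hG2⟩ := hfin W hW hQ hc htW
      exact ⟨htW, (sqgcz_hor_fin hQ MP₁ MP₂ htW).2, sqgcz_loc_mem hQ hc hzR, hG1, hG2⟩
    · right
      have hvq : W.valuation ((q : ℕ) : F) = 1 := by
        have : ((q : ℕ) : F) = algebraMap A F ((q : ℕ) : A) := (map_natCast _ q).symm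
        rw [this]
        exact ssl_val_constA hW (Nat.cast_ne_zero.mpr (by omega))
      have hvf₁ : W.valuation (t⁻¹ ^ q * y) = 1 := by
        refine le_antisymm ((W.valuation_le_one_iff _).mpr (hQ (h₁.sep_mem ht0 hq1)))
          (not_lt.mp fun hlt => hf₁ (hc ?_))
        exact (ValuationSubring.mem_nonunits_iff _).mpr hlt
      obtain ⟨-, e2, e3⟩ := sqgcz_hor_cusp hQ hc hq hvq MP₂ MP₃ hzt hvf₁ hf₂ htW
      exact ⟨e2, e3, hcsp W hW hQ hc htW, (Valuation.ne_zero_iff _).mpr ht0⟩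
  -- the elements
  set π₂ : F := t * z⁻¹ - 1 with hπ₂
  have hπ₂' : π₂ = -((z - t) * z⁻¹) := by
    rw [hπ₂, sub_mul, mul_inv_cancel₀ hz0]; ring
  have hπ₂0 : π₂ ≠ 0 := by
    rw [hπ₂']
    exact neg_ne_zero.mpr (mul_ne_zero (sub_ne_zero.mpr hzt) (inv_ne_zero hz0))
  set U : F := π₂ ^ e₂ * (algebraMap A F ϖ)⁻¹ with hU
  set G : F := G₀ * (-z⁻¹) ^ e₂ with hG
  have hUG : U - G = ((z - t) ^ e₂ * (algebraMap A F ϖ)⁻¹ - G₀) * (-z⁻¹) ^ e₂ := by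
    rw [hU, hG, hπ₂']
    have : -((z - t) * z⁻¹) = (z - t) * (-z⁻¹) := by ring
    rw [this, mul_pow]; ring
  have hGinv : G⁻¹ = G₀⁻¹ * (-z) ^ e₂ := by
    rw [hG, mul_inv, ← inv_pow, neg_inv, inv_inv]
  have vzi : v₂ z⁻¹ = 1 := by rw [map_inv₀, vz, inv_one]
  have vπ₂ : v₂ π₂ = v₂ (z - t) := by
    rw [hπ₂', Valuation.map_neg, map_mul, vzi, mul_one]
  -- memberships in `Q_𝔫` by (GK)
  have hπ₂R : SsnfInLoc t⁻¹ 𝔫 π₂ := by
    refine gk _ ?_ (fun W hW hQ hc => ?_)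
    · rw [← V₂.valuation_le_one_iff, ← hv₂, vπ₂]
      exact ((V₂.mem_nonunits_iff).mp hzt₂).le
    · rcases hor W hW hQ hc with ⟨h1, -, h3, -, -⟩ | ⟨e2, e3, -, e0⟩
      · exact sub_mem (W.mul_mem _ _ h1 h3) W.one_mem
      · rw [← W.valuation_le_one_iff, hπ₂', Valuation.map_neg, map_mul, map_inv₀, e2, e3,
          mul_inv_cancel₀ e0]
  have hUR : SsnfInLoc t⁻¹ 𝔫 U := by
    refine gk _ ?_ (fun W hW hQ hc => ?_)
    · rw [← V₂.valuation_le_one_iff, ← hv₂, hU, map_mul, map_pow, vπ₂, hpow,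
        map_inv₀, mul_inv_cancel₀ ((Valuation.ne_zero_iff _).mpr hϖ0)]
    · have hvϖ : W.valuation (algebraMap A F ϖ) = 1 := ssl_val_constA hW hϖ.ne_zero
      rw [← W.valuation_le_one_iff, hU, map_mul, map_pow, map_inv₀, hvϖ, inv_one, mul_one]
      refine pow_le_one₀ zero_le ?_
      rcases hor W hW hQ hc with ⟨h1, -, h3, -, -⟩ | ⟨e2, e3, -, e0⟩
      · exact (W.valuation_le_one_iff _).mpr (sub_mem (W.mul_mem _ _ h1 h3) W.one_mem)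
      · rw [hπ₂', Valuation.map_neg, map_mul, map_inv₀, e2, e3, mul_inv_cancel₀ e0]
  have hGR : SsnfInLoc t⁻¹ 𝔫 G := by
    refine gk _ ?_ (fun W hW hQ hc => ?_)
    · rw [← V₂.valuation_le_one_iff, ← hv₂, hG, map_mul, map_pow,
        Valuation.map_neg, vzi, one_pow, mul_one, vG]
    · rcases hor W hW hQ hc with ⟨-, -, h3, h4, -⟩ | ⟨e2, -, e4, e0⟩
      · exact W.mul_mem _ _ h4 (W.pow_mem (W.neg_mem _ h3) _)
      · rw [← W.valuation_le_one_iff, hG, map_mul, map_pow, Valuation.map_neg, map_inv₀, e2, e4,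
          inv_pow, mul_inv_cancel₀ (pow_ne_zero _ e0)]
  have hGiR : SsnfInLoc t⁻¹ 𝔫 G⁻¹ := by
    rw [hGinv]
    refine gk _ ?_ (fun W hW hQ hc => ?_)
    · rw [← V₂.valuation_le_one_iff, ← hv₂, map_mul, map_pow,
        Valuation.map_neg, vz, one_pow, mul_one, map_inv₀, vG, inv_one]
    · rcases hor W hW hQ hc with ⟨-, h2, -, -, h5⟩ | ⟨e2, -, e4, e0⟩
      · exact W.mul_mem _ _ h5 (W.pow_mem (W.neg_mem _ h2) _)
      · rw [← W.valuation_le_one_iff, map_mul, map_pow, Valuation.map_neg, map_inv₀, e2, e4,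
          inv_mul_cancel₀ (pow_ne_zero _ e0)]
  -- `U ≡ G` modulo `𝔫 Q_𝔫`, hence `U` is a unit
  have hUGmax : SsInMax t⁻¹ 𝔫 (U - G) := by
    refine sqgcu_inMax_of_on V₂ hQ₂ hon (Subring.sub_mem _ hUR hGR) ?_
    rw [hUG, mul_comm]
    refine sqgcu_nu_mul V₂ ?_ hcong
    rw [← V₂.valuation_le_one_iff, ← hv₂, map_pow, Valuation.map_neg, vzi, one_pow]
  have hG0' : G ≠ 0 := by
    rw [hG]
    exact mul_ne_zero hG0 (pow_ne_zero _ (neg_ne_zero.mpr (inv_ne_zero hz0)))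
  have hUnot : ¬ SsInMax t⁻¹ 𝔫 U := by
    intro hmem
    have h1 : SsInMax t⁻¹ 𝔫 G := by
      have := sqgcu_inMax_sub hmem hUGmax
      rwa [sub_sub_cancel] at this
    have h2 : SsInMax t⁻¹ 𝔫 (G⁻¹ * G) := sqgcu_inMax_mul hGiR h1
    rw [inv_mul_cancel₀ hG0'] at h2
    exact sqgcu_not_inMax_one h2
  have hUi : U⁻¹ ∈ ssLocRing t⁻¹ 𝔫 := sqgcu_inv_mem_of_not_inMax hUR hUnot
  refine ⟨π₂, U⁻¹, hπ₂R, ?_, hUi, ?_⟩
  · rw [V₂.mem_nonunits_iff, ← hv₂, vπ₂]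
    exact (V₂.mem_nonunits_iff).mp hzt₂
  · rw [hU, mul_inv, inv_inv, ← mul_assoc, mul_inv_cancel₀ (pow_ne_zero _ hπ₂0), one_mul]


end Fermat.Agent.SQ
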