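import Mathlib
import Fermat.Agent.SQ.Conc.CuspJ
import Fermat.Agent.SQ.Conc.ChartChange
import Fermat.Agent.SQ.Conc.HCuspT2
import Fermat.Agent.SQ.Conc.AmbTwo

/-!
# Program Q (S36), concrete side : (T2) AT A CUSP POINT OF `C₂` IN ANY CHART WHOSE LOCAL RING AT THE POINT
IS THE LOCAL RING OF THE CHART `j⁻¹` (prefix `sqcch2_`)

`sqcch2_T2_chart` : `s` a chart coordinate of `F_E(M q q)` with the family `V₁, V₂, V₃` of (VAL²),
`𝔫` a closed point of the chart `s` lying on `V₂` only, `𝔫''` a point of the chart `j⁻¹`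
(`j = ssdJ E (M q q)`) with the same local ring (`SqcxSame`, helper19's `SQ/Conc/ChartChange.lean`) and
`j⁻¹ ∈ 𝔫 P_𝔫` (a cusp point).  Then `ϖ = π^{q-1} w` in `P_𝔫` with `π ∈ 𝔪_{V₂}` : the concrete inputs of
helper5's `sqccj_locInf` (`SQ/Conc/CuspJ.lean`; they hold for EVERY prime `q`) fed into
`sqcch2_T2_of_gk`, with (GK) for the chart `j⁻¹` transported from (GK) for the chart `s`.
Used for `q = 3`, `s = h_2^{±1}`.
-/

set_option autoImplicit false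
set_option linter.unusedSectionVars false
set_option linter.unusedVariables false
set_option linter.style.haveILetI false
set_option synthInstance.maxHeartbeats 400000

noncomputable section

namespace Fermat.Agent.SQ

open Polynomial ModularCurve AlgebraicCurve IntermediateField IsLocalRing Fermat.Agent.S18
  Fermat.Agent.G Fermat.Agent.SS

local notation "Qb" => AlgebraicClosure ℚ

section Main

variable {q : ℕ} [Fact q.Prime] [NeZero q] (𝔸 : ValuationSubring Qb) (E : IntermediateField ℚ Qb)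
  [FiniteDimensional ℚ E] [IsDiscreteValuationRing ↥(s18dVal 𝔸 E)] [CharZero ↥(s18dVal 𝔸 E)]
  (M : ℕ) [NeZero M]

local notation "T" => ssdJ E (M * q * q)

variable {ϖ : ↥(s18dVal 𝔸 E)} {Ξ G : (↥(ssvmmR 𝔸 E M q))[X]}
  (h : SsvAmb (ssvmmR 𝔸 E M q) (ssvmgRUnif (ssvmm_le E M q) ϖ) (ssvmmY E M q) Ξ
    (X - C (ssvmmJ 𝔸 E M q ^ q)) (X ^ q - C (ssvmmJ 𝔸 E M q)) G)

set_option maxHeartbeats 4000000 in
/-- **(T2) AT A CUSP POINT OF `C₂`, ANY CHART `s` WITH THE LOCAL RING OF THE CHART `j⁻¹`.** -/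
theorem sqcch2_T2_chart (hA : 𝔸.LiesOverPrime q) (hqM : ¬ q ∣ M) (hϖ : Irreducible ϖ)
    (c₀ c₁ : ↥(s18dVal 𝔸 E)) (hc₀ : ((q : ℕ) : ↥(s18dVal 𝔸 E)) = ϖ * c₀) (hc₁ : c₀ * c₁ = 1)
    {V₁ V₂ V₃ : ValuationSubring (modularFunctionFieldFullC E (M * q * q))}
    {ϖE : E} {π₂ : modularFunctionFieldFullC E (M * q * q)}
    (val : SqniVal (algebraMap E (modularFunctionFieldFullC E (M * q)))
      (ssvmdIncl E (M * q) q).toRingHom (ssvmfPhi E (M * q) q) (s18dVal 𝔸 E) h.V₁ h.V₂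
      V₁ V₂ V₃ ϖE π₂ q)
    (s : modularFunctionFieldFullC E (M * q * q)) (hs : Transcendental E s)
    [FiniteDimensional E⟮s⟯ (modularFunctionFieldFullC E (M * q * q))]
    {π : Fin 3 → modularFunctionFieldFullC E (M * q * q)} {e : Fin 3 → ℕ}
    (fam : SqvFam hϖ s ![V₁, V₂, V₃] π e)
    (𝔫 : Ideal ↥(s18tInt ↥(s18dVal 𝔸 E) s)) (hmax : 𝔫.IsMaximal) (hϖ𝔫 : sskPi ϖ s ∈ 𝔫)
    (𝔫'' : Ideal ↥(s18tInt ↥(s18dVal 𝔸 E) (ssdJ E (M * q * q))⁻¹)) [h𝔫'' : 𝔫''.IsPrime]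
    (hS : SqcxSame s (ssdJ E (M * q * q))⁻¹ 𝔫 𝔫'')
    (hcusp : SsnfInMax s 𝔫 (ssdJ E (M * q * q))⁻¹)
    (hon : SqtOn V₂ s 𝔫) (hoff₁ : ¬ SqtOn V₁ s 𝔫) (hoff₃ : ¬ SqtOn V₃ s 𝔫) :
    ∃ π w : modularFunctionFieldFullC E (M * q * q), SsnfInLoc s 𝔫 π ∧ π ∈ V₂.nonunits ∧
      SsnfInLoc s 𝔫 w ∧
      algebraMap ↥(s18dVal 𝔸 E) (modularFunctionFieldFullC E (M * q * q)) ϖ = π ^ (q - 1) * w := by
  haveI h𝔫p : 𝔫.IsPrime := hmax.isPrime
  have hqp : q.Prime := Fact.out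
  have hq2 : 2 ≤ q := hqp.two_le
  have hq1 : 1 ≤ q := hqp.one_le
  -- notation
  have hTJ : ssvmdJ E (M * q * q) = T := rfl
  have htT : Transcendental E T := ssd_transcendental_j E (M * q * q)
  have hT0 : T ≠ 0 := fun h0 => htT (by rw [h0]; exact isAlgebraic_zero)
  have ht₀ : Transcendental E (ssdJ E M) := ssd_transcendental_j E M
  -- the point of the chart `j⁻¹`
  have hmax'' : 𝔫''.IsMaximal := hS.isMaximal (L := E) hϖ hs hmax hϖ𝔫
  have hcusp'' : ssglTinv (A := ↥(s18dVal 𝔸 E)) T ∈ 𝔫'' := hS.tinv_mem_iff.mpr hcusp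
  have hQ₂s : ∀ x ∈ s18tInt ↥(s18dVal 𝔸 E) s, x ∈ V₂ := fun x hx => fam.int_mem (1 : Fin 3) hx
  have hQ₂ : ∀ x ∈ s18tInt ↥(s18dVal 𝔸 E) T⁻¹, x ∈ V₂ := fun x hx =>
    sqcx_loc_le_of_on V₂ hQ₂s hon ((hS.loc x).mp (sqcx_inLoc_of_int hx))
  have hon'' : SqtOn V₂ T⁻¹ 𝔫'' := (hS.on_iff V₂ hQ₂s hQ₂).mpr hon
  -- (GK) for the chart `j⁻¹` at `𝔫''`
  have gk : ∀ x : modularFunctionFieldFullC E (M * q * q), x ∈ V₂ →
      (∀ W : ValuationSubring (modularFunctionFieldFullC E (M * q * q)), S18IsPlace E W →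
        s18tInt ↥(s18dVal 𝔸 E) T⁻¹ ≤ W.toSubring →
        sskCentre T⁻¹ W ⊆ (𝔫'' : Set ↥(s18tInt ↥(s18dVal 𝔸 E) T⁻¹)) → x ∈ W) →
      SsnfInLoc T⁻¹ 𝔫'' x := by
    intro x hx hW
    refine (hS.loc x).mpr (sqgcz_gk fam hs 𝔫 hmax (fun i hi => ?_) (fun W hWp hPW hc => ?_))
    · fin_cases i
      · exact absurd hi hoff₁
      · exact hx
      · exact absurd hi hoff₃
    · obtain ⟨h1, h2⟩ := hS.centre_of W hPW hc
      exact hW W hWp h1 h2
  -- the level-`q` data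
  have hTwo := sqcau_two_j 𝔸 E M hA hqM hϖ h
  have hYint : ssvmmY E M q ∈ s18tInt ↥(s18dVal 𝔸 E) (ssvmdJ E (M * q)) :=
    ssgq_jq_mem_int 𝔸 E M hA hqM
  have hle : ∀ x ∈ s18tInt ↥(s18dVal 𝔸 E) (ssvmdJ E (M * q)), x ∈ h.V₁ ∧ x ∈ h.V₂ :=
    fun x hx => (hTwo.mem_iff x).mp (ssga_int_le_intLoc hϖ _ hx)
  -- the modular equations and the congruences
  obtain ⟨Φ, MP₁, MP₂, MP₃⟩ := sqccj_modPoly 𝔸 E M hA hqM
  obtain ⟨-, ⟨hy₂, hz₂, hzt₂⟩, -⟩ := sqccj_cong 𝔸 E M val hTwo.mem₁ hTwo.mem₂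
    (hle _ (s18tc_self_mem_int _)).1 (hle _ hYint).2
  have hzt : sqvmY E M q ≠ T := sqvm_Y_ne_J E M
  have hTV₂ : T ∈ V₂ := by
    have h1 := (sqni_mem_iff val.posα₂ _).mpr (hle _ (s18tc_self_mem_int _)).1
    have e : (ssvmdIncl E (M * q) q).toRingHom (ssvmdJ E (M * q)) = ssvmdJ E (M * q * q) :=
      sqvm_incl_J E M q
    rwa [e] at h1
  -- the function `G₀`
  obtain ⟨cF, hcF⟩ : ∃ cF : modularFunctionFieldFullC E (M * q * q), cF =
    ((q : ℕ) : modularFunctionFieldFullC E (M * q * q)) *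
      (algebraMap ↥(s18dVal 𝔸 E) ↥(modularFunctionFieldFullC E (M * q * q)) ϖ)⁻¹ := ⟨_, rfl⟩
  obtain ⟨cE, hcE⟩ : ∃ cE : E, cE = ((q : ℕ) : E) * (algebraMap ↥(s18dVal 𝔸 E) E ϖ)⁻¹ := ⟨_, rfl⟩
  have hcE0 : cE ≠ 0 := by
    rw [hcE]
    refine mul_ne_zero (Nat.cast_ne_zero.mpr hqp.ne_zero) (inv_ne_zero ?_)
    exact (map_ne_zero_iff _ (IsFractionRing.injective ↥(s18dVal 𝔸 E) E)).mpr hϖ.ne_zero
  have hcEF : algebraMap E (modularFunctionFieldFullC E (M * q * q)) cE = cF := by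
    rw [hcE, hcF, map_mul, map_natCast, map_inv₀,
      ← IsScalarTower.algebraMap_apply ↥(s18dVal 𝔸 E) E (modularFunctionFieldFullC E (M * q * q))]
  obtain ⟨g, hg⟩ : ∃ g : modularFunctionFieldFullC E (M * q * q),
    g = ssvmdIncl E (M * q) q (sqgvG E M q) := ⟨_, rfl⟩
  obtain ⟨G₀, hG₀⟩ : ∃ G₀ : modularFunctionFieldFullC E (M * q * q), G₀ = -(cF * g) := ⟨_, rfl⟩
  -- the Gauss ring of `F_E(M q)` lies in `V₂`
  have hWV : ∀ x ∈ s18vO ↥(s18dVal 𝔸 E) (modularFunctionFieldFullC E (M * q)),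
      ssvmdIncl E (M * q) q x ∈ V₂ := by
    intro x hx
    have h1 : x ∈ h.V₁ := by
      rw [ssvma_V₁_eq 𝔸 E M hA hϖ Ξ G h]
      exact hx
    exact (sqni_mem_iff val.posα₂ x).mpr h1
  have hϖV : algebraMap ↥(s18dVal 𝔸 E) ↥(modularFunctionFieldFullC E (M * q * q)) ϖ ∈
      V₂.nonunits := by
    have h1 : algebraMap ↥(s18dVal 𝔸 E) ↥(modularFunctionFieldFullC E (M * q)) ϖ ∈ h.V₁.nonunits :=
      (h.V₁.mem_nonunits_iff).mpr hTwo.unif₁.1
    have h2 := (sqni_nonunits_iff val.posα₂ _).mpr h1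
    have e : (ssvmdIncl E (M * q) q).toRingHom
        (algebraMap ↥(s18dVal 𝔸 E) ↥(modularFunctionFieldFullC E (M * q)) ϖ) =
        algebraMap ↥(s18dVal 𝔸 E) ↥(modularFunctionFieldFullC E (M * q * q)) ϖ :=
      sqgct_incl_algebraMap 𝔸 E M ϖ
    rwa [e] at h2
  have hcong : (sqvmY E M q - T) ^ (q - 1) *
      (algebraMap ↥(s18dVal 𝔸 E) ↥(modularFunctionFieldFullC E (M * q * q)) ϖ)⁻¹ - G₀ ∈
      V₂.nonunits := by
    have h1 := sqgct_main 𝔸 E M hA hϖ V₂ hWV hϖV hzt₂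
    have e : (sqvmY E M q - T) ^ (q - 1) *
        (algebraMap ↥(s18dVal 𝔸 E) ↥(modularFunctionFieldFullC E (M * q * q)) ϖ)⁻¹ - G₀ =
        (sqvmY E M q - ssvmdJ E (M * q * q)) ^ (q - 1) *
        (algebraMap ↥(s18dVal 𝔸 E) ↥(modularFunctionFieldFullC E (M * q * q)) ϖ)⁻¹ +
      ((q : ℕ) : ↥(modularFunctionFieldFullC E (M * q * q))) *
        (algebraMap ↥(s18dVal 𝔸 E) ↥(modularFunctionFieldFullC E (M * q * q)) ϖ)⁻¹ *
          ssvmdIncl E (M * q) q (sqgvG E M q) := by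
      rw [hG₀, hcF, hg, hTJ]; ring
    rw [e]
    exact h1
  -- `v₂ (z - t)^(q-1) = v₂ ϖ`
  have hvG : V₂.valuation G₀ = 1 := by
    have h1 := sqgct_vert 𝔸 E M hA hϖ c₀ c₁ hc₀ hc₁ V₂ hWV
    rw [hG₀, Valuation.map_neg, hcF, hg]
    exact h1
  have hϖ0 : algebraMap ↥(s18dVal 𝔸 E) ↥(modularFunctionFieldFullC E (M * q * q)) ϖ ≠ 0 :=
    sqt_unif_ne_zero E hϖ
  have hpow : V₂.valuation (sqvmY E M q - T) ^ (q - 1) =
      V₂.valuation (algebraMap ↥(s18dVal 𝔸 E) ↥(modularFunctionFieldFullC E (M * q * q)) ϖ) := by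
    have h1 : V₂.valuation ((sqvmY E M q - T) ^ (q - 1) *
        (algebraMap ↥(s18dVal 𝔸 E) ↥(modularFunctionFieldFullC E (M * q * q)) ϖ)⁻¹ - G₀) <
        V₂.valuation G₀ := by
      rw [hvG]; exact (V₂.mem_nonunits_iff).mp hcong
    have h2 : (sqvmY E M q - T) ^ (q - 1) *
        (algebraMap ↥(s18dVal 𝔸 E) ↥(modularFunctionFieldFullC E (M * q * q)) ϖ)⁻¹ =
        ((sqvmY E M q - T) ^ (q - 1) *
        (algebraMap ↥(s18dVal 𝔸 E) ↥(modularFunctionFieldFullC E (M * q * q)) ϖ)⁻¹ - G₀) + G₀ := by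
      ring
    have h3 : V₂.valuation ((sqvmY E M q - T) ^ (q - 1) *
        (algebraMap ↥(s18dVal 𝔸 E) ↥(modularFunctionFieldFullC E (M * q * q)) ϖ)⁻¹) = 1 := by
      rw [h2, Valuation.map_add_eq_of_lt_right _ h1, hvG]
    rw [map_mul, map_pow, map_inv₀] at h3
    have h4 : V₂.valuation
        (algebraMap ↥(s18dVal 𝔸 E) ↥(modularFunctionFieldFullC E (M * q * q)) ϖ) ≠ 0 :=
      (Valuation.ne_zero_iff _).mpr hϖ0
    exact (mul_inv_eq_one₀ h4).mp h3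
  -- the maps along `α`
  have hαL : ∀ c : E, (ssvmdIncl E (M * q) q).toRingHom
      (algebraMap E (modularFunctionFieldFullC E (M * q)) c) =
      algebraMap E (modularFunctionFieldFullC E (M * q * q)) c :=
    fun c => (ssvmdIncl E (M * q) q).commutes c
  have hint := sqccj_incl_isIntegral E (M * q) q
  have hαJ : (ssvmdIncl E (M * q) q).toRingHom (ssvmdJ E (M * q)) = T := sqvm_incl_J E M q
  have hαY : (ssvmdIncl E (M * q) q).toRingHom (ssvmmY E M q) = sqvmJq E M q := sqvm_incl_Y E M q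
  have hαg : (ssvmdIncl E (M * q) q).toRingHom (sqgvG E M q) = g := hg.symm
  have hJ0 : ssvmdJ E (M * q) ≠ 0 := fun h0 =>
    ssd_transcendental_j E (M * q) (by
      have : ssdJ E (M * q) = 0 := h0
      rw [this]; exact isAlgebraic_zero)
  have hY0 : sqvmJq E M q ≠ 0 := by
    rw [← sqccj_phi_J]
    exact (_root_.map_ne_zero _).mpr hJ0
  have hZ0 : sqvmY E M q ≠ 0 := by
    rw [← sqccj_phi_Y, ← sqccj_phi₁_J]
    refine (_root_.map_ne_zero _).mpr ((_root_.map_ne_zero _).mpr fun h0 => ht₀ ?_)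
    rw [h0]; exact isAlgebraic_zero
  -- the non-cuspidal horizontal places through the cusp point
  have hfin : ∀ W : ValuationSubring (modularFunctionFieldFullC E (M * q * q)), S18IsPlace E W →
      s18tInt ↥(s18dVal 𝔸 E) T⁻¹ ≤ W.toSubring →
      sskCentre T⁻¹ W ⊆ (𝔫'' : Set ↥(s18tInt ↥(s18dVal 𝔸 E) T⁻¹)) → T ∈ W →
      G₀ ∈ W ∧ G₀⁻¹ ∈ W := by
    intro W hW hQ hc htW
    obtain ⟨⟨htinv, ht1⟩, ⟨hyW, hyinv, hy1⟩, -⟩ :=
      sqgcz_hor_fin_mem hQ hc hcusp'' hq1 MP₁ MP₂ hT0 hY0 hZ0 htW (1728 : ↥(s18dVal 𝔸 E))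
    have e1728 : algebraMap ↥(s18dVal 𝔸 E) ↥(modularFunctionFieldFullC E (M * q * q))
        (1728 : ↥(s18dVal 𝔸 E)) = 1728 := map_ofNat _ 1728
    rw [e1728] at ht1 hy1
    have hW' := sqgk_comap_isPlace (ssvmdIncl E (M * q) q).toRingHom hαL hint W hW
    obtain ⟨hg1, hg2⟩ := sqccj_G_unit 𝔸 E M hA hqM
      (W.comap (ssvmdIncl E (M * q) q).toRingHom) hW'
      (by rw [ValuationSubring.mem_comap, hαJ]; exact htW)
      (by rw [ValuationSubring.mem_comap, map_inv₀, hαJ]; exact htinv)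
      (by rw [ValuationSubring.mem_comap, map_inv₀, map_sub, hαJ, map_ofNat]; exact ht1)
      (by rw [ValuationSubring.mem_comap, hαY]; exact hyW)
      (by rw [ValuationSubring.mem_comap, map_inv₀, hαY]; exact hyinv)
      (by rw [ValuationSubring.mem_comap, map_inv₀, map_sub, hαY, map_ofNat]; exact hy1)
    rw [ValuationSubring.mem_comap, hαg] at hg1
    rw [ValuationSubring.mem_comap, map_inv₀, hαg] at hg2
    have hcW : cF ∈ W := by rw [← hcEF]; exact hW.2 cE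
    have hciW : cF⁻¹ ∈ W := by rw [← hcEF, ← map_inv₀]; exact hW.2 cE⁻¹
    constructor
    · rw [hG₀]
      exact W.neg_mem _ (W.mul_mem _ _ hcW hg1)
    · rw [hG₀, inv_neg, mul_inv]
      exact W.neg_mem _ (W.mul_mem _ _ hciW hg2)
  -- the cuspidal horizontal places through the cusp point
  have hcsp : ∀ W : ValuationSubring (modularFunctionFieldFullC E (M * q * q)), S18IsPlace E W →
      s18tInt ↥(s18dVal 𝔸 E) T⁻¹ ≤ W.toSubring →
      sskCentre T⁻¹ W ⊆ (𝔫'' : Set ↥(s18tInt ↥(s18dVal 𝔸 E) T⁻¹)) → T ∉ W →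
      W.valuation G₀ = W.valuation T ^ (q - 1) := by
    intro W hW hQ hc htW
    have hbr := sqccj_branch 𝔫'' hQ hc MP₁ hq1 hT0 V₂ hQ₂ hy₂ hon''
    have h1 : 1 < W.valuation T := not_le.mp fun hle => htW ((W.valuation_le_one_iff _).mp hle)
    have hv := sqccj_G_val 𝔸 E M hA (W.valuation.comap (ssvmdIncl E (M * q) q).toRingHom)
      (fun a => by
        rw [Valuation.comap_apply]
        have e : (ssvmdIncl E (M * q) q).toRingHom
            (algebraMap ↥(s18dVal 𝔸 E) ↥(modularFunctionFieldFullC E (M * q)) a) =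
            algebraMap ↥(s18dVal 𝔸 E) ↥(modularFunctionFieldFullC E (M * q * q)) a :=
          sqgct_incl_algebraMap 𝔸 E M a
        rw [e]
        exact sqgcz_hA (t := T) hQ a)
      (by
        rw [Valuation.comap_apply, map_natCast]
        have : ((q : ℕ) : modularFunctionFieldFullC E (M * q * q)) =
            algebraMap ↥(s18dVal 𝔸 E) ↥(modularFunctionFieldFullC E (M * q * q))
              ((q : ℕ) : ↥(s18dVal 𝔸 E)) := (map_natCast _ q).symm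
        rw [this]
        exact ssl_val_constA hW (Nat.cast_ne_zero.mpr hqp.ne_zero))
      (by rw [Valuation.comap_apply, hαJ]; exact h1)
      (by rw [Valuation.comap_apply, Valuation.comap_apply, hαJ, hαY]; exact hbr)
    rw [Valuation.comap_apply, Valuation.comap_apply, hαJ, hαg] at hv
    have hvc : W.valuation cF = 1 := by
      rw [← hcEF]; exact ssl_val_const hW hcE0
    rw [hG₀, Valuation.map_neg, map_mul, hvc, one_mul, hv]
  -- (T2) in the chart `j⁻¹`, then back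
  have key := sqcch2_T2_of_gk (L := E) hϖ hT0 V₂ (q - 1) hQ₂ hTV₂ 𝔫'' hmax'' hcusp'' hon'' gk hq2
    MP₁ MP₂ MP₃ hzt hy₂ hz₂ hzt₂ hpow G₀ hcong hfin hcsp
  exact (hS.hT2_iff V₂ _ _).mp key

end Main

end Fermat.Agent.SQ
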