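import Mathlib
import Fermat.Agent.SQ.Conc.HCuspT2J
import Fermat.Agent.SQ.Conc.ChartChangeH

/-!
# Program Q (S36), concrete side, `q ∈ {2, 3}` : (T2) AT THE CUSP POINTS OF `C₂` IN THE CHARTS `h_a^{±1}`
(prefix `sqcch2_`)

* `sqcch2_T2cusp_pos` : a closed point `𝔫 ∋ ϖ, t` of the chart `t = h_a ∈ F_E(M q q)` lying on `V₂` only
  (a cusp point over `h_a = 0`) : `ϖ = π^{q-1} w` in `P_𝔫`, `π ∈ 𝔪_{V₂}`;
* `sqcch2_T2cusp_neg` : the same at a closed point `𝔫 ∋ ϖ, t⁻¹` of the chart `t⁻¹` (over `h_a = ∞`).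

Both by the change of chart to `j⁻¹` (helper15's `sqcxh_cusp_pos/_neg`, helper19's `sqcx_same`) and
`sqcch2_T2_chart`.  The coordinate `t` is any element EQUAL to `ssgH E (M q q) a ..` (the consumers use
`ssvmdIncl E (M q) q (ssvmdIncl E M q (ssgH E M a ha haM))`).
-/

set_option autoImplicit false
set_option linter.unusedSectionVars false
set_option linter.unusedVariables false
set_option linter.style.haveILetI false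
set_option synthInstance.maxHeartbeats 400000

noncomputable section

namespace Fermat.Agent.SQ

open Polynomial ModularCurve AlgebraicCurve IntermediateField IsLocalRing Fermat.Agent.S18
  Fermat.Agent.G Fermat.Agent.SS

local notation "Qb" => AlgebraicClosure ℚ

section Main

variable {q : ℕ} [Fact q.Prime] [NeZero q] (𝔸 : ValuationSubring Qb) (E : IntermediateField ℚ Qb)
  [FiniteDimensional ℚ E] [IsDiscreteValuationRing ↥(s18dVal 𝔸 E)] [CharZero ↥(s18dVal 𝔸 E)]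
  (M : ℕ) [NeZero M]
variable {ϖ : ↥(s18dVal 𝔸 E)} {Ξ G : (↥(ssvmmR 𝔸 E M q))[X]}
  (h : SsvAmb (ssvmmR 𝔸 E M q) (ssvmgRUnif (ssvmm_le E M q) ϖ) (ssvmmY E M q) Ξ
    (X - C (ssvmmJ 𝔸 E M q ^ q)) (X ^ q - C (ssvmmJ 𝔸 E M q)) G)

set_option maxHeartbeats 2000000 in
/-- **(T2) AT THE CUSP POINTS OF `C₂` OVER `h_a = 0`**, chart `t = h_a`. -/
theorem sqcch2_T2cusp_pos (hA : 𝔸.LiesOverPrime q) (hqM : ¬ q ∣ M) (hϖ : Irreducible ϖ)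
    (c₀ c₁ : ↥(s18dVal 𝔸 E)) (hc₀ : ((q : ℕ) : ↥(s18dVal 𝔸 E)) = ϖ * c₀) (hc₁ : c₀ * c₁ = 1)
    (a : ℕ) [NeZero a] (ha : a = 2 ∨ a = 3) (haM : a ∣ M)
    (hqa : (q = 2 ∧ a = 3) ∨ (q = 3 ∧ a = 2))
    {V₁ V₂ V₃ : ValuationSubring (modularFunctionFieldFullC E (M * q * q))}
    {ϖE : E} {π₂ : modularFunctionFieldFullC E (M * q * q)}
    (val : SqniVal (algebraMap E (modularFunctionFieldFullC E (M * q)))
      (ssvmdIncl E (M * q) q).toRingHom (ssvmfPhi E (M * q) q) (s18dVal 𝔸 E) h.V₁ h.V₂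
      V₁ V₂ V₃ ϖE π₂ q)
    (t : modularFunctionFieldFullC E (M * q * q))
    (et : t = ssgH E (M * q * q) a ha ((haM.mul_right q).mul_right q))
    {e₂ : ℕ} (three : SqvThree hϖ t e₂ π₂ V₁ V₂ V₃)
    (𝔫 : Ideal ↥(s18tInt ↥(s18dVal 𝔸 E) t)) (hmax : 𝔫.IsMaximal) (hϖ𝔫 : sskPi ϖ t ∈ 𝔫)
    (hh : (⟨t, s18tc_self_mem_int t⟩ : ↥(s18tInt ↥(s18dVal 𝔸 E) t)) ∈ 𝔫)
    (hon : SqtOn V₂ t 𝔫) (hoff₁ : ¬ SqtOn V₁ t 𝔫) (hoff₃ : ¬ SqtOn V₃ t 𝔫) :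
    ∃ π w : modularFunctionFieldFullC E (M * q * q), SsnfInLoc t 𝔫 π ∧ π ∈ V₂.nonunits ∧
      SsnfInLoc t 𝔫 w ∧
      algebraMap ↥(s18dVal 𝔸 E) (modularFunctionFieldFullC E (M * q * q)) ϖ = π ^ (q - 1) * w := by
  subst et
  haveI h𝔫p : 𝔫.IsPrime := hmax.isPrime
  have hs := ssg_transcendental_h E (M * q * q) a ha ((haM.mul_right q).mul_right q)
  haveI := ssg_finiteDimensional_h E (M * q * q) a ha ((haM.mul_right q).mul_right q)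
  obtain ⟨hjmax, hD⟩ := sqcxh_cusp_pos 𝔸 E (M * q * q) a ha ((haM.mul_right q).mul_right q) hA hqa
    𝔫 hh
  obtain ⟨f, g, hf, hg, hf0, hfu, hsfg⟩ := hD.exists_fg h𝔫p.ne_top
  have hS := sqcx_same 𝔫 (sqcx_inLoc_of_inMax hjmax) hf hg hf0 hfu hsfg
  exact sqcch2_T2_chart 𝔸 E M h hA hqM hϖ c₀ c₁ hc₀ hc₁ val _ hs three.fam 𝔫 hmax hϖ𝔫 _ hS hjmax
    hon hoff₁ hoff₃

set_option maxHeartbeats 2000000 in
/-- **(T2) AT THE CUSP POINTS OF `C₂` OVER `h_a = ∞`**, chart `t⁻¹ = h_a⁻¹`. -/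
theorem sqcch2_T2cusp_neg (hA : 𝔸.LiesOverPrime q) (hqM : ¬ q ∣ M) (hϖ : Irreducible ϖ)
    (c₀ c₁ : ↥(s18dVal 𝔸 E)) (hc₀ : ((q : ℕ) : ↥(s18dVal 𝔸 E)) = ϖ * c₀) (hc₁ : c₀ * c₁ = 1)
    (a : ℕ) [NeZero a] (ha : a = 2 ∨ a = 3) (haM : a ∣ M)
    (hqa : (q = 2 ∧ a = 3) ∨ (q = 3 ∧ a = 2))
    {V₁ V₂ V₃ : ValuationSubring (modularFunctionFieldFullC E (M * q * q))}
    {ϖE : E} {π₂ : modularFunctionFieldFullC E (M * q * q)}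
    (val : SqniVal (algebraMap E (modularFunctionFieldFullC E (M * q)))
      (ssvmdIncl E (M * q) q).toRingHom (ssvmfPhi E (M * q) q) (s18dVal 𝔸 E) h.V₁ h.V₂
      V₁ V₂ V₃ ϖE π₂ q)
    (t : modularFunctionFieldFullC E (M * q * q))
    (et : t = ssgH E (M * q * q) a ha ((haM.mul_right q).mul_right q))
    {e₂ : ℕ} (three : SqvThree hϖ t e₂ π₂ V₁ V₂ V₃)
    (𝔫 : Ideal ↥(s18tInt ↥(s18dVal 𝔸 E) t⁻¹)) (hmax : 𝔫.IsMaximal) (hϖ𝔫 : sskPi ϖ t⁻¹ ∈ 𝔫)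
    (hu : ssglTinv (A := ↥(s18dVal 𝔸 E)) t ∈ 𝔫)
    (hon : SqtOn V₂ t⁻¹ 𝔫) (hoff₁ : ¬ SqtOn V₁ t⁻¹ 𝔫) (hoff₃ : ¬ SqtOn V₃ t⁻¹ 𝔫) :
    ∃ π w : modularFunctionFieldFullC E (M * q * q), SsnfInLoc t⁻¹ 𝔫 π ∧ π ∈ V₂.nonunits ∧
      SsnfInLoc t⁻¹ 𝔫 w ∧
      algebraMap ↥(s18dVal 𝔸 E) (modularFunctionFieldFullC E (M * q * q)) ϖ = π ^ (q - 1) * w := by
  subst et
  haveI h𝔫p : 𝔫.IsPrime := hmax.isPrime
  have hs := ssg_transcendental_h E (M * q * q) a ha ((haM.mul_right q).mul_right q)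
  haveI := ssg_finiteDimensional_h E (M * q * q) a ha ((haM.mul_right q).mul_right q)
  have hs' : Transcendental E (ssgH E (M * q * q) a ha ((haM.mul_right q).mul_right q))⁻¹ :=
    sqgcz_transcendental_inv hs
  haveI : FiniteDimensional E⟮(ssgH E (M * q * q) a ha ((haM.mul_right q).mul_right q))⁻¹⟯
      (modularFunctionFieldFullC E (M * q * q)) :=
    sqgcz_finiteDimensional_inv (L := E) _
  obtain ⟨hjmax, hD⟩ := sqcxh_cusp_neg 𝔸 E (M * q * q) a ha ((haM.mul_right q).mul_right q) hA hqa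
    𝔫 hu
  obtain ⟨f, g, hf, hg, hf0, hfu, hsfg⟩ := hD.exists_fg h𝔫p.ne_top
  have hS := sqcx_same 𝔫 (sqcx_inLoc_of_inMax hjmax) hf hg hf0 hfu hsfg
  exact sqcch2_T2_chart 𝔸 E M h hA hqM hϖ c₀ c₁ hc₀ hc₁ val _ hs'
    (sqgcz_fam_inv three.fam hs) 𝔫 hmax hϖ𝔫 _ hS hjmax hon hoff₁ hoff₃

end Main

end Fermat.Agent.SQ
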