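import Mathlib
import Fermat.Agent.SQ.Conc.Geo
import Fermat.Agent.SQ.Conc.AmbTwo
import Fermat.Agent.SQ.Val.Tower
import Fermat.Agent.SQ.Val.ModTwoMain

/-!
# Program Q, assembler : THE FIELD `three` OF THE SLOT (VAL²), both charts

`SqccVal.three : SqvThree hϖ (sqccT E M q t₀) (q - 1) π₂ V₁ V₂ V₃` from
* helper17's `SqvmOut` (the `α`-half of VAL² : `sqvm_main`), `π₂ = y - b = j_qq - j`;
* helper15's `sqvw_three` (the three valuations of the level `q²` from the two of the level `q`);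
* the level-`M q` (VAL) package for the GIVEN witness `h` (`sqcau_two_j`, `sqcau_two_h`).

* `sqcvt_three` : generic chart coordinate `t₀` of level `M`, any `SqvmOut`;
* `sqcvt_three_j`, `sqcvt_three_h` : the charts `j`, `h_a`;
* `sqcvt_exists_j`, `sqcvt_exists_h` : `∃ V₁ V₂ V₃, SqvmOut … ∧ SqvThree …` (with `sqvm_main`).
-/

set_option autoImplicit false
set_option linter.unusedSectionVars false
set_option linter.unusedVariables false
set_option linter.style.haveILetI false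
set_option synthInstance.maxHeartbeats 400000

noncomputable section

namespace Fermat.Agent.SQ

open Polynomial ModularCurve AlgebraicCurve IntermediateField IsLocalRing Fermat.Agent.S18
  Fermat.Agent.SS Fermat.Agent.G

local notation "Qb" => AlgebraicClosure ℚ

section Generic

variable (A : ValuationSubring Qb) (E : IntermediateField ℚ Qb)
  [IsDiscreteValuationRing ↥(s18dVal A E)] [CharZero ↥(s18dVal A E)] (M q : ℕ) [NeZero M]
  [Fact q.Prime] [NeZero q]

/-- `α` on the constants of `A₀` -/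
theorem sqcvt_incl_algebraMap (N : ℕ) [NeZero N] (a : ↥(s18dVal A E)) :
    (ssvmdIncl E N q).toRingHom
        (algebraMap ↥(s18dVal A E) ↥(modularFunctionFieldFullC E N) a) =
      algebraMap ↥(s18dVal A E) ↥(modularFunctionFieldFullC E (N * q)) a := by
  rw [IsScalarTower.algebraMap_apply ↥(s18dVal A E) E (modularFunctionFieldFullC E N),
    IsScalarTower.algebraMap_apply ↥(s18dVal A E) E (modularFunctionFieldFullC E (N * q))]
  exact (ssvmdIncl E N q).commutes _

set_option maxHeartbeats 1000000 in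
/-- **`SqvThree` at the chart `t = α (α₁ t₀)`** from `SqvmOut` and the level-`M q` package. -/
theorem sqcvt_three {ϖ : ↥(s18dVal A E)} (hϖ : Irreducible ϖ)
    {W₁ W₂ : ValuationSubring (modularFunctionFieldFullC E (M * q))}
    (t₀ : modularFunctionFieldFullC E M)
    {u₁ u₂ : modularFunctionFieldFullC E (M * q)}
    (hTwo : SsvTwo hϖ (ssvmdIncl E M q t₀) u₁ u₂ W₁ W₂)
    (ht₁ : Transcendental E (ssvmdIncl E M q t₀))
    (ht : Transcendental E (sqccT E M q t₀))
    [FiniteDimensional E⟮sqccT E M q t₀⟯ (modularFunctionFieldFullC E (M * q * q))]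
    {y a b c : modularFunctionFieldFullC E (M * q * q)}
    {V₁ V₂ V₃ : ValuationSubring (modularFunctionFieldFullC E (M * q * q))}
    (out : SqvmOut (ssvmdIncl E (M * q) q).toRingHom W₁ W₂
      (algebraMap ↥(s18dVal A E) ↥(modularFunctionFieldFullC E (M * q * q)) ϖ) y a b c q
      V₁ V₂ V₃) :
    SqvThree hϖ (sqccT E M q t₀) (q - 1) (y - b) V₁ V₂ V₃ := by
  have hq : q.Prime := Fact.out
  have he : q - 1 ≠ 0 := by have := hq.two_le; omega
  exact sqvw_three (L := E) hϖ (ssvmdIncl E (M * q) q).toRingHom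
    (fun a => sqcvt_incl_algebraMap A E q (M * q) a) (ssvmdIncl E M q t₀) ht₁ ht hTwo
    out.pos₁ out.pos₂ out.pos₃ out.cases₁ out.cases₂ out.unif₁ out.unif₃ out.unif₂ he out.pow₂
    out.sep₁₂ out.sep₂₁

end Generic

section Charts

variable (A : ValuationSubring Qb) (E : IntermediateField ℚ Qb) [FiniteDimensional ℚ E]
  [IsDiscreteValuationRing ↥(s18dVal A E)] [CharZero ↥(s18dVal A E)] (M q : ℕ) [NeZero M]
  [Fact q.Prime] [NeZero q]

set_option maxHeartbeats 1000000 in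
/-- `SqvThree` at the chart `j` of level `M q q`, from any `SqvmOut` over the given witness `h`. -/
theorem sqcvt_three_j (hA : A.LiesOverPrime q) (hqM : ¬ q ∣ M) {ϖ : ↥(s18dVal A E)}
    (hϖ : Irreducible ϖ) {Ξ G : (↥(ssvmmR A E M q))[X]}
    (h : SsvAmb (ssvmmR A E M q) (ssvmgRUnif (ssvmm_le E M q) ϖ) (ssvmmY E M q) Ξ
      (X - C (ssvmmJ A E M q ^ q)) (X ^ q - C (ssvmmJ A E M q)) G)
    {y a b c : modularFunctionFieldFullC E (M * q * q)}
    {V₁ V₂ V₃ : ValuationSubring (modularFunctionFieldFullC E (M * q * q))}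
    (out : SqvmOut (ssvmdIncl E (M * q) q).toRingHom h.V₁ h.V₂
      (algebraMap ↥(s18dVal A E) ↥(modularFunctionFieldFullC E (M * q * q)) ϖ) y a b c q
      V₁ V₂ V₃) :
    SqvThree hϖ (sqccT E M q (ssdJ E M)) (q - 1) (y - b) V₁ V₂ V₃ := by
  have e₁ : ssvmdIncl E M q (ssdJ E M) = ssdJ E (M * q) := ssgms_incl_j E M
  have hTwo := sqcau_two_j A E M hA hqM hϖ h
  rw [← e₁] at hTwo
  have ht₁ : Transcendental E (ssvmdIncl E M q (ssdJ E M)) := by
    rw [e₁]; exact ssd_transcendental_j _ _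
  have ht : Transcendental E (sqccT E M q (ssdJ E M)) := by
    rw [sqcc_chart_j]; exact ssd_transcendental_j _ _
  haveI : FiniteDimensional E⟮sqccT E M q (ssdJ E M)⟯
      (modularFunctionFieldFullC E (M * q * q)) := by
    rw [sqcc_chart_j]; exact ssd_finiteDimensional_j _ _
  exact sqcvt_three A E M q hϖ (ssdJ E M) hTwo ht₁ ht out

set_option maxHeartbeats 1000000 in
/-- `SqvThree` at the chart `h_a` of level `M q q`, from any `SqvmOut` over the given witness. -/
theorem sqcvt_three_h (a : ℕ) [NeZero a] (ha : a = 2 ∨ a = 3) (haM : a ∣ M)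
    (hA : A.LiesOverPrime q) (hqM : ¬ q ∣ M) {ϖ : ↥(s18dVal A E)}
    (hϖ : Irreducible ϖ) {Ξ G : (↥(ssvmmR A E M q))[X]}
    (h : SsvAmb (ssvmmR A E M q) (ssvmgRUnif (ssvmm_le E M q) ϖ) (ssvmmY E M q) Ξ
      (X - C (ssvmmJ A E M q ^ q)) (X ^ q - C (ssvmmJ A E M q)) G)
    {y a' b c : modularFunctionFieldFullC E (M * q * q)}
    {V₁ V₂ V₃ : ValuationSubring (modularFunctionFieldFullC E (M * q * q))}
    (out : SqvmOut (ssvmdIncl E (M * q) q).toRingHom h.V₁ h.V₂
      (algebraMap ↥(s18dVal A E) ↥(modularFunctionFieldFullC E (M * q * q)) ϖ) y a' b c q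
      V₁ V₂ V₃) :
    SqvThree hϖ (sqccT E M q (ssgH E M a ha haM)) (q - 1) (y - b) V₁ V₂ V₃ := by
  have e₁ : ssvmdIncl E M q (ssgH E M a ha haM) =
      ssgH E (M * q) a ha (Dvd.dvd.mul_right haM q) := ssgms_incl_h E M a ha haM
  have hTwo := sqcau_two_h A E M a ha haM hA hqM hϖ h
  rw [← e₁] at hTwo
  have ht₁ : Transcendental E (ssvmdIncl E M q (ssgH E M a ha haM)) := by
    rw [e₁]; exact ssg_transcendental_h _ _ a ha _
  have ht : Transcendental E (sqccT E M q (ssgH E M a ha haM)) := by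
    rw [sqcc_chart_h]; exact ssg_transcendental_h _ _ a ha _
  haveI : FiniteDimensional E⟮sqccT E M q (ssgH E M a ha haM)⟯
      (modularFunctionFieldFullC E (M * q * q)) := by
    rw [sqcc_chart_h]; exact ssg_finiteDimensional_h _ _ a ha _
  exact sqcvt_three A E M q hϖ (ssgH E M a ha haM) hTwo ht₁ ht out

set_option maxHeartbeats 1000000 in
/-- **the `α`-half of (VAL²) with `SqvThree`, chart `j`** (`ϖ = q`). -/
theorem sqcvt_exists_j (hA : A.LiesOverPrime q) (hqM : ¬ q ∣ M)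
    (hϖ : Irreducible ((q : ℕ) : ↥(s18dVal A E))) {Ξ G : (↥(ssvmmR A E M q))[X]}
    (h : SqccAmb A E M q Ξ G) :
    ∃ V₁ V₂ V₃ : ValuationSubring (modularFunctionFieldFullC E (M * q * q)),
      SqvmOut (ssvmdIncl E (M * q) q).toRingHom h.V₁ h.V₂
        (algebraMap ↥(s18dVal A E) ↥(modularFunctionFieldFullC E (M * q * q))
          ((q : ℕ) : ↥(s18dVal A E)))
        (sqvmY E M q) (sqvmJq E M q ^ q) (ssvmdJ E (M * q * q)) (sqvmJq E M q) q V₁ V₂ V₃ ∧
      SqvThree hϖ (sqccT E M q (ssdJ E M)) (q - 1) (sqvmY E M q - ssvmdJ E (M * q * q))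
        V₁ V₂ V₃ := by
  obtain ⟨V₁, V₂, V₃, out⟩ := sqvm_main A E M h hA hqM hϖ (Associated.refl _)
  exact ⟨V₁, V₂, V₃, out, sqcvt_three_j A E M q hA hqM hϖ h out⟩

set_option maxHeartbeats 1000000 in
/-- **the `α`-half of (VAL²) with `SqvThree`, chart `h_a`** (`ϖ = q`). -/
theorem sqcvt_exists_h (a : ℕ) [NeZero a] (ha : a = 2 ∨ a = 3) (haM : a ∣ M)
    (hA : A.LiesOverPrime q) (hqM : ¬ q ∣ M)
    (hϖ : Irreducible ((q : ℕ) : ↥(s18dVal A E))) {Ξ G : (↥(ssvmmR A E M q))[X]}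
    (h : SqccAmb A E M q Ξ G) :
    ∃ V₁ V₂ V₃ : ValuationSubring (modularFunctionFieldFullC E (M * q * q)),
      SqvmOut (ssvmdIncl E (M * q) q).toRingHom h.V₁ h.V₂
        (algebraMap ↥(s18dVal A E) ↥(modularFunctionFieldFullC E (M * q * q))
          ((q : ℕ) : ↥(s18dVal A E)))
        (sqvmY E M q) (sqvmJq E M q ^ q) (ssvmdJ E (M * q * q)) (sqvmJq E M q) q V₁ V₂ V₃ ∧
      SqvThree hϖ (sqccT E M q (ssgH E M a ha haM)) (q - 1)
        (sqvmY E M q - ssvmdJ E (M * q * q)) V₁ V₂ V₃ := by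
  obtain ⟨V₁, V₂, V₃, out⟩ := sqvm_main A E M h hA hqM hϖ (Associated.refl _)
  exact ⟨V₁, V₂, V₃, out, sqcvt_three_h A E M q a ha haM hA hqM hϖ h out⟩

end Charts

end Fermat.Agent.SQ
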