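import Mathlib
import Fermat.Agent.SQ.Conc.Geo
import Fermat.Agent.SQ.Conc.AmbTwo
import Fermat.Agent.SQ.Conc.ValThree
import Fermat.Agent.SQ.Val.SymMain

/-!
# Program Q, assembler : THE SLOT (VAL², existence) IS A THEOREM (both charts)

`SqccValEx A E M q t₀` (helper14's `SQ/Conc/Geo.lean`) asks, for `ϖ = q`, for a witness `h` of the
level-`M q` two-factor package, an element `π₂` and three valuation rings `V₁ V₂ V₃` of
`F_E(M q q)` with `SqccVal` = `SqvThree` (chart `α (α₁ t₀)`) + `SqniVal`.  Here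
* `h`           : `ssvmm_amb` (main);
* `V₁ V₂ V₃`    : `sqvm_main` (`SQ/Val/ModTwoMain.lean`), with `SqvmOut`; `π₂ = j_qq - j`;
* `three`       : helper18's `sqcvt_three_j`, `sqcvt_three_h` (`SQ/Conc/ValThree.lean`, from helper15's
  `sqvw_three` and the level-`M q` package `sqcau_two_j/_h`);
* `val`         : helper8's `sqvy_val_of_out` (`SQ/Val/SymMain.lean`, the Fricke symmetry).

* `sqccv_val_j`, `sqccv_val_h` : one field `E` (finite over `ℚ`);
* `sqcc_val_j : SqccAllJ @SqccValEx`, `sqcc_val_h : SqccAllH @SqccValEx` : the slots.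

Prefix `sqccv_`.
-/

set_option autoImplicit false
set_option linter.unusedSectionVars false
set_option linter.unusedVariables false
set_option linter.style.haveILetI false
set_option synthInstance.maxHeartbeats 400000

noncomputable section

namespace Fermat.Agent.SQ

open Polynomial ModularCurve AlgebraicCurve IntermediateField IsLocalRing Fermat.Agent.S18
  Fermat.Agent.SS Fermat.Agent.G

local notation "Qb" => AlgebraicClosure ℚ

section OneField

variable (A : ValuationSubring Qb) (E : IntermediateField ℚ Qb) [FiniteDimensional ℚ E]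
  [IsDiscreteValuationRing ↥(s18dVal A E)] [CharZero ↥(s18dVal A E)] (M q : ℕ) [NeZero M]
  [Fact q.Prime] [NeZero q]

set_option maxHeartbeats 2000000 in
/-- the slot (VAL², existence) for the chart `j` -/
theorem sqccv_val_j (hA : A.LiesOverPrime q) (hqM : ¬ q ∣ M) : SqccValEx A E M q (ssdJ E M) := by
  intro hϖ
  obtain ⟨Ξ, G, h⟩ := ssvmm_amb A E M hA hqM hϖ
  obtain ⟨V₁, V₂, V₃, out⟩ := sqvm_main A E M h hA hqM hϖ (Associated.refl _)
  exact ⟨Ξ, G, h, sqvmY E M q - ssvmdJ E (M * q * q), V₁, V₂, V₃,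
    ⟨sqcvt_three_j A E M q hA hqM hϖ h out, sqvy_val_of_out A E M h hA hqM hϖ out⟩⟩

set_option maxHeartbeats 2000000 in
/-- the slot (VAL², existence) for the chart `h_a` -/
theorem sqccv_val_h (a : ℕ) [NeZero a] (ha : a = 2 ∨ a = 3) (haM : a ∣ M)
    (hA : A.LiesOverPrime q) (hqM : ¬ q ∣ M) : SqccValEx A E M q (ssgH E M a ha haM) := by
  intro hϖ
  obtain ⟨Ξ, G, h⟩ := ssvmm_amb A E M hA hqM hϖ
  obtain ⟨V₁, V₂, V₃, out⟩ := sqvm_main A E M h hA hqM hϖ (Associated.refl _)
  exact ⟨Ξ, G, h, sqvmY E M q - ssvmdJ E (M * q * q), V₁, V₂, V₃,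
    ⟨sqcvt_three_h A E M q a ha haM hA hqM hϖ h out, sqvy_val_of_out A E M h hA hqM hϖ out⟩⟩

end OneField

/-! ### the slots -/

section Slots

set_option maxHeartbeats 1000000 in
/-- **THE SLOT (VAL², existence), chart `j`.** -/
theorem sqcc_val_j : SqccAllJ @SqccValEx := by
  intro M q _ _ _ hqM h5 _ A hA
  refine ⟨⊥, inferInstance, ?_⟩
  intro E _ _ _ _ hle
  exact sqccv_val_j A (ssgfE0 A E) M q hA hqM

set_option maxHeartbeats 1000000 in
/-- **THE SLOT (VAL², existence), chart `h_a`.** -/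
theorem sqcc_val_h : SqccAllH @SqccValEx := by
  intro M q _ _ _ a _ ha haM hqa hqM _ A hA
  refine ⟨⊥, inferInstance, ?_⟩
  intro E _ _ _ _ hle
  exact sqccv_val_h A (ssgfE0 A E) M q a ha haM hA hqM

end Slots

end Fermat.Agent.SQ
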