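import Mathlib
import Fermat.Agent.SQ.Conc.GeoSplit
import Fermat.Agent.SQ.Conc.WireSlot
import Fermat.Agent.SQ.Germ.CuspHMain
import Fermat.Agent.SQ.Conc.HCusp
import Fermat.Agent.SQ.Conc.HCuspT2H
import Fermat.Agent.SQ.Germ.T2Conc
import Fermat.Agent.SQ.Germ.CrossFinH
import Fermat.Agent.SQ.Conc.ValSlot

/-!
# Program Q (S36), concrete side : THE BRANCH `q ∈ {2, 3}` OF `SqGeoAll` (chart `h_a`, `a = 5 - q`)
(prefix `sqcch2_`; the slot closures are named `sqcc_*_h`)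

* `sqcch2_inf_h`, `sqcc_inf_h : SqccAllH @SqccInf` : THE SLOT (CUSPS) — helper7's `sqgch_inf_h`
  (`SQ/Germ/CuspHMain.lean`, pointwise, from (WIRE) + no-cross at the cusp `h_a = ∞`) with (T2) at the cusp
  points of `C₂` from `sqcch2_T2cusp_neg` (change of chart to `j⁻¹`).
* `sqcch2_t2_h`, `sqcc_t2_h : SqccAllH @SqccT2` : THE SLOT (R1-T2) — `q = 2` void, `q = 3` : cusp points by
  `sqcch2_T2cusp_pos`, the others by helper10's `sqgt_hT2_conc` with `sqcch2_noncusp_pull`.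
* `sqcc_t1_h : SqccAllH @SqccT1` : THE SLOT (R1-T1) — helper29's `sqgtf_T1_h_full`.
* `sqcc_geoH : SqccGeoH` : the branch, from the five slots (`sqcc_val_h` helper17, `sqcc_wire_h`
  helper18).
-/

set_option autoImplicit false
set_option linter.unusedSectionVars false
set_option linter.unusedVariables false
set_option linter.style.haveILetI false
set_option synthInstance.maxHeartbeats 400000

noncomputable section

namespace Fermat.Agent.SQ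

open Polynomial ModularCurve AlgebraicCurve IntermediateField IsLocalRing Fermat.Agent.S18
  Fermat.Agent.SS Fermat.Agent.G

local notation "Qb" => AlgebraicClosure ℚ

section OneField

variable (A : ValuationSubring Qb) (E : IntermediateField ℚ Qb) [FiniteDimensional ℚ E]
  [IsDiscreteValuationRing ↥(s18dVal A E)] [CharZero ↥(s18dVal A E)] (M q : ℕ) [NeZero M]
  [Fact q.Prime] [NeZero q]

set_option maxHeartbeats 2000000 in
/-- the slot (CUSPS) for the chart `h_a`, over a field containing `ζ_M` -/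
theorem sqcch2_inf_h (a : ℕ) [NeZero a] (ha : a = 2 ∨ a = 3) (haM : a ∣ M)
    (hqa : (q = 2 ∧ a = 3) ∨ (q = 3 ∧ a = 2)) (hA : A.LiesOverPrime q) (hqM : ¬ q ∣ M)
    (ζ : E) (hζ : IsPrimitiveRoot ζ M) : SqccInf A E M q (ssgH E M a ha haM) := by
  intro hϖ Ξ G h π₂ V₁ V₂ V₃ hval 𝔫 hmax hϖ𝔫 hu
  have H := sqccw_wire_h A E M q a ha haM hqa hA hqM ζ hζ hϖ h π₂ V₁ V₂ V₃ hval
  refine sqgch_inf_h A E M hA hqM hϖ Ξ G h a ha haM hqa ζ hζ hval.three H 𝔫 hmax hϖ𝔫 hu ?_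
  intro hon hoff₁ hoff₃
  exact sqcch2_T2cusp_neg A E M h hA hqM hϖ 1 1 (by rw [mul_one]) (one_mul 1) a ha haM hqa
    hval.val _ (sqcc_chart_h M q E a ha haM) hval.three 𝔫 hmax hϖ𝔫 hu hon hoff₁ hoff₃

/-- level `N` : at a point of the chart `h_a` of `F_E(N)` not over `h_a = 0`, `j` lies in the local
ring. -/
theorem sqcch2_inLoc_lev (N : ℕ) [NeZero N] (a : ℕ) [NeZero a] (ha : a = 2 ∨ a = 3) (haN : a ∣ N)
    (hu : IsUnit ((a : ℕ) : ↥(s18dVal A E)))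
    (𝔫 : Ideal ↥(s18tInt ↥(s18dVal A E) (ssgH E N a ha haN))) [h𝔫 : 𝔫.IsPrime]
    (hnc : (⟨ssgH E N a ha haN, ssgn_self_mem_int _⟩ :
      ↥(s18tInt ↥(s18dVal A E) (ssgH E N a ha haN))) ∉ 𝔫) :
    SsnfInLoc (ssgH E N a ha haN) 𝔫 (ssdJ E N) := by
  have key : ∀ {R₁ R₂ : (↥(s18dVal A E))[X]}
      (H : SsgnHaupt ↥(s18dVal A E) (LaurentSeries E) a R₁ R₂ (jqModC E) (jqNModC E a)
        (s18hq a (s18hExp a) E)),
      SsnfInLoc (ssgH E N a ha haN) 𝔫 (ssdJ E N) := by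
    intro R₁ R₂ H
    have HF : SsgnHaupt ↥(s18dVal A E) (modularFunctionFieldFullC E N) a R₁ R₂ (ssdJ E N)
        (ssgnJa E N a haN) (ssgH E N a ha haN) :=
      SsgnHaupt.of_map (ssgnVal A E N) (ssgnVal_injective A E N) H
    exact sqcch2_inLoc_of_not_mem HF 𝔫 hnc
  rcases ha with rfl | rfl
  · exact key (ssgn_haupt_two A E hu)
  · exact key (ssgn_haupt_three A E hu)

set_option maxHeartbeats 6400000 in
/-- **NON-CUSPIDALITY, PULLED DOWN** : a prime `𝔫` of the chart `t = α (α₁ h_a)` of level `M q q` not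
containing `t` : the three pointwise facts of helper10's `sqgt_hT2_conc` at `𝔫₁ = 𝔫 ∩ P₁`,
`𝔰 = 𝔫₁ ∩ P₀`. -/
theorem sqcch2_noncusp_pull (a : ℕ) [NeZero a] (ha : a = 2 ∨ a = 3) (haM : a ∣ M) (haq : a ≠ q)
    (hA : A.LiesOverPrime q)
    (𝔫 : Ideal ↥(s18tInt ↥(s18dVal A E)
      (ssvmdIncl E (M * q) q (ssvmdIncl E M q (ssgH E M a ha haM))))) [h𝔫 : 𝔫.IsPrime]
    (hnc : (⟨ssvmdIncl E (M * q) q (ssvmdIncl E M q (ssgH E M a ha haM)), s18tc_self_mem_int _⟩ :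
      ↥(s18tInt ↥(s18dVal A E)
        (ssvmdIncl E (M * q) q (ssvmdIncl E M q (ssgH E M a ha haM))))) ∉ 𝔫) :
    SsnfInLoc (ssgH E M a ha haM)
      ((𝔫.comap (sqgpdRes (ssvmdIncl E (M * q) q).toRingHom
          (sqgt_incl_int A E (M * q) q (ssvmdIncl E M q (ssgH E M a ha haM))))).comap
        (sqgpdRes (ssvmdIncl E M q).toRingHom (sqgt_incl_int A E M q (ssgH E M a ha haM))))
      (ssvmdJ E M) ∧
    SsnfInLoc (ssvmdIncl E M q (ssgH E M a ha haM))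
      (𝔫.comap (sqgpdRes (ssvmdIncl E (M * q) q).toRingHom
        (sqgt_incl_int A E (M * q) q (ssvmdIncl E M q (ssgH E M a ha haM))))) (ssdJ E (M * q)) ∧
    SsnfInLoc (ssvmdIncl E M q (ssgH E M a ha haM))
      (𝔫.comap (sqgpdRes (ssvmdIncl E (M * q) q).toRingHom
        (sqgt_incl_int A E (M * q) q (ssvmdIncl E M q (ssgH E M a ha haM)))))
      (ssvmfPhi E M q (ssdJ E M)) := by
  obtain ⟨Φ, MP⟩ := ssgcl_modPoly_over q A hA E
  have hqp : q.Prime := Fact.out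
  have hq2 : 2 ≤ q := hqp.two_le
  have hndvd : ¬ q ∣ a := by
    intro hdvd
    have hap : a.Prime := by rcases ha with rfl | rfl <;> norm_num
    exact haq ((Nat.prime_dvd_prime_iff_eq hqp hap).mp hdvd).symm
  have hun : IsUnit ((a : ℕ) : ↥(s18dVal A E)) := s18r_isUnit_natCast A E hA a hndvd
  -- the two primes below
  have hnc₁ : (⟨ssvmdIncl E M q (ssgH E M a ha haM), ssgn_self_mem_int _⟩ :
      ↥(s18tInt ↥(s18dVal A E) (ssvmdIncl E M q (ssgH E M a ha haM)))) ∉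
      𝔫.comap (sqgpdRes (ssvmdIncl E (M * q) q).toRingHom
        (sqgt_incl_int A E (M * q) q (ssvmdIncl E M q (ssgH E M a ha haM)))) := by
    intro hmem
    rw [Ideal.mem_comap] at hmem
    exact hnc hmem
  have hnc₀ : (⟨ssgH E M a ha haM, ssgn_self_mem_int _⟩ :
      ↥(s18tInt ↥(s18dVal A E) (ssgH E M a ha haM))) ∉
      (𝔫.comap (sqgpdRes (ssvmdIncl E (M * q) q).toRingHom
          (sqgt_incl_int A E (M * q) q (ssvmdIncl E M q (ssgH E M a ha haM))))).comap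
        (sqgpdRes (ssvmdIncl E M q).toRingHom (sqgt_incl_int A E M q (ssgH E M a ha haM))) := by
    intro hmem
    rw [Ideal.mem_comap] at hmem
    exact hnc₁ hmem
  refine ⟨sqcch2_inLoc_lev A E M a ha haM hun _ hnc₀, ?_⟩
  have e₁ : ssvmdIncl E M q (ssgH E M a ha haM) = ssgH E (M * q) a ha (haM.mul_right q) :=
    sqcch_incl_h E M q a ha haM
  have key : ∀ (t₁ : modularFunctionFieldFullC E (M * q))
      (e : t₁ = ssgH E (M * q) a ha (haM.mul_right q))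
      (𝔫₁ : Ideal ↥(s18tInt ↥(s18dVal A E) t₁)) [h𝔫₁ : 𝔫₁.IsPrime]
      (hnc : (⟨t₁, ssgn_self_mem_int _⟩ : ↥(s18tInt ↥(s18dVal A E) t₁)) ∉ 𝔫₁),
      SsnfInLoc t₁ 𝔫₁ (ssdJ E (M * q)) ∧ SsnfInLoc t₁ 𝔫₁ (ssvmfPhi E M q (ssdJ E M)) := by
    rintro t₁ rfl 𝔫₁ h𝔫₁ hnc
    exact sqcch2_inLoc_mod A E M q a ha haM hq2 haq hun MP 𝔫₁ hnc
  exact key _ e₁ _ hnc₁

set_option maxHeartbeats 6400000 in
/-- the slot (R1-T2) for the chart `h_a`, over a field containing `ζ_M` : `q = 2` is void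
(`e₂ = q - 1 = 1`, helper7's `sqgch_T2_one`); `q = 3` : the points over the cusp `h_a = 0` by
`sqcch2_T2cusp_pos`, the others by helper10's `sqgt_hT2_conc`. -/
theorem sqcch2_t2_h (a : ℕ) [NeZero a] (ha : a = 2 ∨ a = 3) (haM : a ∣ M)
    (hqa : (q = 2 ∧ a = 3) ∨ (q = 3 ∧ a = 2)) (hA : A.LiesOverPrime q) (hqM : ¬ q ∣ M)
    (ζ : E) (hζ : IsPrimitiveRoot ζ M)
    (r : ℕ) (hr : r.Prime) (hrM : r ∣ M) (hr3 : r % 3 = 2)
    (r' : ℕ) (hr' : r'.Prime) (hr'M : r' ∣ M) (hr4 : r' % 4 = 3) :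
    SqccT2 A E M q (ssgH E M a ha haM) := by
  intro hϖ Ξ G h π₂ V₁ V₂ V₃ hv 𝔫 h𝔫 hϖ𝔫 hon h1 h3
  have hW := sqccw_wire_h A E M q a ha haM hqa hA hqM ζ hζ hϖ h π₂ V₁ V₂ V₃ hv
  by_cases hq2 : q = 2
  · have e : q - 1 = 1 := by omega
    rw [e]
    exact sqgch_T2_one _ _ 𝔫 h𝔫.ne_top V₂ hW.three.unif₂
  · by_cases hc : (⟨sqccT E M q (ssgH E M a ha haM), s18tc_self_mem_int _⟩ :
        ↥(s18tInt ↥(s18dVal A E) (sqccT E M q (ssgH E M a ha haM)))) ∈ 𝔫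
    · exact sqcch2_T2cusp_pos A E M h hA hqM hϖ 1 1 (by rw [mul_one]) (one_mul 1) a ha haM hqa
        hv.val _ (sqcc_chart_h M q E a ha haM) hv.three 𝔫 h𝔫 hϖ𝔫 hc hon h1 h3
    · have ht : Transcendental E (ssvmdIncl E (M * q) q (ssvmdIncl E M q (ssgH E M a ha haM))) := by
        have := sqcc_chart_h M q E a ha haM
        rw [show ssvmdIncl E (M * q) q (ssvmdIncl E M q (ssgH E M a ha haM)) = _ from this]
        exact ssg_transcendental_h _ _ a ha _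
      haveI : FiniteDimensional E⟮ssvmdIncl E (M * q) q (ssvmdIncl E M q (ssgH E M a ha haM))⟯
          (modularFunctionFieldFullC E (M * q * q)) := by
        have := sqcc_chart_h M q E a ha haM
        rw [show ssvmdIncl E (M * q) q (ssvmdIncl E M q (ssgH E M a ha haM)) = _ from this]
        exact ssg_finiteDimensional_h _ _ a ha _
      haveI := ssg_finiteDimensional_h E M a ha haM
      have hc₀ : S18Coord hϖ (modularFunctionFieldFullC E M) (ssgH E M a ha haM) :=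
        ssgms_coord_h A E M a ha haM hA hqM _ hϖ
      have hgood : GrdfbHyp hϖ (ssgH E M a ha haM) :=
        (ssgb_hyp_h' M A E a hqM hA hqa haM _ hϖ ζ hζ (ssgH E M a ha haM).2).1
      haveI h𝔫p : 𝔫.IsPrime := h𝔫.isPrime
      have haq : a ≠ q := by rcases hqa with ⟨h, h'⟩ | ⟨h, h'⟩ <;> omega
      have hP := sqcch2_noncusp_pull A E M q a ha haM haq hA 𝔫 hc
      exact sqgt_hT2_conc A E M hA hqM hϖ (Associated.refl _) Ξ G h r hr hrM hr3 r' hr' hr'M hr4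
        (s18hq a (s18hExp a) ℤ) (ssgH E M a ha haM) (grdis_grdSer_hq a (s18hExp a) E).symm hc₀ hgood
        (ssg_transcendental_h E M a ha haM) ht hW.chartW hW.chart₂ hv.three hv.val.posα₂
        hv.val.posφ₂ 𝔫 h𝔫 hϖ𝔫 hon h1 h3 hP.1 hP.2.1 hP.2.2

end OneField

section Slots

set_option maxHeartbeats 1000000 in
/-- **THE SLOT (CUSPS), chart `h_a`.** -/
theorem sqcc_inf_h : SqccAllH @SqccInf := by
  intro M q _ _ _ a _ ha haM hqa hqM _ A hA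
  have hq : q.Prime := Fact.out
  obtain ⟨ζ, E₁, hE₁, hζ, hζE₁⟩ := sqccw_exists_cyclo M
  refine ⟨E₁, hE₁, ?_⟩
  intro E _ _ _ _ hle
  obtain ⟨ζ₀, hζ₀⟩ := sqccw_root_E0 A hq hA hqM E hζ (hle hζE₁)
  exact sqcch2_inf_h A (ssgfE0 A E) M q a ha haM hqa hA hqM ζ₀ hζ₀

set_option maxHeartbeats 1000000 in
/-- **THE SLOT (R1-T1), chart `h_a`** : helper29's `sqgtf_T1_h_full` at `ϖ = q`, `c₀ = 1`. -/
theorem sqcc_t1_h : SqccAllH @SqccT1 := by
  intro M q _ _ _ a _ ha haM hqa hqM haux A hA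
  obtain ⟨r, hr, hrM, -, hr12⟩ := haux
  have hq : q.Prime := Fact.out
  obtain ⟨ζ, E₁, hE₁, hζ, hζE₁⟩ := sqccw_exists_cyclo M
  refine ⟨E₁, hE₁, ?_⟩
  intro E _ _ _ _ hle
  obtain ⟨ζ₀, hζ₀⟩ := sqccw_root_E0 A hq hA hqM E hζ (hle hζE₁)
  intro hϖ Ξ G h
  exact sqgtf_T1_h_full A (ssgfE0 A E) M h a ha haM hqa hA hqM ζ₀ hζ₀ hϖ 1 (mul_one _) r hr hrM
    (by omega) r hr hrM (by omega)

set_option maxHeartbeats 1000000 in
/-- **THE SLOT (R1-T2), chart `h_a`.** -/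
theorem sqcc_t2_h : SqccAllH @SqccT2 := by
  intro M q _ _ _ a _ ha haM hqa hqM haux A hA
  obtain ⟨r, hr, hrM, -, hr12⟩ := haux
  have hq : q.Prime := Fact.out
  obtain ⟨ζ, E₁, hE₁, hζ, hζE₁⟩ := sqccw_exists_cyclo M
  refine ⟨E₁, hE₁, ?_⟩
  intro E _ _ _ _ hle
  obtain ⟨ζ₀, hζ₀⟩ := sqccw_root_E0 A hq hA hqM E hζ (hle hζE₁)
  exact sqcch2_t2_h A (ssgfE0 A E) M q a ha haM hqa hA hqM ζ₀ hζ₀ r hr hrM (by omega) r hr hrM
    (by omega)

/-- **THE BRANCH `q ∈ {2, 3}` OF `SqGeoAll`.** -/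
theorem sqcc_geoH : SqccGeoH :=
  sqcc_geoH_of_slots sqcc_val_h sqcc_wire_h sqcc_t1_h sqcc_t2_h sqcc_inf_h

end Slots

end Fermat.Agent.SQ
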