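import Mathlib
import Fermat.Agent.SQ.Conc.Geo
import Fermat.Agent.SQ.Conc.AmbTwo
import Fermat.Agent.SQ.Conc.WireSlot
import Fermat.Agent.SQ.Conc.CuspJ
import Fermat.Agent.SQ.Germ.T2Val

/-!
# Program Q, assembler : THE SLOT (INF) IS A THEOREM FOR THE CHART `j` (prefix `sqccij_`)

`SqccInf A E M q (ssdJ E M)` (`SQ/Conc/Geo.lean`) asks that every closed point `𝔫 ∋ ϖ, j⁻¹` of the
chart `j⁻¹` of `F_E(M q q)` be simple, for ANY witness `h` of the level-`M q` two-factor package and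
any valuation rings `V₁ V₂ V₃` with (VAL²) = `SqccVal`.  It is helper5's `sqccj_locInf`
(`SQ/Conc/CuspJ.lean`) fed with

* `hgood`, `hgood'` : `GrdfbHyp` for `j`, `j⁻¹` (`ssgb_hyp_j`, `ζ_{6M} ∈ E`, `q ≥ 5`);
* `hTwo` : the level-`M q` (VAL) package for the GIVEN witness `h` (helper18's `sqcau_two_j`);
* `val`, `three` : the given `SqccVal`;
* `hπ` : `V₂(j_qq - j) = V₂(π₂)` (helper22's `sqgtv_val_j`).

* `sqccij_inf_j` : one field `E ∋ ζ_{6M}`;
* `sqcc_inf_j : SqccAllJ @SqccInf` : the slot.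
-/

set_option autoImplicit false
set_option linter.unusedSectionVars false
set_option linter.unusedVariables false
set_option linter.style.haveILetI false
set_option synthInstance.maxHeartbeats 400000

noncomputable section

namespace Fermat.Agent.SQ

open Polynomial ModularCurve AlgebraicCurve IntermediateField IsLocalRing Fermat.Agent.S18
  Fermat.Agent.SS Fermat.Agent.G

local notation "Qb" => AlgebraicClosure ℚ

section OneField

variable (A : ValuationSubring Qb) (E : IntermediateField ℚ Qb) [FiniteDimensional ℚ E]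
  [IsDiscreteValuationRing ↥(s18dVal A E)] [CharZero ↥(s18dVal A E)] (M q : ℕ) [NeZero M]
  [Fact q.Prime] [NeZero q]

set_option maxHeartbeats 2000000 in
/-- the slot (INF) for the chart `j`, over a field containing `ζ_{6M}` -/
theorem sqccij_inf_j (hA : A.LiesOverPrime q) (hqM : ¬ q ∣ M) (h5 : 5 ≤ q)
    (ζ : E) (hζ : IsPrimitiveRoot ζ (6 * M)) : SqccInf A E M q (ssdJ E M) := by
  intro hϖ Ξ G h π₂ V₁ V₂ V₃ hv
  have hg := ssgb_hyp_j M A E hqM hA h5 _ hϖ ζ hζ
  have hTwo := sqcau_two_j A E M hA hqM hϖ h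
  have three : SqvThree hϖ (ssdJ E (M * q * q)) (q - 1) π₂ V₁ V₂ V₃ := by
    have h3 := hv.three
    rw [sqcc_chart_j] at h3
    exact h3
  have hpow₂ : V₂.valuation π₂ ^ (q - 1) = V₂.valuation
      (algebraMap ↥(s18dVal A E) ↥(modularFunctionFieldFullC E (M * q * q))
        ((q : ℕ) : ↥(s18dVal A E))) := by
    obtain ⟨u, hu, e⟩ := three.pow₂
    rw [← map_pow, e, map_mul, hu, mul_one]
  have hπ : V₂.valuation (sqvmY E M q - ssdJ E (M * q * q)) = V₂.valuation π₂ :=
    sqgtv_val_j A E M hA hqM hϖ 1 1 (mul_one _).symm (mul_one 1) Ξ G h V₂ hv.val.posα₂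
      hv.val.posφ₂ π₂ hpow₂
  rw [sqcc_chart_j]
  exact sqccj_locInf A E M h hA hqM hϖ hg.1 hg.2 hTwo hv.val three hπ

end OneField

/-! ### the slot -/

section Slots

set_option maxHeartbeats 1000000 in
/-- **THE SLOT (INF), chart `j`.** -/
theorem sqcc_inf_j : SqccAllJ @SqccInf := by
  intro M q _ _ _ hqM h5 _ A hA
  have hq : q.Prime := Fact.out
  obtain ⟨ζ, E₁, hE₁, hζ, hζE₁⟩ := sqccw_exists_cyclo (6 * M)
  refine ⟨E₁, hE₁, ?_⟩
  intro E _ _ _ _ hle
  have hq6 : ¬ q ∣ 6 * M := by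
    intro hdvd
    rcases (Nat.Prime.dvd_mul hq).mp hdvd with h6 | hM
    · have h23 : q ∣ 2 * 3 := h6
      rcases (Nat.Prime.dvd_mul hq).mp h23 with h2 | h3
      · have := Nat.le_of_dvd (by norm_num) h2
        omega
      · have := Nat.le_of_dvd (by norm_num) h3
        omega
    · exact hqM hM
  obtain ⟨ζ₀, hζ₀⟩ := sqccw_root_E0 A hq hA hq6 E hζ (hle hζE₁)
  exact sqccij_inf_j A (ssgfE0 A E) M q hA hqM h5 ζ₀ hζ₀

end Slots

end Fermat.Agent.SQ
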