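import Mathlib
import Fermat.Agent.SQ.Conc.Geo
import Fermat.Agent.SQ.Conc.WireSlot
import Fermat.Agent.SQ.Conc.T1Slot
import Fermat.Agent.SQ.Germ.T2Conc

/-!
# Program Q, assembler : THE SLOT (R1-T2), chart `j` (prefix `sqct2`)

`SqccT2 A E M q t₀` (helper14's `SQ/Conc/Geo.lean`) : at a closed point of the chart `t` of level
`M q q` lying on `V₂` only, `ϖ = π ^ (q - 1) · w` locally.  For the chart `j` it is helper10's
`sqgt_hT2_j` (`SQ/Germ/T2Conc.lean`) fed with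
* `three`, `posα₂`, `posφ₂` : the given `SqccVal`;
* `chartW`, `chart₂` : helper9's `SqgwHyp` (the slot (WIRE), `sqccw_wire_j`).

* `sqct2_j` : one field `E ∋ ζ_{6M}`;
* `sqcc_t2_j : SqccAllJ @SqccT2`.
-/

set_option autoImplicit false
set_option linter.unusedSectionVars false
set_option linter.unusedVariables false
set_option linter.style.haveILetI false
set_option synthInstance.maxHeartbeats 400000

noncomputable section

namespace Fermat.Agent.SQ

open Polynomial ModularCurve AlgebraicCurve IntermediateField IsLocalRing Fermat.Agent.S18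
  Fermat.Agent.SS Fermat.Agent.G

local notation "Qb" => AlgebraicClosure ℚ

section ChartJ

variable (A : ValuationSubring Qb) (E : IntermediateField ℚ Qb) [FiniteDimensional ℚ E]
  [IsDiscreteValuationRing ↥(s18dVal A E)] [CharZero ↥(s18dVal A E)] (M q : ℕ) [NeZero M]
  [Fact q.Prime] [NeZero q]

set_option maxHeartbeats 2000000 in
/-- **the slot (R1-T2) for the chart `j`**, over a field containing `ζ_{6M}`; aux primes `r ≡ 2 (3)`,
`r' ≡ 3 (4)` dividing `M`. -/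
theorem sqct2_j (hA : A.LiesOverPrime q) (hqM : ¬ q ∣ M) (h5 : 5 ≤ q)
    (ζ : E) (hζ : IsPrimitiveRoot ζ (6 * M))
    (r : ℕ) (hr : r.Prime) (hrM : r ∣ M) (hr3 : r % 3 = 2)
    (r' : ℕ) (hr' : r'.Prime) (hr'M : r' ∣ M) (hr4 : r' % 4 = 3) :
    SqccT2 A E M q (ssdJ E M) := by
  intro hϖ Ξ G h π₂ V₁ V₂ V₃ hv 𝔫 h𝔫 hϖ𝔫 hon h1 h3
  have hW := sqccw_wire_j A E M q hA hqM h5 ζ hζ hϖ h π₂ V₁ V₂ V₃ hv
  have ht : Transcendental E (ssvmdIncl E (M * q) q (ssvmdIncl E M q (ssdJ E M))) := by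
    have := sqcc_chart_j M q E
    rw [show ssvmdIncl E (M * q) q (ssvmdIncl E M q (ssdJ E M)) = ssdJ E (M * q * q) from this]
    exact ssd_transcendental_j _ _
  haveI : FiniteDimensional E⟮ssvmdIncl E (M * q) q (ssvmdIncl E M q (ssdJ E M))⟯
      (modularFunctionFieldFullC E (M * q * q)) := by
    have := sqcc_chart_j M q E
    rw [show ssvmdIncl E (M * q) q (ssvmdIncl E M q (ssdJ E M)) = ssdJ E (M * q * q) from this]
    exact ssd_finiteDimensional_j _ _
  exact sqgt_hT2_j A E M hA hqM h5 ζ hζ hϖ (Associated.refl _) Ξ G h r hr hrM hr3 r' hr' hr'M hr4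
    ht hW.chartW hW.chart₂ hv.three hv.val.posα₂ hv.val.posφ₂ 𝔫 h𝔫 hϖ𝔫 hon h1 h3

end ChartJ

/-! ### the slot -/

section Slots

set_option maxHeartbeats 1000000 in
/-- **THE SLOT (R1-T2), chart `j`.** -/
theorem sqcc_t2_j : SqccAllJ @SqccT2 := by
  intro M q _ _ _ hqM h5 haux A hA
  have hq : q.Prime := Fact.out
  obtain ⟨r, hr, hrM, -, hr12⟩ := haux
  obtain ⟨ζ, E₁, hE₁, hζ, hζE₁⟩ := sqccw_exists_cyclo (6 * M)
  refine ⟨E₁, hE₁, ?_⟩
  intro E _ _ _ _ hle
  obtain ⟨ζ₀, hζ₀⟩ := sqccw_root_E0 A hq hA (sqct1_not_dvd_six hq h5 hqM) E hζ (hle hζE₁)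
  exact sqct2_j A (ssgfE0 A E) M q hA hqM h5 ζ₀ hζ₀ r hr hrM (by omega) r hr hrM (by omega)

end Slots

end Fermat.Agent.SQ
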