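import Mathlib
import Fermat.Agent.SQ.Conc.GeoSplit
import Fermat.Agent.SQ.Conc.ValSlot
import Fermat.Agent.SQ.Conc.WireSlot
import Fermat.Agent.SQ.Conc.T1Slot
import Fermat.Agent.SQ.Conc.T2Slot
import Fermat.Agent.SQ.Conc.InfSlotJ

/-!
# Program Q (S36), concrete side : THE BRANCH `q ≥ 5` (chart `j`) OF `SqGeoAll`

`SqccGeoJ` (`SQ/Conc/GeoSplit.lean`) from the five slots at the chart `j` :

* (VAL²) `sqcc_val_j`  (helper17, `SQ/Conc/ValSlot.lean` : `sqvm_main`, helper18's `sqcvt_three_j`,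
  helper8's `sqvy_val_of_out`);
* (WIRE) `sqcc_wire_j` (helper18, `SQ/Conc/WireSlot.lean`, from helper9's `sqgin_hyp`);
* (T1)   `sqcc_t1_j`   (helper18, `SQ/Conc/T1Slot.lean`, from helper29's `sqgtc_hT1` and helper15's
  `sqgkx_sqgkHor_of_mem`);
* (T2)   `sqcc_t2_j`   (helper18, `SQ/Conc/T2Slot.lean`, from helper10's `sqgt_hT2_j`);
* (INF)  `sqcc_inf_j`  (`SQ/Conc/InfSlotJ.lean`, from helper5's `sqccj_locInf`).
-/

set_option autoImplicit false

noncomputable section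

namespace Fermat.Agent.SQ

/-- the branch `q ≥ 5` from the slots (VAL²) and (R1-T2) at the chart `j` -/
theorem sqcc_geoJ_of (hValJ : SqccAllJ @SqccValEx) (hT2J : SqccAllJ @SqccT2) : SqccGeoJ :=
  sqcc_geoJ_of_slots hValJ sqcc_wire_j sqcc_t1_j hT2J sqcc_inf_j

/-- **THE BRANCH `q ≥ 5` OF `SqGeoAll`** (chart `j`) : a theorem. -/
theorem sqcc_geoJ : SqccGeoJ :=
  sqcc_geoJ_of_slots sqcc_val_j sqcc_wire_j sqcc_t1_j sqcc_t2_j sqcc_inf_j

end Fermat.Agent.SQ
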