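import Fermat.Statements.S36
import Fermat.Agent.SQ.Core.Top
import Fermat.Agent.S35.Nat.BoxQ

/-!
# Program Q (S36) : THE FROZEN STATEMENT S36 FROM `SqGeoAll`

`sqcs_s36_of_geoAll` : the frozen statement S36 (Carayol's lemma at `q² ‖ M`) from the single
geometric Prop `SqGeoAll` (`SQ/Core/Top.lean`) :

  `s36asm_frozen` (helper2, `S35/Asm.lean`)  ⟸  box (K) `s35nf_kummerBoxQ` (helper22/helper13)
                                            +  box (Q) `sq_killBox_of_geo lam _ hgeo` (`SQ/Core`).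

`Fermat/Agent/S36.lean` is then the one-liner
`exact Fermat.Agent.SQ.sqcs_s36_of_geoAll sqcc_geoAll hg lam S O' hlamO' chig hchig iota hlamS hMS`.
-/

set_option autoImplicit false
set_option linter.unusedVariables false

open Polynomial
open CuspForm CuspForm.IsNewform

namespace Fermat.Agent.SQ

/-- **S36 from the concrete side of Program Q.** -/
theorem sqcs_s36_of_geoAll (hgeo : SqGeoAll)
    {M : ℕ} [NeZero M] {g : CuspForm (CongruenceSubgroup.Gamma0 M) 2} (hg : g.IsNewform)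
    (lam : ℕ) [Fact lam.Prime]
    (S : Finset ℕ)
    (O' : Type) [CommRing O'] [IsDomain O'] [IsDiscreteValuationRing O']
    [IsAdicComplete (IsLocalRing.maximalIdeal O') O'] [Finite (IsLocalRing.ResidueField O')]
    [CharZero O'] (hlamO' : (lam : O') ∈ IsLocalRing.maximalIdeal O')
    (chig : CuspForm.heckeAlgebra M 2 (↑S : Set ℕ) →+* ℂ)
    (hchig : ∀ (ℓ : ℕ) (hℓ : ℓ.Prime) (hℓM : ¬ ℓ ∣ M) (hℓS : ℓ ∉ (↑S : Set ℕ)),
      chig (CuspForm.heckeAlgebra.T hℓ hℓM hℓS) = ModularFormClass.qCoeff g ℓ)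
    (iota : chig.range →+* O')
    (hlamS : lam ∈ S) (hMS : ∀ q : ℕ, q.Prime → q ∣ M → q ∈ S) :
    ∃ (O'' : Type) (_ : CommRing O'') (_ : IsDomain O'') (_ : IsDiscreteValuationRing O'')
      (_ : IsAdicComplete (IsLocalRing.maximalIdeal O'') O'') (_ : Finite (IsLocalRing.ResidueField O''))
      (_ : CharZero O'') (_ : Algebra O' O'') (_ : Module.Finite O' O'') (_ : IsLocalHom (algebraMap O' O'')),
      Function.Injective (algebraMap O' O'') ∧
      ∃ ρ : GaloisRepAdic O'',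
        (∀ (ℓ : ℕ) (hℓ : ℓ.Prime) (hℓM : ¬ ℓ ∣ M) (hℓS : ℓ ∉ (↑S : Set ℕ)),
          ∀ A : ValuationSubring (AlgebraicClosure ℚ), A.LiesOverPrime ℓ →
            ∀ σ : AlgebraicClosure ℚ ≃ₐ[ℚ] AlgebraicClosure ℚ, A.IsFrobeniusAt σ ℓ →
              LinearMap.charpoly (ρ.ρ σ) =
                X ^ 2 - C (algebraMap O' O'' ((iota.comp chig.rangeRestrict) (CuspForm.heckeAlgebra.T hℓ hℓM hℓS))) * X
                  + C ((ℓ : O''))) ∧
        (∀ q : ℕ, q.Prime → q ≠ lam → M.factorization q = 2 → ¬ ρ.IsUnipotentOnInertiaAt q) :=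
  Fermat.Agent.G.s36asm_frozen lam S O' hlamO' chig iota hlamS hMS
    (Fermat.Agent.S35.s35nf_kummerBoxQ hg S O' chig hchig iota)
    (sq_killBox_of_geo lam Fact.out hgeo)

end Fermat.Agent.SQ
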